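import Fermat.Agent.TW.Top.CoreSeam

/-!
# Project ONE MACHINE: the CORE seam, VERSION 2 (helper9, chief architect)

Revision of `twt_Core_stmt` after the referee reports (#4620, #4625):

* **(HARD-ALL)** the machine is only asked to work when EVERY odd prime `ℓ ∣ N` is hard
  (`ℓ ≡ 1 mod p` and `ρ̄(Frob_ℓ)` scalar): `twt_AllHard`.  (The non-hard primes are removed
  beforehand by Mazur's principle, see `s43t_hard_of_clean` in `S43/Top/HardSeams3.lean`.)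
* `ρ̄` is unramified at EVERY prime `ℓ ≠ 2, p` (so `Smin = {2, p}` exactly in block [C]).
* the Taylor–Wiles hypothesis `twt_TWHyp ρ̄` (the literal hypothesis `hTW` of the frozen S56;
  definitionally `s56g_TWHyp`) is an explicit hypothesis.
* the eigensystem is non-Eisenstein: `twt_NonEis θ`.
-/

set_option autoImplicit false

namespace Fermat.Agent.TW

open Polynomial CuspForm

/-- the Taylor–Wiles hypothesis, in the frozen shape of `hTW` of S56 (`= s56g_TWHyp`): over every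
extension `K` of `k`, every index-`2` subgroup of `G_ℚ` acts irreducibly on `K ⊗ ρ̄`. -/
def twt_TWHyp {k : Type} [Field k] (ρbar : ResidualGaloisRep k) : Prop :=
  ∀ (K : Type) [Field K] [Algebra k K] (G : Subgroup twt_G), G.index = 2 →
    ∀ V : Submodule K (ρbar.baseChange K).V,
      (∀ σ ∈ G, ∀ x ∈ V, (ρbar.baseChange K).ρ σ x ∈ V) → V = ⊥ ∨ V = ⊤

/-- the eigensystem `θ` is non-Eisenstein: `θ(T_ℓ) ≠ ℓ + 1` for some `ℓ ∉ S`. -/
def twt_NonEis {k : Type} [Field k] {N : ℕ} [NeZero N] {S : Finset ℕ}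
    (θ : heckeAlgebra N 2 (↑S : Set ℕ) →+* k) : Prop :=
  ∃ (ℓ : ℕ) (hℓ : ℓ.Prime) (hℓN : ¬ ℓ ∣ N) (hℓS : ℓ ∉ (↑S : Set ℕ)),
    θ (heckeAlgebra.T hℓ hℓN hℓS) ≠ (ℓ : k) + 1

/-- every odd prime of the level is hard: `ℓ ≡ 1 mod p` and `ρ̄(Frob_ℓ)` is scalar. -/
def twt_AllHard {k : Type} [Field k] (p N : ℕ) (ρbar : ResidualGaloisRep k) : Prop :=
  ∀ ℓ : ℕ, ℓ.Prime → ℓ ∣ N → ℓ ≠ 2 → ℓ % p = 1 ∧ twt_FrobScalar ρbar ℓ

/-- **THE CORE, version 2**: level lowering at a hard prime `q` for a mod-`p` eigensystem with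
pivot `2`, all of whose odd level primes are hard. -/
def twt_Core2_stmt : Prop :=
  ∀ (p : ℕ) [Fact p.Prime], 5 ≤ p →
  ∀ (k : Type) [Field k] [Finite k] [CharP k p]
    (N q : ℕ) [NeZero N] [NeZero (N / q)], Squarefree N → 2 ∣ N → ¬ p ∣ N →
    q.Prime → q ≠ 2 → q ∣ N →
  ∀ (S : Finset ℕ), p ∈ S → (∀ ℓ : ℕ, ℓ.Prime → ℓ ∣ N → ℓ ∈ S) →
  ∀ (θ : heckeAlgebra N 2 (↑S : Set ℕ) →+* k) (ρbar : ResidualGaloisRep k),
    twt_Compat θ ρbar →
    twt_NonEis θ →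
    ρbar.IsAbsolutelyIrreducible →
    twt_TWHyp ρbar →
    ¬ ρbar.IsUnramifiedAt 2 →
    (∀ ℓ : ℕ, ℓ.Prime → ℓ ≠ 2 → ℓ ≠ p → ρbar.IsUnramifiedAt ℓ) →
    twt_AllHard p N ρbar →
    ∃ (k' : Type) (_ : Field k') (_ : Algebra k k')
      (θ' : heckeAlgebra (N / q) 2 (↑S : Set ℕ) →+* k'), twt_SameAway θ θ'

end Fermat.Agent.TW
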