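import Fermat.Agent.TW.Top.CoreSeam
import Fermat.Prelude.Def_GaloisRep_Adic

/-!
# Project ONE MACHINE: LEVEL-2 seams of the CORE (helper9, chief architect)

`twt_core_of : twt_Machine_stmt → twt_ReadOff_stmt → twt_Core_stmt`.

* `twt_Machine_stmt` **[MACH] = blocks [A]–[E] + [D]-endgame + [OUT]**: under the hypotheses of the
  CORE there is a complete DVR `𝒪` of characteristic `0` (residue field an extension of `k`), a
  ring homomorphism `χ : 𝕋_S(N) → 𝒪` lifting `θ` and a Galois representation `ρ` over `𝒪` with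
  `charpoly ρ(Frob_ℓ) = X² − χ(T_ℓ) X + ℓ` (`ℓ ∉ S`) which is UNRAMIFIED at `q`
  ("a modular lift of level `N` unramified at the hard prime");
* `twt_ReadOff_stmt` **[RO] (block [F], referee's `twf_unram_imp_old`)**: an eigensystem of level `N`
  in characteristic `0` whose Galois representation is unramified at `q ∥ N` has its reduction
  occurring at level `N / q` (characteristic-`0` Mazur principle: Steinberg at `q` ⟹ ramified).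
-/

set_option autoImplicit false

namespace Fermat.Agent.TW

open Polynomial CuspForm IsLocalRing

/-- `χ` (characteristic `0`) and `ρ` are compatible at the Frobenius elements outside `S`. -/
def twt_CompatAdic {𝒪 : Type} [CommRing 𝒪] [IsLocalRing 𝒪] {N : ℕ} [NeZero N] {S : Finset ℕ}
    (χ : heckeAlgebra N 2 (↑S : Set ℕ) →+* 𝒪) (ρ : GaloisRepAdic 𝒪) : Prop :=
  ∀ (ℓ : ℕ) (hℓ : ℓ.Prime) (hℓN : ¬ ℓ ∣ N) (hℓS : ℓ ∉ (↑S : Set ℕ)),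
    ∀ A : ValuationSubring twt_Qb, A.LiesOverPrime ℓ →
      ∀ σ : twt_G, A.IsFrobeniusAt σ ℓ →
        LinearMap.charpoly (ρ.ρ σ) =
          X ^ 2 - C (χ (heckeAlgebra.T hℓ hℓN hℓS)) * X + C ((ℓ : 𝒪))

/-- **[RO] READ-OFF**: unramified at `q ∥ N` ⟹ the reduction of the eigensystem occurs at level
`N / q`. -/
def twt_ReadOff_stmt : Prop :=
  ∀ (p : ℕ) [Fact p.Prime] (N q : ℕ) [NeZero N] [NeZero (N / q)], Squarefree N →
    q.Prime → q ∣ N → q ≠ p →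
  ∀ (S : Finset ℕ), p ∈ S → (∀ ℓ : ℕ, ℓ.Prime → ℓ ∣ N → ℓ ∈ S) →
  ∀ (𝒪 : Type) [CommRing 𝒪] [IsDomain 𝒪] [IsDiscreteValuationRing 𝒪]
    [IsAdicComplete (maximalIdeal 𝒪) 𝒪] [Finite (ResidueField 𝒪)] [CharZero 𝒪],
    (p : 𝒪) ∈ maximalIdeal 𝒪 →
  ∀ (χ : heckeAlgebra N 2 (↑S : Set ℕ) →+* 𝒪) (ρ : GaloisRepAdic 𝒪),
    twt_CompatAdic χ ρ → ρ.IsUnramifiedAt q →
    ∃ (k' : Type) (_ : Field k') (_ : Algebra (ResidueField 𝒪) k')
      (θ' : heckeAlgebra (N / q) 2 (↑S : Set ℕ) →+* k'),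
      ∀ (ℓ : ℕ) (hℓ : ℓ.Prime) (hℓN : ¬ ℓ ∣ N) (hℓM : ¬ ℓ ∣ N / q) (hℓS : ℓ ∉ (↑S : Set ℕ)),
        θ' (heckeAlgebra.T hℓ hℓM hℓS) =
          algebraMap (ResidueField 𝒪) k' (residue 𝒪 (χ (heckeAlgebra.T hℓ hℓN hℓS)))

/-- **[MACH] THE MACHINE**: a modular lift of level `N` which is unramified at the hard prime. -/
def twt_Machine_stmt : Prop :=
  ∀ (p : ℕ) [Fact p.Prime], 5 ≤ p →
  ∀ (k : Type) [Field k] [Finite k] [CharP k p]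
    (N q : ℕ) [NeZero N], Squarefree N → 2 ∣ N → ¬ p ∣ N →
    q.Prime → q ≠ 2 → q ∣ N → q % p = 1 →
  ∀ (S : Finset ℕ), p ∈ S → (∀ ℓ : ℕ, ℓ.Prime → ℓ ∣ N → ℓ ∈ S) →
  ∀ (θ : heckeAlgebra N 2 (↑S : Set ℕ) →+* k) (ρbar : ResidualGaloisRep k),
    twt_Compat θ ρbar →
    ρbar.IsAbsolutelyIrreducible →
    ¬ ρbar.IsUnramifiedAt 2 →
    (∀ ℓ : ℕ, ℓ.Prime → ℓ ∣ N → ℓ ≠ 2 → ρbar.IsUnramifiedAt ℓ) →
    twt_FrobScalar ρbar q →
    ∃ (𝒪 : Type) (_ : CommRing 𝒪) (_ : IsDomain 𝒪) (_ : IsDiscreteValuationRing 𝒪)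
      (_ : IsAdicComplete (maximalIdeal 𝒪) 𝒪) (_ : Finite (ResidueField 𝒪)) (_ : CharZero 𝒪)
      (_ : Algebra k (ResidueField 𝒪))
      (χ : heckeAlgebra N 2 (↑S : Set ℕ) →+* 𝒪) (ρ : GaloisRepAdic 𝒪),
      (p : 𝒪) ∈ maximalIdeal 𝒪 ∧
      (∀ t : heckeAlgebra N 2 (↑S : Set ℕ), residue 𝒪 (χ t) = algebraMap k (ResidueField 𝒪) (θ t)) ∧
      twt_CompatAdic χ ρ ∧ ρ.IsUnramifiedAt q

/-- **CORE from [MACH] and [RO].** -/
theorem twt_core_of (hM : twt_Machine_stmt) (hR : twt_ReadOff_stmt) : twt_Core_stmt := by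
  intro p _ hp5 k _ _ _ N q _ _ hNsq h2N hpN hq hq2 hqN hq1 S hpS hNS θ ρbar hcompat habs hram2
    hunr hscal
  obtain ⟨𝒪, _, _, _, _, _, _, _, χ, ρ, hp𝒪, hχθ, hχρ, hρq⟩ :=
    hM p hp5 k N q hNsq h2N hpN hq hq2 hqN hq1 S hpS hNS θ ρbar hcompat habs hram2 hunr hscal
  have hqp : q ≠ p := by
    rintro rfl
    have h0 : q % q = 0 := Nat.mod_self q
    omega
  obtain ⟨k', _, _, θ', hθ'⟩ := hR p N q hNsq hq hqN hqp S hpS hNS 𝒪 hp𝒪 χ ρ hχρ hρq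
  letI : Algebra k k' :=
    ((algebraMap (ResidueField 𝒪) k').comp (algebraMap k (ResidueField 𝒪))).toAlgebra
  refine ⟨k', inferInstance, inferInstance, θ', ?_⟩
  intro ℓ hℓ hℓN hℓM hℓS
  rw [hθ' ℓ hℓ hℓN hℓM hℓS, hχθ]
  rfl

end Fermat.Agent.TW
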