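import Mathlib
import Fermat.Prelude.Def_CuspForm_HeckeAlgebra
import Fermat.Prelude.Def_GaloisRep_Residual
import Fermat.Prelude.Def_EllipticCurve_FrobeniusTrace
import Fermat.Prelude.Def_FLTPrelim_Ramification

/-!
# Project ONE MACHINE: the CORE seam (helper9, chief architect)

`twt_Core_stmt` = **level lowering at a hard prime for a mod-`p` Hecke eigensystem with pivot `2`**,
free of Frey packages and of elliptic curves.  This is the output of the Kisin–Taylor machine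
(blocks [A]–[E]); the S43-specific adapters (blocks [F]) live in `Fermat/Agent/S43/Top/`.

DATA  `p ≥ 5` prime; `k` a finite field of characteristic `p`; `N` squarefree, `2 ∣ N`, `p ∤ N`;
      `q ∣ N` an odd prime, `q ≡ 1 mod p`; `S ⊇ {p} ∪ {ℓ ∣ N}` finite;
      `θ : 𝕋_S(N) → k` a ring homomorphism (an eigensystem mod `p` of level `N` away from `S`);
      `ρ̄ : G_ℚ → GL₂(k)` with `charpoly ρ̄(Frob_ℓ) = X² − θ(T_ℓ) X + ℓ` for `ℓ ∉ S`.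
HYP   `ρ̄` absolutely irreducible, RAMIFIED at `2` (the pivot), unramified at the odd primes of `N`,
      `ρ̄(Frob_q)` scalar.
CONCL an eigensystem `θ'` of level `N / q` (values in an extension `k'` of `k`) with
      `θ'(T_ℓ) = θ(T_ℓ)` for all `ℓ ∉ S`.
-/

set_option autoImplicit false

namespace Fermat.Agent.TW

open Polynomial CuspForm

/-- `ℚ̄` -/
abbrev twt_Qb : Type := AlgebraicClosure ℚ

/-- `G_ℚ` -/
abbrev twt_G : Type := twt_Qb ≃ₐ[ℚ] twt_Qb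

/-- `θ` and `ρ̄` are compatible: `charpoly ρ̄(Frob_ℓ) = X² − θ(T_ℓ) X + ℓ` for every `ℓ ∉ S`. -/
def twt_Compat {k : Type} [Field k] {N : ℕ} [NeZero N] {S : Finset ℕ}
    (θ : heckeAlgebra N 2 (↑S : Set ℕ) →+* k) (ρbar : ResidualGaloisRep k) : Prop :=
  ∀ (ℓ : ℕ) (hℓ : ℓ.Prime) (hℓN : ¬ ℓ ∣ N) (hℓS : ℓ ∉ (↑S : Set ℕ)),
    ∀ A : ValuationSubring twt_Qb, A.LiesOverPrime ℓ →
      ∀ σ : twt_G, A.IsFrobeniusAt σ ℓ →
        LinearMap.charpoly (ρbar.ρ σ) =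
          X ^ 2 - C (θ (heckeAlgebra.T hℓ hℓN hℓS)) * X + C ((ℓ : k))

/-- every Frobenius element at `q` acts through `ρ̄` as a scalar -/
def twt_FrobScalar {k : Type} [Field k] (ρbar : ResidualGaloisRep k) (q : ℕ) : Prop :=
  ∀ A : ValuationSubring twt_Qb, A.LiesOverPrime q →
    ∀ σ : twt_G, A.IsFrobeniusAt σ q → ∃ c : k, ρbar.ρ σ = c • (1 : Module.End k ρbar.V)

/-- `θ'` (level `M`) and `θ` (level `N`) agree on the `T_ℓ`, `ℓ ∉ S`. -/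
def twt_SameAway {k k' : Type} [Field k] [Field k'] [Algebra k k'] {N M : ℕ} [NeZero N] [NeZero M]
    {S : Finset ℕ} (θ : heckeAlgebra N 2 (↑S : Set ℕ) →+* k)
    (θ' : heckeAlgebra M 2 (↑S : Set ℕ) →+* k') : Prop :=
  ∀ (ℓ : ℕ) (hℓ : ℓ.Prime) (hℓN : ¬ ℓ ∣ N) (hℓM : ¬ ℓ ∣ M) (hℓS : ℓ ∉ (↑S : Set ℕ)),
    θ' (heckeAlgebra.T hℓ hℓM hℓS) = algebraMap k k' (θ (heckeAlgebra.T hℓ hℓN hℓS))

/-- **THE CORE**: level lowering at a hard prime `q` for a mod-`p` eigensystem with pivot `2`. -/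
def twt_Core_stmt : Prop :=
  ∀ (p : ℕ) [Fact p.Prime], 5 ≤ p →
  ∀ (k : Type) [Field k] [Finite k] [CharP k p]
    (N q : ℕ) [NeZero N] [NeZero (N / q)], Squarefree N → 2 ∣ N → ¬ p ∣ N →
    q.Prime → q ≠ 2 → q ∣ N → q % p = 1 →
  ∀ (S : Finset ℕ), p ∈ S → (∀ ℓ : ℕ, ℓ.Prime → ℓ ∣ N → ℓ ∈ S) →
  ∀ (θ : heckeAlgebra N 2 (↑S : Set ℕ) →+* k) (ρbar : ResidualGaloisRep k),
    twt_Compat θ ρbar →
    ρbar.IsAbsolutelyIrreducible →
    ¬ ρbar.IsUnramifiedAt 2 →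
    (∀ ℓ : ℕ, ℓ.Prime → ℓ ∣ N → ℓ ≠ 2 → ρbar.IsUnramifiedAt ℓ) →
    twt_FrobScalar ρbar q →
    ∃ (k' : Type) (_ : Field k') (_ : Algebra k k')
      (θ' : heckeAlgebra (N / q) 2 (↑S : Set ℕ) →+* k'), twt_SameAway θ θ'

end Fermat.Agent.TW
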