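import Fermat.Agent.TW.Top.CoreSeam2
import Fermat.Agent.S58.CmpDet
import Fermat.Agent.SS.Transfer

/-!
# Project ONE MACHINE: the determinant of `ρ̄` is cyclotomic (helper9)

Consumer cell for block [C] (hypothesis `hdet` of `s56a_Hyp` / of the frozen S56).

`twt_det_of_compat` : if `θ` and `ρ̄` are compatible (`twt_Compat θ ρ̄`:
`charpoly ρ̄(Frob_ℓ) = X² − θ(T_ℓ) X + ℓ` for `ℓ ∉ S`), `p ∈ S`, `S ⊇ {ℓ ∣ N}`, `k` of
characteristic `p`, then `(GaloisRepAdic.ofResidualGaloisRep ρ̄).DetIsCyclotomic p`.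

Proof: `det ρ̄(Frob_ℓ) = ℓ` for all `ℓ ∉ S` (constant coefficient of the characteristic
polynomial), then weak Chebotarev in the form `s58cd_main` (S58/CmpDet.lean) applied to the
"adic" representation `ofResidualGaloisRep ρ̄` over the field `k` (a complete noetherian local ring
with maximal ideal `⊥`), then `cya_detIsCyclotomic`.
-/

set_option autoImplicit false
set_option linter.style.haveILetI false

namespace Fermat.Agent.TW

open Polynomial CuspForm IsLocalRing Fermat.Agent.JT3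

/-- a field is adically complete for its maximal ideal (`= ⊥`). -/
theorem twt_field_isAdicComplete (k : Type*) [Field k] : IsAdicComplete (maximalIdeal k) k := by
  have hbot : maximalIdeal k = ⊥ :=
    (Ideal.eq_bot_or_top _).resolve_right (Ideal.IsMaximal.ne_top inferInstance)
  rw [hbot]
  infer_instance

/-- **`det ρ̄` is the mod-`p` cyclotomic character** (prelude form `DetIsCyclotomic p`). -/
theorem twt_det_of_compat {p : ℕ} [Fact p.Prime] {k : Type} [Field k] [CharP k p]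
    {N : ℕ} [NeZero N] {S : Finset ℕ} (hNS : ∀ ℓ : ℕ, ℓ.Prime → ℓ ∣ N → ℓ ∈ S)
    (θ : heckeAlgebra N 2 (↑S : Set ℕ) →+* k) (ρbar : ResidualGaloisRep k)
    (hcompat : twt_Compat θ ρbar) :
    (GaloisRepAdic.ofResidualGaloisRep ρbar).DetIsCyclotomic p := by
  haveI : IsAdicComplete (maximalIdeal k) k := twt_field_isAdicComplete k
  have hp : (p : k) ∈ maximalIdeal k := by
    rw [CharP.cast_eq_zero k p]
    exact Ideal.zero_mem _
  refine cya_detIsCyclotomic p (GaloisRepAdic.ofResidualGaloisRep ρbar) hp fun σ => ?_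
  refine Fermat.Agent.S58.s58cd_main p hp (GaloisRepAdic.ofResidualGaloisRep ρbar) S ?_ σ
  intro ℓ hℓ hℓS P hP φ hφ
  have hℓN : ¬ ℓ ∣ N := fun h => hℓS (hNS ℓ hℓ h)
  have hℓS' : ℓ ∉ (↑S : Set ℕ) := fun h => hℓS (Finset.mem_coe.mp h)
  have h5 := Fermat.Agent.SS.sst_charpoly_rank_two
    (GaloisRepAdic.ofResidualGaloisRep ρbar).finrank_eq
    ((GaloisRepAdic.ofResidualGaloisRep ρbar).ρ φ)
  have h6 : LinearMap.charpoly ((GaloisRepAdic.ofResidualGaloisRep ρbar).ρ φ) =
      X ^ 2 - C (θ (heckeAlgebra.T hℓ hℓN hℓS')) * X + C ((ℓ : k)) :=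
    hcompat ℓ hℓ hℓN hℓS' P hP φ hφ
  rw [h6] at h5
  have h7 := congrArg (fun q => q.coeff 0) h5
  simp only [coeff_add, coeff_sub, coeff_X_pow, coeff_C_mul, coeff_X_zero, coeff_C_zero] at h7
  norm_num at h7
  exact h7.symm

end Fermat.Agent.TW
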