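import Fermat.Agent.TW.Top.MachineSeam
import Fermat.Agent.TW.Top.DetOfCompat

/-!
# Project ONE MACHINE: the determinant of an `𝒪`-adic representation compatible with an
eigensystem is the `p`-adic cyclotomic character (helper9)

Characteristic-`0` twin of `TW/Top/DetOfCompat.lean`; consumer: the read-off block [RO].
Prefix `twt_da_`.

`𝒪` a complete noetherian local ring with `p ∈ 𝔪`, `ρ : GaloisRepAdic 𝒪`, `S ∋ p` finite containing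
the primes of `N`, and `twt_CompatAdic χ ρ`
(`charpoly ρ(Frob_ℓ) = X² − χ(T_ℓ) X + ℓ` for `ℓ ∉ S`).  Then:

* `twt_da_det`          : `det ρ(σ) = ε(σ)` (`cya_eps`) for every `σ`;
* `twt_da_detIsCyclotomic` : `ρ.DetIsCyclotomic p` (prelude form);
* `twt_da_det_frob`     : `det ρ(φ) = q` for EVERY Frobenius lift `φ` at EVERY prime `q ≠ p`
  (no unramifiedness needed; in particular at the bad primes `q ∣ N`);
* `twt_da_det_inertia`  : `det ρ(σ) = 1` for `σ` in an inertia group at `q ≠ p`.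
-/

set_option autoImplicit false
set_option linter.style.haveILetI false
set_option linter.unusedSectionVars false

namespace Fermat.Agent.TW

open Polynomial CuspForm IsLocalRing Fermat.Agent.JT3

section

variable {p : ℕ} [Fact p.Prime] {𝒪 : Type} [CommRing 𝒪] [IsLocalRing 𝒪] [IsNoetherianRing 𝒪]
  [IsAdicComplete (maximalIdeal 𝒪) 𝒪]
  {N : ℕ} [NeZero N] {S : Finset ℕ}

/-- `det ρ(Frob_ℓ) = ℓ` for `ℓ ∉ S`, from the characteristic polynomial. -/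
theorem twt_da_det_frob_good (hNS : ∀ ℓ : ℕ, ℓ.Prime → ℓ ∣ N → ℓ ∈ S)
    (χ : heckeAlgebra N 2 (↑S : Set ℕ) →+* 𝒪) (ρ : GaloisRepAdic 𝒪)
    (hcompat : twt_CompatAdic χ ρ) {ℓ : ℕ} (hℓ : ℓ.Prime) (hℓS : ℓ ∉ S)
    (A : ValuationSubring twt_Qb) (hA : A.LiesOverPrime ℓ) (φ : twt_G)
    (hφ : A.IsFrobeniusAt φ ℓ) : LinearMap.det (ρ.ρ φ) = (ℓ : 𝒪) := by
  have hℓN : ¬ ℓ ∣ N := fun h => hℓS (hNS ℓ hℓ h)
  have hℓS' : ℓ ∉ (↑S : Set ℕ) := fun h => hℓS (Finset.mem_coe.mp h)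
  have h5 := Fermat.Agent.SS.sst_charpoly_rank_two ρ.finrank_eq (ρ.ρ φ)
  have h6 : LinearMap.charpoly (ρ.ρ φ) =
      X ^ 2 - C (χ (heckeAlgebra.T hℓ hℓN hℓS')) * X + C ((ℓ : 𝒪)) :=
    hcompat ℓ hℓ hℓN hℓS' A hA φ hφ
  rw [h6] at h5
  have h7 := congrArg (fun q => q.coeff 0) h5
  simp only [coeff_add, coeff_sub, coeff_X_pow, coeff_C_mul, coeff_X_zero, coeff_C_zero] at h7
  norm_num at h7
  exact h7.symm

/-- **`det ρ = ε`**, the `p`-adic cyclotomic character. -/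
theorem twt_da_det (hp : (p : 𝒪) ∈ maximalIdeal 𝒪)
    (hNS : ∀ ℓ : ℕ, ℓ.Prime → ℓ ∣ N → ℓ ∈ S)
    (χ : heckeAlgebra N 2 (↑S : Set ℕ) →+* 𝒪) (ρ : GaloisRepAdic 𝒪)
    (hcompat : twt_CompatAdic χ ρ) (σ : twt_G) :
    LinearMap.det (ρ.ρ σ) = cya_eps p 𝒪 hp σ :=
  Fermat.Agent.S58.s58cd_main p hp ρ S
    (fun _ hℓ hℓS A hA φ hφ => twt_da_det_frob_good hNS χ ρ hcompat hℓ hℓS A hA φ hφ) σ

/-- `ρ.DetIsCyclotomic p` (prelude form). -/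
theorem twt_da_detIsCyclotomic (hp : (p : 𝒪) ∈ maximalIdeal 𝒪)
    (hNS : ∀ ℓ : ℕ, ℓ.Prime → ℓ ∣ N → ℓ ∈ S)
    (χ : heckeAlgebra N 2 (↑S : Set ℕ) →+* 𝒪) (ρ : GaloisRepAdic 𝒪)
    (hcompat : twt_CompatAdic χ ρ) : ρ.DetIsCyclotomic p :=
  cya_detIsCyclotomic p ρ hp (twt_da_det hp hNS χ ρ hcompat)

/-- **`det ρ(φ) = q` for every Frobenius lift `φ` at every prime `q ≠ p`** — also at the primes
of `S`, ramified or not. -/
theorem twt_da_det_frob (hp : (p : 𝒪) ∈ maximalIdeal 𝒪)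
    (hNS : ∀ ℓ : ℕ, ℓ.Prime → ℓ ∣ N → ℓ ∈ S)
    (χ : heckeAlgebra N 2 (↑S : Set ℕ) →+* 𝒪) (ρ : GaloisRepAdic 𝒪)
    (hcompat : twt_CompatAdic χ ρ) {q : ℕ} (hq : q.Prime) (hqp : q ≠ p)
    (A : ValuationSubring twt_Qb) (hA : A.LiesOverPrime q) (φ : twt_G)
    (hφ : A.IsFrobeniusAt φ q) : LinearMap.det (ρ.ρ φ) = (q : 𝒪) := by
  rw [twt_da_det hp hNS χ ρ hcompat φ]
  exact cya_eps_frob p 𝒪 hp hq hqp A hA φ hφ

/-- `det ρ(σ) = 1` for `σ` in an inertia group at a prime `q ≠ p`. -/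
theorem twt_da_det_inertia (hp : (p : 𝒪) ∈ maximalIdeal 𝒪)
    (hNS : ∀ ℓ : ℕ, ℓ.Prime → ℓ ∣ N → ℓ ∈ S)
    (χ : heckeAlgebra N 2 (↑S : Set ℕ) →+* 𝒪) (ρ : GaloisRepAdic 𝒪)
    (hcompat : twt_CompatAdic χ ρ) {q : ℕ} (hq : q.Prime) (hqp : q ≠ p)
    (A : ValuationSubring twt_Qb) (hA : A.LiesOverPrime q) {σ : twt_G}
    (hσ : σ ∈ A.inertiaSubgroupIn ℚ) : LinearMap.det (ρ.ρ σ) = 1 := by
  rw [twt_da_det hp hNS χ ρ hcompat σ]
  exact cya_eps_inertia p 𝒪 hp hq hqp A hA hσ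

end

end Fermat.Agent.TW
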