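import Fermat.Agent.TW.Top.UnramAway
import Fermat.Agent.TW.Top.DetAdic
import Fermat.Agent.TW.Def.Seams
import Fermat.Agent.S32
import Fermat.Agent.S34

/-!
# Project ONE MACHINE: the local properties of the representation of a Hecke–Galois datum
(helper9)

One-stop lemma for the assembler of the Taylor–Wiles levels: for a Hecke–Galois datum
`H : HeckeGaloisRepDatum Nb ↑S' 𝒪 θ T` of level `Nb` prime to `p` (`S' ∋ p` containing the primes of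
`Nb`, otherwise ARBITRARY):

* `twt_dl_det`   : `H.ρ.DetIsCyclotomic p` (Čebotarev, `TW/Top/DetAdic.lean`);
* `twt_dl_flat`  : `H.ρ.IsFlatAt p` (statement S32);
* `twt_dl_unram` : `H.ρ.IsUnramifiedAt q` for every prime `q ∤ Nb p` (`TW/Top/UnramAway.lean`);
* `twt_dl_unip`  : `H.ρ.IsUnipotentOnInertiaAt q` for `q ∥ Nb`, `q ≠ p` (statement S34);
* `twt_dl_hasType_one` : the same as `twc_HasType H.ρ q 1`;
* `twt_dl_isType` : `twc_IsType p Smin Th Q H.ρ` (block [C], `TW/Def/Seams.lean`) as soon as every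
  prime of `Nb` lies in `Smin ∪ Th ∪ Q` and the primes of `Smin ∖ {p}` divide `Nb` exactly once.

Prefix `twt_dl_`.
-/

set_option autoImplicit false
set_option linter.style.haveILetI false
set_option linter.unusedSectionVars false

namespace Fermat.Agent.TW

open IsLocalRing Polynomial CuspForm Fermat.Agent.JT3

section main

variable {p : ℕ} {Nb : ℕ} [NeZero Nb] {S' : Finset ℕ}
  {𝒪 : Type} [CommRing 𝒪] [IsDomain 𝒪] [IsDiscreteValuationRing 𝒪]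
  [IsAdicComplete (maximalIdeal 𝒪) 𝒪]
  {θ : heckeAlgebra Nb 2 (↑S' : Set ℕ) →+* ResidueField 𝒪}
  {T : Type} [CommRing T] [IsLocalRing T] [IsNoetherianRing T]
  [IsAdicComplete (maximalIdeal T) T] [Algebra 𝒪 T] [IsLocalHom (algebraMap 𝒪 T)]
  [Module.Finite 𝒪 T] [Module.Free 𝒪 T]

/-- `p ∈ 𝔪_T`. -/
theorem twt_dl_p_mem (hp𝒪 : (p : 𝒪) ∈ maximalIdeal 𝒪) : (p : T) ∈ maximalIdeal T := by
  have h1 := map_nonunit (algebraMap 𝒪 T) (p : 𝒪) hp𝒪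
  rwa [map_natCast] at h1

/-- the determinant of the representation of a Hecke–Galois datum is cyclotomic. -/
theorem twt_dl_det (hp : p.Prime) (hp𝒪 : (p : 𝒪) ∈ maximalIdeal 𝒪)
    (hNS : ∀ q : ℕ, q.Prime → q ∣ Nb → q ∈ S')
    (H : HeckeGaloisRepDatum Nb (↑S' : Set ℕ) 𝒪 θ T) : H.ρ.DetIsCyclotomic p := by
  haveI : Fact p.Prime := ⟨hp⟩
  exact twt_da_detIsCyclotomic (twt_dl_p_mem hp𝒪) hNS H.π H.ρ H.charpoly_frob

/-- flat at `p ∤ Nb` (S32). -/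
theorem twt_dl_flat [Finite (ResidueField 𝒪)] [CharZero 𝒪]
    (hp : p.Prime) (hp2 : p ≠ 2) (hp𝒪 : (p : 𝒪) ∈ maximalIdeal 𝒪) (hpN : ¬ p ∣ Nb)
    (hpS : p ∈ S') (hNS : ∀ q : ℕ, q.Prime → q ∣ Nb → q ∈ S')
    (H : HeckeGaloisRepDatum Nb (↑S' : Set ℕ) 𝒪 θ T) : H.ρ.IsFlatAt p :=
  Fermat.Agent.S32.result hp hp2 hp𝒪 hpN hpS hNS H

/-- unramified at every prime `q ∤ Nb p`. -/
theorem twt_dl_unram (hp : p.Prime) (hp𝒪 : (p : 𝒪) ∈ maximalIdeal 𝒪)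
    (hpS : p ∈ S') (hNS : ∀ q : ℕ, q.Prime → q ∣ Nb → q ∈ S')
    (H : HeckeGaloisRepDatum Nb (↑S' : Set ℕ) 𝒪 θ T)
    (q : ℕ) (hq : q.Prime) (hqN : ¬ q ∣ Nb) (hqp : q ≠ p) : H.ρ.IsUnramifiedAt q :=
  twt_ua_unram hp hp𝒪 hpS hNS H q hq hqN hqp

/-- unipotent inertia at `q ∥ Nb`, `q ≠ p` (S34). -/
theorem twt_dl_unip [Finite (ResidueField 𝒪)] [CharZero 𝒪]
    (hp : p.Prime) (hp𝒪 : (p : 𝒪) ∈ maximalIdeal 𝒪)
    (hpS : p ∈ S') (hNS : ∀ q : ℕ, q.Prime → q ∣ Nb → q ∈ S')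
    (H : HeckeGaloisRepDatum Nb (↑S' : Set ℕ) 𝒪 θ T)
    (q : ℕ) (hq : q.Prime) (hqp : q ≠ p) (hqN : q ∣ Nb) (hq2 : ¬ q ^ 2 ∣ Nb) :
    H.ρ.IsUnipotentOnInertiaAt q :=
  Fermat.Agent.S34.result hp hp𝒪 hpS hNS H q hq hqp hqN hq2

/-- the trivial inertial type at `q ∥ Nb`, `q ≠ p`. -/
theorem twt_dl_hasType_one [Finite (ResidueField 𝒪)] [CharZero 𝒪]
    (hp : p.Prime) (hp𝒪 : (p : 𝒪) ∈ maximalIdeal 𝒪)
    (hpS : p ∈ S') (hNS : ∀ q : ℕ, q.Prime → q ∣ Nb → q ∈ S')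
    (H : HeckeGaloisRepDatum Nb (↑S' : Set ℕ) 𝒪 θ T)
    (q : ℕ) (hq : q.Prime) (hqp : q ≠ p) (hqN : q ∣ Nb) (hq2 : ¬ q ^ 2 ∣ Nb) :
    twc_HasType (𝒪 := 𝒪) H.ρ q 1 :=
  (twc_hasType_one_iff H.ρ q).2 (twt_dl_unip hp hp𝒪 hpS hNS H q hq hqp hqN hq2)

/-- **the type of block [C] for a Hecke–Galois datum**: every prime of the level lies in
`Smin ∪ Th ∪ Q`, the primes of `Smin ∖ {p}` divide the level exactly once. -/
theorem twt_dl_isType [Finite (ResidueField 𝒪)] [CharZero 𝒪]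
    (hp : p.Prime) (hp2 : p ≠ 2) (hp𝒪 : (p : 𝒪) ∈ maximalIdeal 𝒪) (hpN : ¬ p ∣ Nb)
    (hpS : p ∈ S') (hNS : ∀ q : ℕ, q.Prime → q ∣ Nb → q ∈ S')
    (H : HeckeGaloisRepDatum Nb (↑S' : Set ℕ) 𝒪 θ T)
    (Smin : Finset ℕ) (Th : Finset Nat.Primes) (Q : Finset ℕ) (hpSmin : p ∈ Smin)
    (hcover : ∀ q : ℕ, q.Prime → q ∣ Nb →
      q ∈ Smin ∪ Th.image (fun ℓ : Nat.Primes => (ℓ : ℕ)) ∪ Q)
    (hSmin : ∀ q ∈ Smin, q.Prime → q ≠ p → q ∣ Nb ∧ ¬ q ^ 2 ∣ Nb) :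
    twc_IsType p Smin Th Q H.ρ := by
  refine ⟨twt_dl_det hp hp𝒪 hNS H, twt_dl_flat hp hp2 hp𝒪 hpN hpS hNS H, ?_, ?_⟩
  · intro q hq hqU
    refine twt_dl_unram hp hp𝒪 hpS hNS H q hq (fun hqN => hqU (hcover q hq hqN)) ?_
    rintro rfl
    exact hqU (Finset.mem_union_left _ (Finset.mem_union_left _ hpSmin))
  · intro q hqSmin hq hqp
    obtain ⟨h1, h2⟩ := hSmin q hqSmin hq hqp
    exact twt_dl_unip hp hp𝒪 hpS hNS H q hq hqp h1 h2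

end main

end Fermat.Agent.TW
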