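import Fermat.Agent.S53.FramedResidual
import Fermat.Agent.FF.Car.Rigid
import Fermat.Agent.JT3.Unram.TraceRigid
import Fermat.Agent.TW.LG.Transfer

/-!
# Project ONE MACHINE, cell C/FrameCompat: compatible framings (helper9)

`π : A →+* B` a SURJECTIVE homomorphism of local rings, `r : FramedRep A`, `s : FramedRep B`
residually absolutely irreducible, with `tr`/`det` of `π ∘ r` equal to those of `s` and the same
reduction modulo `𝔪_B`.  Then `r` can be RE-FRAMED by a matrix `γ ∈ GL₂(A)`, `γ ≡ 1 mod 𝔪_A`, so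
that the push-forward becomes EQUAL to `s`:  `(r.conj γ).map π = s`  (`twt_fc_main`).

Consumer: the field `π_z` of `twc_LvIn2` (C/Level): the local coordinates (entries of
`r(σ_ℓ) - 1`, `r(φ_ℓ) - a_ℓ`) of the unipotent and of the `χ`-system must have THE SAME image in
the common quotient `Tb`; two framings chosen independently only agree up to conjugation.

* `twt_fc_span`    : Burnside–Nakayama for a framed representation (matrix form);
* `twt_fc_main`    : the re-framing theorem (hypotheses on traces and determinants);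
* `twt_fc_main_frob` : the same with `B` noetherian and the hypothesis on the characteristic
  polynomials of the Frobenius elements outside a finite set only (Čebotarev);
* `twt_fc_conj_residue`, `twt_fc_conj_isLiftOf` : re-framing by `γ ≡ 1 mod 𝔪` does not change the
  reduction, so strict lifts stay strict lifts; `twt_fc_conj_isEquiv` (= S53).

Prefix `twt_fc_`.
-/

set_option autoImplicit false
set_option linter.style.haveILetI false
set_option linter.unusedSectionVars false

namespace Fermat.Agent.TW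

open IsLocalRing Polynomial Fermat.Agent.S53 Fermat.Agent.JT3

local notation "GQ" => (AlgebraicClosure ℚ ≃ₐ[ℚ] AlgebraicClosure ℚ)
local notation "Qbar" => AlgebraicClosure ℚ

section span

variable {B : Type} [CommRing B] [IsLocalRing B]

/-- **Burnside–Nakayama, matrix form**: the values of a residually absolutely irreducible framed
representation span `M₂(B)`. -/
theorem twt_fc_span (s : FramedRep B)
    (habs : s.toGaloisRepAdic.residual.IsAbsolutelyIrreducible) :
    Submodule.span B (Set.range s.toMonoidHom) = ⊤ := by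
  classical
  have hspan0 := ur_tr_span_eq_top s.toGaloisRepAdic habs
  have hρ : ∀ σ : GQ, s.toGaloisRepAdic.ρ σ =
      (Matrix.toLin' : Matrix (Fin 2) (Fin 2) B ≃ₗ[B] _) (s.toMonoidHom σ) := by
    intro σ
    refine LinearMap.ext fun v => ?_
    rw [FramedRep.toGaloisRepAdic_ρ_apply]
    exact (Matrix.toLin'_apply _ _).symm
  have hset : (⇑(Matrix.toLin' : Matrix (Fin 2) (Fin 2) B ≃ₗ[B] _).toLinearMap ''
      Set.range s.toMonoidHom) = Set.range s.toGaloisRepAdic.ρ := by
    ext f
    constructor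
    · rintro ⟨_, ⟨σ, rfl⟩, rfl⟩
      exact ⟨σ, hρ σ⟩
    · rintro ⟨σ, rfl⟩
      exact ⟨_, ⟨σ, rfl⟩, (hρ σ).symm⟩
  have h1 : (Submodule.span B (Set.range s.toMonoidHom)).map
      (Matrix.toLin' : Matrix (Fin 2) (Fin 2) B ≃ₗ[B] _).toLinearMap = ⊤ := by
    rw [Submodule.map_span, hset]
    exact hspan0
  rw [eq_top_iff]
  rintro M -
  have h2 : (Matrix.toLin' : Matrix (Fin 2) (Fin 2) B ≃ₗ[B] _) M ∈
      (Submodule.span B (Set.range s.toMonoidHom)).map
        (Matrix.toLin' : Matrix (Fin 2) (Fin 2) B ≃ₗ[B] _).toLinearMap := by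
    rw [h1]; exact Submodule.mem_top
  obtain ⟨M', hM', hMM'⟩ := h2
  have : M' = M := (Matrix.toLin' : Matrix (Fin 2) (Fin 2) B ≃ₗ[B] _).injective hMM'
  rwa [← this]

end span

section central

variable {B : Type} [CommRing B]

/-- a matrix which commutes with everything modulo an ideal is scalar modulo that ideal. -/
theorem twt_fc_scalar_of_comm (I : Ideal B) (Q : Matrix (Fin 2) (Fin 2) B)
    (h : ∀ X : Matrix (Fin 2) (Fin 2) B, ∀ i j, (X * Q - Q * X) i j ∈ I) :
    Q 0 1 ∈ I ∧ Q 1 0 ∈ I ∧ Q 0 0 - Q 1 1 ∈ I := by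
  have h01 := h (Matrix.of ![![1, 0], ![0, 0]]) 0 1
  have h10 := h (Matrix.of ![![1, 0], ![0, 0]]) 1 0
  have hd := h (Matrix.of ![![0, 1], ![0, 0]]) 0 1
  simp only [Matrix.sub_apply, Matrix.mul_apply, Fin.sum_univ_two, Matrix.of_apply,
    Matrix.cons_val', Matrix.cons_val_zero, Matrix.cons_val_one, Matrix.empty_val',
    Matrix.cons_val_fin_one] at h01 h10 hd
  refine ⟨?_, ?_, ?_⟩
  · have : Q 0 1 = 1 * Q 0 1 + 0 * Q 1 1 - (Q 0 0 * 0 + Q 0 1 * 0) := by ring
    rw [this]; exact h01
  · have : Q 1 0 = -(0 * Q 0 0 + 0 * Q 1 0 - (Q 1 0 * 1 + Q 1 1 * 0)) := by ring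
    rw [this]; exact I.neg_mem h10
  · have : Q 0 0 - Q 1 1 = -(0 * Q 0 1 + 1 * Q 1 1 - (Q 0 0 * 1 + Q 0 1 * 0)) := by ring
    rw [this]; exact I.neg_mem hd

end central

section main

variable {A B : Type} [CommRing A] [IsLocalRing A] [CommRing B] [IsLocalRing B]

/-- entries of `M.map residue = M'.map residue` differ by elements of the maximal ideal. -/
theorem twt_fc_sub_mem_of_residue_eq {M M' : Matrix (Fin 2) (Fin 2) B}
    (h : M.map (residue B) = M'.map (residue B)) (i j : Fin 2) :
    (M - M') i j ∈ maximalIdeal B := by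
  have h1 := congrFun (congrFun h i) j
  rw [Matrix.map_apply, Matrix.map_apply] at h1
  rw [Matrix.sub_apply, ← residue_eq_zero_iff, map_sub, h1, sub_self]

/-- **C/FrameCompat**: re-framing along a surjection of local rings. -/
theorem twt_fc_main (π : A →+* B) (hπ : Function.Surjective π) (hloc : IsLocalHom π)
    (r : FramedRep A) (s : FramedRep B)
    (habs : s.toGaloisRepAdic.residual.IsAbsolutelyIrreducible)
    (htr : ∀ σ : GQ, ((r σ).map π).trace = (s σ).trace)
    (hdet : ∀ σ : GQ, ((r σ).map π).det = (s σ).det)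
    (hres : ∀ σ : GQ, ((r σ).map π).map (residue B) = (s σ).map (residue B)) :
    ∃ γ : (Matrix (Fin 2) (Fin 2) A)ˣ,
      (∀ i j, (γ.val - 1) i j ∈ maximalIdeal A) ∧ (r.conj γ).map π hloc = s := by
  classical
  have hspan := twt_fc_span s habs
  obtain ⟨Q, hQ, hQc⟩ := Fermat.Agent.FF.ffc_rigid_of_trace_det s.toMonoidHom
    (r.map π hloc).toMonoidHom hspan htr hdet
  -- `Q` commutes with everything modulo `𝔪_B`
  have hcomm : ∀ X : Matrix (Fin 2) (Fin 2) B, ∀ i j, (X * Q - Q * X) i j ∈ maximalIdeal B := by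
    intro X
    have hX : X ∈ Submodule.span B (Set.range s.toMonoidHom) := by rw [hspan]; trivial
    induction hX using Submodule.span_induction with
    | mem x hx =>
      obtain ⟨σ, rfl⟩ := hx
      intro i j
      have h1 : s.toMonoidHom σ * Q - Q * s.toMonoidHom σ =
          (s.toMonoidHom σ - (r.map π hloc).toMonoidHom σ) * Q := by
        rw [sub_mul, hQc σ]
      rw [h1, Matrix.mul_apply]
      refine Ideal.sum_mem _ fun l _ => Ideal.mul_mem_right _ _ ?_
      exact twt_fc_sub_mem_of_residue_eq (hres σ).symm i l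
    | zero => intro i j; simp
    | add x y _ _ hx hy =>
      intro i j
      have : (x + y) * Q - Q * (x + y) = (x * Q - Q * x) + (y * Q - Q * y) := by
        rw [add_mul, mul_add]; abel
      rw [this, Matrix.add_apply]
      exact Ideal.add_mem _ (hx i j) (hy i j)
    | smul a x _ hx =>
      intro i j
      have : (a • x) * Q - Q * (a • x) = a • (x * Q - Q * x) := by
        rw [Matrix.smul_mul, Matrix.mul_smul, smul_sub]
      rw [this, Matrix.smul_apply, smul_eq_mul]
      exact Ideal.mul_mem_left _ _ (hx i j)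
  obtain ⟨h01, h10, h00⟩ := twt_fc_scalar_of_comm (maximalIdeal B) Q hcomm
  -- `c := Q 0 0` is a unit
  have hc : IsUnit (Q 0 0) := by
    by_contra hnu
    have hm : Q 0 0 ∈ maximalIdeal B := (mem_maximalIdeal _).2 hnu
    have hdm : Q.det ∈ maximalIdeal B := by
      rw [Matrix.det_fin_two]
      exact Ideal.sub_mem _ (Ideal.mul_mem_right _ _ hm) (Ideal.mul_mem_right _ _ h01)
    exact (mem_maximalIdeal _).1 hdm hQ
  obtain ⟨c, hcv⟩ := hc
  -- the normalised matrix `Q' = c⁻¹ Q ≡ 1`
  set Q' : Matrix (Fin 2) (Fin 2) B := (↑c⁻¹ : B) • Q with hQ'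
  have hQ'c : ∀ σ, (r.map π hloc).toMonoidHom σ * Q' = Q' * s.toMonoidHom σ := by
    intro σ
    rw [hQ', Matrix.mul_smul, Matrix.smul_mul, hQc σ]
  have hQ'1 : ∀ i j, (Q' - 1) i j ∈ maximalIdeal B := by
    intro i j
    rw [hQ', Matrix.sub_apply, Matrix.smul_apply, smul_eq_mul]
    fin_cases i <;> fin_cases j
    · show (↑c⁻¹ : B) * Q 0 0 - (1 : Matrix (Fin 2) (Fin 2) B) 0 0 ∈ _
      rw [← hcv, Units.inv_mul, Matrix.one_apply_eq, sub_self]
      exact Ideal.zero_mem _
    · show (↑c⁻¹ : B) * Q 0 1 - (1 : Matrix (Fin 2) (Fin 2) B) 0 1 ∈ _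
      rw [Matrix.one_apply_ne (by decide), sub_zero]
      exact Ideal.mul_mem_left _ _ h01
    · show (↑c⁻¹ : B) * Q 1 0 - (1 : Matrix (Fin 2) (Fin 2) B) 1 0 ∈ _
      rw [Matrix.one_apply_ne (by decide), sub_zero]
      exact Ideal.mul_mem_left _ _ h10
    · show (↑c⁻¹ : B) * Q 1 1 - (1 : Matrix (Fin 2) (Fin 2) B) 1 1 ∈ _
      rw [Matrix.one_apply_eq]
      have : (↑c⁻¹ : B) * Q 1 1 - 1 = -((↑c⁻¹ : B) * (Q 0 0 - Q 1 1)) := by
        rw [mul_sub, ← hcv, Units.inv_mul]; ring
      rw [this]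
      exact neg_mem (Ideal.mul_mem_left _ _ h00)
  -- lift `Q' - 1` entrywise to `𝔪_A`
  have hlift : ∀ i j, ∃ a : A, π a = (Q' - 1) i j := fun i j => hπ _
  choose a ha using hlift
  have ham : ∀ i j, a i j ∈ maximalIdeal A := by
    intro i j
    rw [mem_maximalIdeal, mem_nonunits_iff]
    intro hu
    have h1 : IsUnit (π (a i j)) := hu.map π
    rw [ha] at h1
    exact (mem_maximalIdeal _).1 (hQ'1 i j) h1
  set G : Matrix (Fin 2) (Fin 2) A := 1 + Matrix.of a with hG
  have hGmap : G.map π = Q' := by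
    ext i j
    rw [hG, Matrix.map_apply, Matrix.add_apply, Matrix.of_apply, map_add, ha,
      Matrix.sub_apply]
    by_cases hij : i = j
    · subst hij; simp
    · simp [Matrix.one_apply_ne hij]
  have hQ'det : IsUnit Q'.det := by
    rw [hQ', Matrix.det_smul, Fintype.card_fin]
    exact ((Units.isUnit c⁻¹).pow 2).mul hQ
  have hGdet : IsUnit G.det := by
    haveI := hloc
    apply IsUnit.of_map π
    rw [RingHom.map_det, RingHom.mapMatrix_apply, hGmap]
    exact hQ'det
  have hGu : IsUnit G := (Matrix.isUnit_iff_isUnit_det G).mpr hGdet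
  obtain ⟨u, hu⟩ := hGu
  refine ⟨u⁻¹, ?_, ?_⟩
  · -- `u⁻¹ - 1 = - u⁻¹ * (G - 1)`
    intro i j
    have h1 : ((u⁻¹ : (Matrix (Fin 2) (Fin 2) A)ˣ) : Matrix (Fin 2) (Fin 2) A) - 1 =
        -(((u⁻¹ : (Matrix (Fin 2) (Fin 2) A)ˣ) : Matrix (Fin 2) (Fin 2) A) * Matrix.of a) := by
      have h2 : ((u⁻¹ : (Matrix (Fin 2) (Fin 2) A)ˣ) : Matrix (Fin 2) (Fin 2) A) * G = 1 := by
        rw [← hu]; exact u.inv_mul
      rw [hG, mul_add, mul_one] at h2
      rw [← h2]; abel
    rw [h1, Matrix.neg_apply, Matrix.mul_apply]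
    refine neg_mem (Ideal.sum_mem _ fun l _ => Ideal.mul_mem_left _ _ ?_)
    rw [Matrix.of_apply]
    exact ham l j
  · refine FramedRep.ext fun σ => ?_
    rw [FramedRep.map_apply, FramedRep.conj_apply]
    have hval : ((u⁻¹ : (Matrix (Fin 2) (Fin 2) A)ˣ)).inv = G := by
      rw [← hu]; rfl
    have hinv : (((u⁻¹ : (Matrix (Fin 2) (Fin 2) A)ˣ) : Matrix (Fin 2) (Fin 2) A)).map π * Q' =
        1 := by
      rw [← hGmap, ← Matrix.map_mul, ← hu]
      have : ((u⁻¹ : (Matrix (Fin 2) (Fin 2) A)ˣ) : Matrix (Fin 2) (Fin 2) A) *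
          (u : Matrix (Fin 2) (Fin 2) A) = 1 := u.inv_mul
      rw [this]
      ext i j
      by_cases hij : i = j
      · subst hij; simp
      · simp [Matrix.one_apply_ne hij]
    rw [hval, Matrix.map_mul, Matrix.map_mul, hGmap]
    have h3 : (r σ).map π * Q' = Q' * s σ := hQ'c σ
    rw [mul_assoc, h3, ← mul_assoc, hinv, one_mul]

end main

section corollaries

variable {A B : Type} [CommRing A] [IsLocalRing A] [CommRing B] [IsLocalRing B]

/-- re-framing by `γ ≡ 1 mod 𝔪` does not change the reduction. -/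
theorem twt_fc_conj_residue (r : FramedRep A) (γ : (Matrix (Fin 2) (Fin 2) A)ˣ)
    (hγ : ∀ i j, (γ.val - 1) i j ∈ maximalIdeal A) (σ : GQ) :
    ((r.conj γ) σ).map (residue A) = (r σ).map (residue A) := by
  have h1 : γ.val.map (residue A) = 1 := by
    ext i j
    have h := hγ i j
    rw [Matrix.sub_apply, ← residue_eq_zero_iff, map_sub, sub_eq_zero] at h
    rw [Matrix.map_apply, h]
    by_cases hij : i = j
    · subst hij; simp
    · simp [Matrix.one_apply_ne hij]
  have h2 : γ.inv.map (residue A) = 1 := by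
    have h3 : (γ.val * γ.inv).map (residue A) = 1 := by
      rw [γ.val_inv]
      ext i j
      by_cases hij : i = j
      · subst hij; simp
      · simp [Matrix.one_apply_ne hij]
    rwa [Matrix.map_mul, h1, one_mul] at h3
  rw [FramedRep.conj_apply, Matrix.map_mul, Matrix.map_mul, h1, h2, one_mul, mul_one]

/-- strict lifts stay strict lifts under re-framing by `γ ≡ 1 mod 𝔪`. -/
theorem twt_fc_conj_isLiftOf {k : Type} [Field k] (r : FramedRep A) (rb : FramedResidual k)
    (ι : k →+* ResidueField A) (h : r.IsLiftOf rb ι) (γ : (Matrix (Fin 2) (Fin 2) A)ˣ)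
    (hγ : ∀ i j, (γ.val - 1) i j ∈ maximalIdeal A) : (r.conj γ).IsLiftOf rb ι := by
  intro σ
  rw [twt_fc_conj_residue r γ hγ σ]
  exact h σ

/-- the re-framed representation is equivalent to the original one. -/
theorem twt_fc_conj_isEquiv (r : FramedRep A) (γ : (Matrix (Fin 2) (Fin 2) A)ˣ) :
    r.toGaloisRepAdic.IsEquiv (r.conj γ).toGaloisRepAdic :=
  FramedRep.conj_isEquiv γ r

/-- the hypothesis `hres` of `twt_fc_main` for two strict lifts of the same framed residual
representation. -/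
theorem twt_fc_hres_of_isLiftOf {k : Type} [Field k] (π : A →+* B) [IsLocalHom π]
    (r : FramedRep A) (s : FramedRep B) (rb : FramedResidual k) (ι : k →+* ResidueField A)
    (hr : r.IsLiftOf rb ι) (hs : s.IsLiftOf rb ((ResidueField.map π).comp ι)) (σ : GQ) :
    ((r σ).map π).map (residue B) = (s σ).map (residue B) := by
  rw [hs σ]
  have h1 := hr σ
  ext i j
  have h2 := congrFun (congrFun h1 i) j
  rw [Matrix.map_apply, Matrix.map_apply] at h2
  rw [Matrix.map_apply, Matrix.map_apply, Matrix.map_apply, RingHom.comp_apply, ← h2]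
  exact (ResidueField.map_residue π (r σ i j)).symm

/-- trace and determinant of a `2 × 2` matrix from its characteristic polynomial (any
commutative ring). -/
theorem twt_fc_trace_det_of_charpoly (M₁ M₂ : Matrix (Fin 2) (Fin 2) B)
    (h : M₁.charpoly = M₂.charpoly) : M₁.trace = M₂.trace ∧ M₁.det = M₂.det := by
  rw [Matrix.charpoly_fin_two, Matrix.charpoly_fin_two] at h
  have h1 := congrArg (fun P : B[X] => P.coeff 1) h
  have h0 := congrArg (fun P : B[X] => P.coeff 0) h
  simp only [coeff_add, coeff_sub, coeff_X_pow, coeff_C_mul, coeff_X_one,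
    coeff_X_zero, coeff_C] at h1 h0
  norm_num at h1 h0
  exact ⟨h1, h0⟩

/-- **C/FrameCompat, Frobenius form**: `B` noetherian; the characteristic polynomials of `π ∘ r`
and of `s` agree at the Frobenius elements outside a finite set. -/
theorem twt_fc_main_frob [IsNoetherianRing B] (π : A →+* B) (hπ : Function.Surjective π)
    (hloc : IsLocalHom π) (r : FramedRep A) (s : FramedRep B)
    (habs : s.toGaloisRepAdic.residual.IsAbsolutelyIrreducible) (S : Finset ℕ)
    (hfrob : ∀ ℓ : ℕ, ℓ.Prime → ℓ ∉ S → ∀ P : ValuationSubring Qbar, P.LiesOverPrime ℓ →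
      ∀ φ : GQ, P.IsFrobeniusAt φ ℓ → ((r φ).map π).charpoly = (s φ).charpoly)
    (hres : ∀ σ : GQ, ((r σ).map π).map (residue B) = (s σ).map (residue B)) :
    ∃ γ : (Matrix (Fin 2) (Fin 2) A)ˣ,
      (∀ i j, (γ.val - 1) i j ∈ maximalIdeal A) ∧ (r.conj γ).map π hloc = s := by
  have hρ : ∀ (t : FramedRep B) (σ : GQ),
      LinearMap.charpoly (t.toGaloisRepAdic.ρ σ) = (t σ).charpoly := by
    intro t σ
    change LinearMap.charpoly (Matrix.toLin' (t.toMonoidHom σ)) = _
    exact Matrix.charpoly_toLin' _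
  have hall : ∀ σ : GQ, ((r σ).map π).charpoly = (s σ).charpoly := by
    intro σ
    have h := twlg_tr_charpoly_eq (r.map π hloc).toGaloisRepAdic s.toGaloisRepAdic S
      (fun ℓ hℓ hℓS P hP φ hφ => by
        rw [hρ, hρ]
        exact hfrob ℓ hℓ hℓS P hP φ hφ) σ
    rw [hρ, hρ] at h
    exact h
  exact twt_fc_main π hπ hloc r s habs
    (fun σ => (twt_fc_trace_det_of_charpoly _ _ (hall σ)).1)
    (fun σ => (twt_fc_trace_det_of_charpoly _ _ (hall σ)).2) hres

end corollaries

end Fermat.Agent.TW
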