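/-
Project ONE MACHINE (S43), node (M0) [COEF] (helper13).

For a finite field `k` of characteristic `p` there is a coefficient ring `𝒪`: a complete discrete
valuation ring of characteristic `0` with finite residue field `κ`, `p ∈ 𝔪_𝒪`, containing a primitive
`p`-th root of unity, with `k ↪ κ` such that every monic quadratic polynomial over `k` splits in `κ`
(so `κ` contains the quadratic extension of `k`; this is the form in which S56's `hsplit` consumes it).

Construction: `𝒪 := integralClosure ℤ_[p] (CyclotomicField m ℚ_[p])`, `m = p (|k|² - 1)`;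
helper25's `pkd_` (JT3/Pack/DVRExt.lean, on main) makes it a complete DVR; the roots of unity of order
`|k|² - 1` (prime to `p`) stay primitive in the residue field (geometric sum), so `X^(|k|²) - X` splits
there.
-/
import Mathlib
import Fermat.Agent.JT3.Pack.DVRExt

set_option autoImplicit false
set_option linter.style.haveILetI false
set_option linter.unusedSectionVars false

open IsLocalRing Polynomial

namespace Fermat.Agent.TW

/-- A ring homomorphism from a domain to a field maps a primitive `n`-th root of unity to a primitive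
`n`-th root of unity as soon as no divisor `e > 1` of `n` vanishes in the field. -/
theorem twm0_isPrimitiveRoot_map {R κ : Type*} [CommRing R] [IsDomain R] [Field κ] (f : R →+* κ)
    {ω : R} {n : ℕ} (hn0 : 0 < n) (hω : IsPrimitiveRoot ω n)
    (hn : ∀ e : ℕ, e ∣ n → 1 < e → (e : κ) ≠ 0) : IsPrimitiveRoot (f ω) n := by
  rw [IsPrimitiveRoot.iff_def]
  refine ⟨by rw [← map_pow, hω.pow_eq_one, map_one], fun l hl => ?_⟩
  set g := Nat.gcd l n with hg
  have hgn : g ∣ n := Nat.gcd_dvd_right l n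
  have hgl : g ∣ l := Nat.gcd_dvd_left l n
  have hg0 : g ≠ 0 := fun h => by
    rw [h, zero_dvd_iff] at hgn; omega
  have hfg : (f ω) ^ g = 1 := by
    have h1 : (f ω) ^ n = 1 := by rw [← map_pow, hω.pow_eq_one, map_one]
    exact pow_gcd_eq_one.mpr ⟨hl, h1⟩
  by_cases hgeq : g = n
  · rw [← hgeq]; exact hgl
  exfalso
  obtain ⟨e, he⟩ := hgn
  have he1 : 1 < e := by
    rcases Nat.lt_or_ge 1 e with h | h
    · exact h
    · interval_cases e
      · omega
      · exact absurd (by omega) hgeq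
  have hη : IsPrimitiveRoot (ω ^ g) e := by
    have := hω.pow_of_dvd hg0 ⟨e, he⟩
    rwa [he, Nat.mul_div_cancel_left e (Nat.pos_of_ne_zero hg0)] at this
  have hsum := hη.geom_sum_eq_zero he1
  have h2 := congrArg f hsum
  rw [map_sum, map_zero] at h2
  have h3 : ∀ i ∈ Finset.range e, f ((ω ^ g) ^ i) = 1 := by
    intro i _
    rw [map_pow, map_pow, hfg, one_pow]
  rw [Finset.sum_congr rfl h3, Finset.sum_const, Finset.card_range, nsmul_eq_mul, mul_one] at h2
  exact hn e ⟨g, by rw [he, mul_comm]⟩ he1 h2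

/-- Over a finite field `k` every monic quadratic polynomial divides `(X^(|k|²) - X)²`. -/
theorem twm0_quadratic_dvd {k : Type*} [Field k] [Finite k] (g : k[X]) (hm : g.Monic)
    (hd : g.natDegree = 2) :
    g ∣ (X ^ (Nat.card k) ^ 2 - X : k[X]) ^ 2 := by
  by_cases hirr : Irreducible g
  · have h1 : g ∣ (X ^ (Nat.card k) ^ 2 - X : k[X]) :=
      (hirr.natDegree_dvd_iff_dvd_X_pow_card_pow_sub_X (n := 2)).mp (by rw [hd])
    exact h1.trans (dvd_pow_self _ two_ne_zero)
  · obtain ⟨c₁, c₂, h0, h1⟩ := (hm.not_irreducible_iff_exists_add_mul_eq_coeff hd).mp hirr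
    have hg : g = (X + C c₁) * (X + C c₂) := by
      have e : (X + C c₁) * (X + C c₂) = X ^ 2 + C (c₁ + c₂) * X + C (c₁ * c₂) := by
        simp only [map_add, map_mul]; ring
      rw [e]
      ext n
      rcases n with _ | _ | _ | n
      · simp [h0]
      · simp [h1]
      · have := hm.coeff_natDegree
        rw [hd] at this
        simp [this]
      · have hlt : g.natDegree < n + 3 := by omega
        rw [coeff_eq_zero_of_natDegree_lt hlt]
        simp
    have hlin : ∀ c : k, (X + C c : k[X]) ∣ (X ^ (Nat.card k) ^ 2 - X : k[X]) := by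
      intro c
      have hi : Irreducible (X + C c : k[X]) := by
        have := irreducible_X_sub_C (-c)
        rwa [map_neg, sub_neg_eq_add] at this
      refine (hi.natDegree_dvd_iff_dvd_X_pow_card_pow_sub_X (n := 2)).mp ?_
      rw [natDegree_X_add_C]
      exact one_dvd 2
    rw [hg, pow_two]
    exact mul_dvd_mul (hlin c₁) (hlin c₂)

/-- If `X^(|k|²) - X` splits in an extension field `κ` of the finite field `k`, every monic
quadratic polynomial over `k` is a product of two linear factors over `κ`. -/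
theorem twm0_quadratic_factor {k κ : Type*} [Field k] [Finite k] [Field κ] [Algebra k κ]
    (hsp : (X ^ (Nat.card k) ^ 2 - X : κ[X]).Splits) (g : k[X]) (hm : g.Monic)
    (hd : g.natDegree = 2) :
    ∃ α β : κ, g.map (algebraMap k κ) = (X - C α) * (X - C β) := by
  have hne : (X ^ (Nat.card k) ^ 2 - X : κ[X]) ≠ 0 := by
    have h1 : 1 < (Nat.card k) ^ 2 := by
      have := Finite.one_lt_card (α := k)
      nlinarith
    exact FiniteField.X_pow_card_sub_X_ne_zero κ h1
  have hdvd : g.map (algebraMap k κ) ∣ (X ^ (Nat.card k) ^ 2 - X : κ[X]) ^ 2 := by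
    have := Polynomial.map_dvd (algebraMap k κ) (twm0_quadratic_dvd g hm hd)
    simpa using this
  have hsplit : (g.map (algebraMap k κ)).Splits :=
    (hsp.pow 2).of_dvd (pow_ne_zero 2 hne) hdvd
  have hmon : (g.map (algebraMap k κ)).Monic := hm.map _
  have hcard : (g.map (algebraMap k κ)).roots.card = 2 := by
    rw [← hsplit.natDegree_eq_card_roots, hm.natDegree_map, hd]
  obtain ⟨α, β, hαβ⟩ := Multiset.card_eq_two.mp hcard
  refine ⟨α, β, ?_⟩
  have := hsplit.eq_prod_roots_of_monic hmon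
  rw [hαβ] at this
  simpa using this

/-- **(M0) [COEF].**  The coefficient ring of the machine. -/
theorem twm0_coef (p : ℕ) [Fact p.Prime] (k : Type) [Field k] [Finite k] [CharP k p] :
    ∃ (𝒪 : Type) (_ : CommRing 𝒪) (_ : IsDomain 𝒪) (_ : IsDiscreteValuationRing 𝒪)
      (_ : IsAdicComplete (maximalIdeal 𝒪) 𝒪) (_ : Finite (ResidueField 𝒪)) (_ : CharZero 𝒪)
      (_ : Algebra k (ResidueField 𝒪)),
      (p : 𝒪) ∈ maximalIdeal 𝒪 ∧ (∃ ζ : 𝒪, IsPrimitiveRoot ζ p) ∧
      ∀ g : k[X], g.Monic → g.natDegree = 2 →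
        ∃ α β : ResidueField 𝒪,
          g.map (algebraMap k (ResidueField 𝒪)) = (X - C α) * (X - C β) := by
  classical
  have hp : p.Prime := Fact.out
  haveI : Fintype k := Fintype.ofFinite k
  -- cardinality of `k`
  obtain ⟨f, -, hcard⟩ := FiniteField.card k p
  have hQ : Nat.card k = p ^ (f : ℕ) := by rw [Nat.card_eq_fintype_card, hcard]
  set Q := Nat.card k with hQdef
  have hQ1 : 1 < Q := Finite.one_lt_card
  have hpQ : p ∣ Q := by rw [hQ]; exact dvd_pow_self p f.ne_zero
  set n := Q ^ 2 - 1 with hn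
  have hQ2 : 1 < Q ^ 2 := by nlinarith
  have hn0 : 0 < n := by omega
  have hn1 : n + 1 = Q ^ 2 := by omega
  have hpn : ¬ p ∣ n := by
    intro h
    have h2 : p ∣ Q ^ 2 := dvd_pow hpQ two_ne_zero
    have h3 : p ∣ Q ^ 2 - n := Nat.dvd_sub h2 h
    have h4 : Q ^ 2 - n = 1 := by omega
    rw [h4] at h3
    exact hp.one_lt.ne' (Nat.dvd_one.mp h3)
  set m := p * n with hm
  haveI : NeZero m := ⟨(Nat.mul_pos hp.pos hn0).ne'⟩
  -- the field and the ring
  let E := CyclotomicField m ℚ_[p]
  haveI : FiniteDimensional ℚ_[p] E := IsCyclotomicExtension.finiteDimensional {m} ℚ_[p] E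
  let 𝒪 := ↥(integralClosure ℤ_[p] E)
  haveI hdvr : IsDiscreteValuationRing 𝒪 := Fermat.Agent.JT3.pkd_isDVR ℤ_[p] ℚ_[p] E
  haveI hcomp : IsAdicComplete (maximalIdeal 𝒪) 𝒪 :=
    Fermat.Agent.JT3.pkd_isAdicComplete ℤ_[p] ℚ_[p] E
  haveI hfin : Finite (ResidueField 𝒪) := Fermat.Agent.JT3.pkd_finite_residue ℤ_[p] ℚ_[p] E
  haveI hchar : CharZero 𝒪 := Fermat.Agent.JT3.pkd_charZero ℤ_[p] ℚ_[p] E
  haveI hlh : IsLocalHom (algebraMap ℤ_[p] 𝒪) := Fermat.Agent.JT3.pkd_isLocalHom ℤ_[p] ℚ_[p] E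
  -- `p` is in the maximal ideal
  have hpm : (p : 𝒪) ∈ maximalIdeal 𝒪 := by
    rw [mem_maximalIdeal, mem_nonunits_iff]
    intro hu
    have h1 : IsUnit (algebraMap ℤ_[p] 𝒪 (p : ℤ_[p])) := by rwa [map_natCast]
    have h2 := IsUnit.of_map (algebraMap ℤ_[p] 𝒪) (p : ℤ_[p]) h1
    exact PadicInt.p_nonunit h2
  -- the root of unity
  let ζ0 : E := IsCyclotomicExtension.zeta m ℚ_[p] E
  have hζ0 : IsPrimitiveRoot ζ0 m := IsCyclotomicExtension.zeta_spec m ℚ_[p] E
  have hint : IsIntegral ℤ_[p] ζ0 :=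
    IsIntegral.of_pow (NeZero.pos m) (by rw [hζ0.pow_eq_one]; exact isIntegral_one)
  let ζ : 𝒪 := ⟨ζ0, hint⟩
  have hζ : IsPrimitiveRoot ζ m :=
    IsPrimitiveRoot.of_map_of_injective (f := (integralClosure ℤ_[p] E).val)
      hζ0 Subtype.val_injective
  have hζp : IsPrimitiveRoot (ζ ^ n) p := hζ.pow (NeZero.pos m) (by rw [hm, mul_comm])
  have hω : IsPrimitiveRoot (ζ ^ p) n := hζ.pow (NeZero.pos m) hm
  -- the residue field
  let κ := ResidueField 𝒪
  have hpκ : (p : κ) = 0 := by
    have : residue 𝒪 (p : 𝒪) = 0 := (residue_eq_zero_iff _).mpr hpm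
    rwa [map_natCast] at this
  haveI : CharP κ p := (CharP.charP_iff_prime_eq_zero hp).mpr hpκ
  have hωb : IsPrimitiveRoot (residue 𝒪 (ζ ^ p)) n := by
    refine twm0_isPrimitiveRoot_map (residue 𝒪) hn0 hω fun e he he1 h0 => ?_
    have : p ∣ e := (CharP.cast_eq_zero_iff κ p e).mp h0
    exact hpn (this.trans he)
  have hsp : (X ^ Q ^ 2 - X : κ[X]).Splits := by
    have h1 : (X ^ Q ^ 2 - X : κ[X]) = X * (X ^ n - C 1) := by
      rw [← hn1, map_one]; ring
    rw [h1]
    exact Splits.X.mul (X_pow_sub_one_splits hωb)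
  -- `k` embeds
  letI : Algebra (ZMod p) k := ZMod.algebra k p
  letI : Algebra (ZMod p) κ := ZMod.algebra κ p
  have hQc : Fintype.card k = Q := by rw [hQdef, Nat.card_eq_fintype_card]
  have hsp1 : ((X ^ Fintype.card k - X : (ZMod p)[X]).map (algebraMap (ZMod p) κ)).Splits := by
    have hne : (X ^ Q ^ 2 - X : κ[X]) ≠ 0 := FiniteField.X_pow_card_sub_X_ne_zero κ hQ2
    have hdvd : (X ^ Q - X : κ[X]) ∣ X ^ Q ^ 2 - X := by
      have := dvd_pow_pow_sub_self_of_dvd (r := (X : κ[X])) (p := Q) (a := 1) (b := 2)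
        (one_dvd 2)
      rwa [pow_one] at this
    have := hsp.of_dvd hne hdvd
    simpa [hQc] using this
  let φ : k →ₐ[ZMod p] κ :=
    Polynomial.IsSplittingField.lift k (X ^ Fintype.card k - X : (ZMod p)[X]) hsp1
  letI halg : Algebra k κ := φ.toRingHom.toAlgebra
  refine ⟨𝒪, inferInstance, inferInstance, hdvr, hcomp, hfin, hchar, halg, hpm, ⟨ζ ^ n, hζp⟩, ?_⟩
  intro g hgm hgd
  exact twm0_quadratic_factor (k := k) (κ := κ) hsp g hgm hgd

end Fermat.Agent.TW
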