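import Fermat.Agent.TW.Top.CInput
import Fermat.Agent.TW.LG.Transfer
import Fermat.Agent.FF.Car.Rigid
import Fermat.Agent.S53.Burnside

/-!
# Project ONE MACHINE: residual representations are determined by their Frobenius polynomials
(helper9)

`twt_re_equiv` : two residual representations `ρ₁`, `ρ₂ : ResidualGaloisRep k` with `ρ₁`
absolutely irreducible and `charpoly ρ₁(Frob_ℓ) = charpoly ρ₂(Frob_ℓ)` for all `ℓ` outside a
finite set are EQUIVALENT.

Proof: weak Chebotarev in the form `twlg_tr_charpoly_eq` (TW/LG/Transfer.lean, applied over the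
field `k`) gives equality of the characteristic polynomials at EVERY `σ`; pass to framed
representations (`exists_framedResidual`); Burnside (`residual_span_range_eq_top`) + Carayol–Serre
rigidity `ffc_rigid_of_trace_det` give a conjugating matrix.

Consumer: for ANY `H : HeckeGaloisRepDatum N ↑S 𝒪 θ' T` the residual representation `H.ρ.residual`
is equivalent to (the base change of) the given `ρ̄'`; in particular it is unramified wherever
`ρ̄'` is (`twt_re_datum_unram`), which is the hypothesis `hres` of the inertia bridge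
`twib_out_hI`.
-/

set_option autoImplicit false
set_option linter.style.haveILetI false
set_option linter.unusedSectionVars false

open scoped TensorProduct

namespace Fermat.Agent.TW

open Polynomial CuspForm IsLocalRing Fermat.Agent.S53 Fermat.Agent.S56

section framed

variable {k : Type} [Field k]

/-- trace and determinant of a `2 × 2` matrix from its characteristic polynomial. -/
theorem twt_re_trace_det_of_charpoly (M₁ M₂ : Matrix (Fin 2) (Fin 2) k)
    (h : M₁.charpoly = M₂.charpoly) : M₂.trace = M₁.trace ∧ M₂.det = M₁.det := by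
  rw [Matrix.charpoly_fin_two, Matrix.charpoly_fin_two] at h
  have h1 := congrArg (fun P : k[X] => P.coeff 1) h
  have h0 := congrArg (fun P : k[X] => P.coeff 0) h
  simp only [coeff_add, coeff_sub, coeff_X_pow, coeff_C_mul, coeff_X_one, coeff_C_zero,
    coeff_X_zero, coeff_C] at h1 h0
  norm_num at h1 h0
  exact ⟨h1.symm, h0.symm⟩

/-- two framed residual representations with the same characteristic polynomials, the first
absolutely irreducible, are equivalent. -/
theorem twt_re_framed (rb₁ rb₂ : FramedResidual k)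
    (habs : rb₁.toResidualGaloisRep.IsAbsolutelyIrreducible)
    (hchar : ∀ σ : twt_G, LinearMap.charpoly (rb₁.toResidualGaloisRep.ρ σ) =
      LinearMap.charpoly (rb₂.toResidualGaloisRep.ρ σ)) :
    rb₁.toResidualGaloisRep.IsEquiv rb₂.toResidualGaloisRep := by
  classical
  have hspan0 := residual_span_range_eq_top rb₁.toResidualGaloisRep habs
  -- transport the spanning statement to matrices
  have hspan : Submodule.span k (Set.range rb₁.toMonoidHom) = ⊤ := by
    have hset : (⇑(Matrix.toLin' : Matrix (Fin 2) (Fin 2) k ≃ₗ[k] _).toLinearMap ''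
        Set.range rb₁.toMonoidHom) = Set.range rb₁.toResidualGaloisRep.ρ := by
      ext f
      constructor
      · rintro ⟨_, ⟨σ, rfl⟩, rfl⟩
        exact ⟨σ, rfl⟩
      · rintro ⟨σ, rfl⟩
        exact ⟨_, ⟨σ, rfl⟩, rfl⟩
    have h1 : (Submodule.span k (Set.range rb₁.toMonoidHom)).map
        (Matrix.toLin' : Matrix (Fin 2) (Fin 2) k ≃ₗ[k] _).toLinearMap = ⊤ := by
      rw [Submodule.map_span, hset]
      exact hspan0
    rw [eq_top_iff]
    rintro M -
    have h2 : (Matrix.toLin' : Matrix (Fin 2) (Fin 2) k ≃ₗ[k] _) M ∈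
        (Submodule.span k (Set.range rb₁.toMonoidHom)).map
          (Matrix.toLin' : Matrix (Fin 2) (Fin 2) k ≃ₗ[k] _).toLinearMap := by
      rw [h1]; exact Submodule.mem_top
    obtain ⟨M', hM', hMM'⟩ := h2
    have : M' = M := (Matrix.toLin' : Matrix (Fin 2) (Fin 2) k ≃ₗ[k] _).injective hMM'
    rwa [← this]
  have htd : ∀ σ, (rb₂.toMonoidHom σ).trace = (rb₁.toMonoidHom σ).trace ∧
      (rb₂.toMonoidHom σ).det = (rb₁.toMonoidHom σ).det := by
    intro σ
    apply twt_re_trace_det_of_charpoly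
    have := hchar σ
    change LinearMap.charpoly (Matrix.toLin' (rb₁.toMonoidHom σ)) =
      LinearMap.charpoly (Matrix.toLin' (rb₂.toMonoidHom σ)) at this
    rwa [Matrix.charpoly_toLin', Matrix.charpoly_toLin'] at this
  obtain ⟨Q, hQ, hQc⟩ := Fermat.Agent.FF.ffc_rigid_of_trace_det rb₁.toMonoidHom rb₂.toMonoidHom
    hspan (fun σ => (htd σ).1) (fun σ => (htd σ).2)
  letI : Invertible Q := Matrix.invertibleOfIsUnitDet Q hQ
  refine ⟨{ toLinearEquiv := Matrix.toLinearEquiv' Q inferInstance, map_apply := ?_ }⟩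
  intro σ x
  change Matrix.toLin' Q (Matrix.toLin' (rb₁.toMonoidHom σ) x) =
    Matrix.toLin' (rb₂.toMonoidHom σ) (Matrix.toLin' Q x)
  rw [← LinearMap.comp_apply, ← LinearMap.comp_apply, ← Matrix.toLin'_mul, ← Matrix.toLin'_mul,
    hQc σ]

end framed

section main

variable {k : Type} [Field k]

/-- **residual representations are determined by their Frobenius polynomials.** -/
theorem twt_re_equiv (ρ₁ ρ₂ : ResidualGaloisRep k) (habs : ρ₁.IsAbsolutelyIrreducible)
    (S : Finset ℕ)
    (hfrob : ∀ ℓ : ℕ, ℓ.Prime → ℓ ∉ S → ∀ A : ValuationSubring twt_Qb, A.LiesOverPrime ℓ →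
      ∀ φ : twt_G, A.IsFrobeniusAt φ ℓ →
        LinearMap.charpoly (ρ₁.ρ φ) = LinearMap.charpoly (ρ₂.ρ φ)) :
    ρ₁.IsEquiv ρ₂ := by
  have hall : ∀ σ : twt_G, LinearMap.charpoly (ρ₁.ρ σ) = LinearMap.charpoly (ρ₂.ρ σ) :=
    twlg_tr_charpoly_eq (GaloisRepAdic.ofResidualGaloisRep ρ₁)
      (GaloisRepAdic.ofResidualGaloisRep ρ₂) S hfrob
  obtain ⟨rb₁, ⟨e₁⟩⟩ := exists_framedResidual ρ₁
  obtain ⟨rb₂, ⟨e₂⟩⟩ := exists_framedResidual ρ₂
  have habs₁ : rb₁.toResidualGaloisRep.IsAbsolutelyIrreducible :=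
    s56am_habs_of_isEquiv ⟨e₁⟩ habs
  obtain ⟨e⟩ := twt_re_framed rb₁ rb₂ habs₁ (fun σ => by
    rw [← s56am_charpoly_of_equiv e₁ σ, ← s56am_charpoly_of_equiv e₂ σ]
    exact hall σ)
  exact ⟨(e₁.trans e).trans e₂.symm⟩

/-- equivalent residual representations have the same ramification. -/
theorem twt_re_unram_of_equiv {ρ₁ ρ₂ : ResidualGaloisRep k} (h : ρ₁.IsEquiv ρ₂) (q : ℕ)
    (hq : ρ₂.IsUnramifiedAt q) : ρ₁.IsUnramifiedAt q := by
  obtain ⟨e⟩ := h
  intro A hA σ hσ
  refine LinearMap.ext fun x => e.toLinearEquiv.injective ?_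
  rw [e.map_apply, hq A hA σ hσ, Module.End.one_apply, Module.End.one_apply]

end main

section datum

variable {𝒪 : Type} [CommRing 𝒪] [IsDomain 𝒪] [IsDiscreteValuationRing 𝒪]
  [IsAdicComplete (maximalIdeal 𝒪) 𝒪]
  {N : ℕ} [NeZero N] {S : Finset ℕ}
  {θ : heckeAlgebra N 2 (↑S : Set ℕ) →+* ResidueField 𝒪}
  {T : Type} [CommRing T] [IsLocalRing T] [IsNoetherianRing T]
  [IsAdicComplete (maximalIdeal T) T] [Algebra 𝒪 T] [IsLocalHom (algebraMap 𝒪 T)]
  [Module.Finite 𝒪 T] [Module.Free 𝒪 T]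

/-- **the residual representation of a Hecke–Galois datum is the given one**: for every
`H : HeckeGaloisRepDatum N ↑S 𝒪 θ T` and every `ρ̄` compatible with `θ`,
`H.ρ.residual ≅ ρ̄ ⊗ k_T`. -/
theorem twt_re_datum (H : HeckeGaloisRepDatum N (↑S : Set ℕ) 𝒪 θ T)
    (ρbar : ResidualGaloisRep (ResidueField 𝒪)) (hcompat : twt_Compat θ ρbar) :
    H.ρ.residual.IsEquiv (ρbar.baseChangeAlong (ResidueField.map (algebraMap 𝒪 T))) := by
  refine twt_re_equiv _ _ H.residual_absIrr (S ∪ N.primeFactors) ?_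
  intro ℓ hℓ hℓS' A hA φ hφ
  rw [Finset.mem_union, not_or] at hℓS'
  have hℓN : ¬ ℓ ∣ N := fun h =>
    hℓS'.2 (Nat.mem_primeFactors.mpr ⟨hℓ, h, NeZero.ne N⟩)
  have hℓS : ℓ ∉ (↑S : Set ℕ) := fun h => hℓS'.1 (Finset.mem_coe.mp h)
  letI : Algebra (ResidueField 𝒪) (ResidueField T) :=
    (ResidueField.map (algebraMap 𝒪 T)).toAlgebra
  change LinearMap.charpoly ((H.ρ.ρ φ).baseChange (ResidueField T)) =
    LinearMap.charpoly ((ρbar.ρ φ).baseChange (ResidueField T))
  rw [LinearMap.charpoly_baseChange, LinearMap.charpoly_baseChange,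
    H.charpoly_frob ℓ hℓ hℓN hℓS A hA φ hφ, hcompat ℓ hℓ hℓN hℓS A hA φ hφ]
  simp only [Polynomial.map_add, Polynomial.map_sub, Polynomial.map_mul, Polynomial.map_pow,
    Polynomial.map_X, Polynomial.map_C, Polynomial.map_natCast, map_natCast]
  rw [ResidueField.algebraMap_eq, H.residue_π]
  rfl

/-- in particular `H.ρ.residual` is unramified wherever `ρ̄` is. -/
theorem twt_re_datum_unram (H : HeckeGaloisRepDatum N (↑S : Set ℕ) 𝒪 θ T)
    (ρbar : ResidualGaloisRep (ResidueField 𝒪)) (hcompat : twt_Compat θ ρbar) (q : ℕ)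
    (hq : ρbar.IsUnramifiedAt q) : H.ρ.residual.IsUnramifiedAt q := by
  refine twt_re_unram_of_equiv (twt_re_datum H ρbar hcompat) q ?_
  letI : Algebra (ResidueField 𝒪) (ResidueField T) :=
    (ResidueField.map (algebraMap 𝒪 T)).toAlgebra
  exact (twt_ci_unram_iff (k' := ResidueField T) ρbar q).mpr hq

end datum

end Fermat.Agent.TW
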