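import Fermat.Agent.TW.Top.Out2
import Fermat.Agent.TW.Top.Coef
import Fermat.Agent.TW.Top.ResidEquiv
import Fermat.Agent.TW.Patch.InertiaBridge

/-!
# Project ONE MACHINE: `twt_Machine2_stmt` from the output of patching (helper9, chief)

The LAST two steps of the machine, as proved wirings, and the EXACT seam that blocks
[A]–[E] + [D] must deliver:

* `twt_Patch_stmt` **[PATCH] = the deliverable of [A]–[E] + [D]**: under the hypotheses of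
  `twt_Machine2_stmt` and for every coefficient ring `𝒪` as produced by `twm0_coef`
  (complete DVR of characteristic `0`, finite residue field `⊇ k` splitting all quadratics over `k`,
  `ζ_p ∈ 𝒪`): a Hecke–Galois datum `H` of level `N` over some `T` for the eigensystem
  `θ' = algebraMap ∘ θ`, and a prime `𝔓` of `T` of characteristic `0` (`λ ∉ 𝔓`) modulo which the
  CHOSEN tame generator `twc_tg_gsigma q` at the hard prime `q` acts trivially.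
  (`twd_main_supp` gives `β i k ∈ 𝔓` for the entries `β` of `r(σ_q) - 1` in a frame: this is the
  clause `hσ` below by `twib_framed_small_iff`.)
* `twt_End_stmt` **[END]** = the input of (M7) `twt_out2`: the same with "all inertia groups at `q`
  act trivially modulo `𝔓`" and "`𝒪 → T ⧸ 𝔓` injective".
* `twt_end_of_patch : twt_Patch_stmt → twt_End_stmt` (inertia bridge `twib_out_hI` of helper2 +
  `twt_re_datum_unram`);
* `twt_machine2_of_end : twt_End_stmt → twt_Machine2_stmt` (`twm0_coef` + `twt_out2`);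
* `twt_machine2_of_patch : twt_Patch_stmt → twt_Machine2_stmt`.
-/

set_option autoImplicit false
set_option linter.style.haveILetI false
set_option linter.unusedSectionVars false

namespace Fermat.Agent.TW

open Polynomial CuspForm IsLocalRing

/-- **[PATCH]**: the deliverable of blocks [A]–[E] + [D]. -/
def twt_Patch_stmt : Prop :=
  ∀ (p : ℕ) [Fact p.Prime], 5 ≤ p →
  ∀ (k : Type) [Field k] [Finite k] [CharP k p]
    (N q : ℕ) [NeZero N], Squarefree N → 2 ∣ N → ¬ p ∣ N →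
  ∀ (hq : q.Prime), q ≠ 2 → q ∣ N →
  ∀ (S : Finset ℕ), p ∈ S → (∀ ℓ : ℕ, ℓ.Prime → ℓ ∣ N → ℓ ∈ S) →
  ∀ (θ : heckeAlgebra N 2 (↑S : Set ℕ) →+* k) (ρbar : ResidualGaloisRep k),
    twt_Compat θ ρbar →
    twt_NonEis θ →
    ρbar.IsAbsolutelyIrreducible →
    twt_TWHyp ρbar →
    ¬ ρbar.IsUnramifiedAt 2 →
    (∀ ℓ : ℕ, ℓ.Prime → ℓ ≠ 2 → ℓ ≠ p → ρbar.IsUnramifiedAt ℓ) →
    twt_AllHard p N ρbar →
  ∀ (𝒪 : Type) [CommRing 𝒪] [IsDomain 𝒪] [IsDiscreteValuationRing 𝒪]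
    [IsAdicComplete (maximalIdeal 𝒪) 𝒪] [Finite (ResidueField 𝒪)] [CharZero 𝒪]
    [Algebra k (ResidueField 𝒪)],
    (p : 𝒪) ∈ maximalIdeal 𝒪 → (∃ ζ : 𝒪, IsPrimitiveRoot ζ p) →
    (∀ g : k[X], g.Monic → g.natDegree = 2 →
      ∃ α β : ResidueField 𝒪, g.map (algebraMap k (ResidueField 𝒪)) = (X - C α) * (X - C β)) →
    ∃ (T : Type) (_ : CommRing T) (_ : IsLocalRing T) (_ : IsNoetherianRing T)
      (_ : IsAdicComplete (maximalIdeal T) T) (_ : Algebra 𝒪 T) (_ : IsLocalHom (algebraMap 𝒪 T))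
      (_ : Module.Finite 𝒪 T) (_ : Module.Free 𝒪 T)
      (H : HeckeGaloisRepDatum N (↑S : Set ℕ) 𝒪 ((algebraMap k (ResidueField 𝒪)).comp θ) T)
      (𝔓 : Ideal T),
      𝔓.IsPrime ∧
      (∃ lam : 𝒪, maximalIdeal 𝒪 = Ideal.span {lam} ∧ algebraMap 𝒪 T lam ∉ 𝔓) ∧
      ∀ v : H.ρ.V, H.ρ.ρ (twc_tg_gsigma ⟨q, hq⟩) v - v ∈ 𝔓 • (⊤ : Submodule T H.ρ.V)

/-- **[END]**: the input of (M7) `twt_out2`. -/
def twt_End_stmt : Prop :=
  ∀ (p : ℕ) [Fact p.Prime], 5 ≤ p →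
  ∀ (k : Type) [Field k] [Finite k] [CharP k p]
    (N q : ℕ) [NeZero N], Squarefree N → 2 ∣ N → ¬ p ∣ N →
    q.Prime → q ≠ 2 → q ∣ N →
  ∀ (S : Finset ℕ), p ∈ S → (∀ ℓ : ℕ, ℓ.Prime → ℓ ∣ N → ℓ ∈ S) →
  ∀ (θ : heckeAlgebra N 2 (↑S : Set ℕ) →+* k) (ρbar : ResidualGaloisRep k),
    twt_Compat θ ρbar →
    twt_NonEis θ →
    ρbar.IsAbsolutelyIrreducible →
    twt_TWHyp ρbar →
    ¬ ρbar.IsUnramifiedAt 2 →
    (∀ ℓ : ℕ, ℓ.Prime → ℓ ≠ 2 → ℓ ≠ p → ρbar.IsUnramifiedAt ℓ) →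
    twt_AllHard p N ρbar →
  ∀ (𝒪 : Type) [CommRing 𝒪] [IsDomain 𝒪] [IsDiscreteValuationRing 𝒪]
    [IsAdicComplete (maximalIdeal 𝒪) 𝒪] [Finite (ResidueField 𝒪)] [CharZero 𝒪]
    [Algebra k (ResidueField 𝒪)],
    (p : 𝒪) ∈ maximalIdeal 𝒪 → (∃ ζ : 𝒪, IsPrimitiveRoot ζ p) →
    (∀ g : k[X], g.Monic → g.natDegree = 2 →
      ∃ α β : ResidueField 𝒪, g.map (algebraMap k (ResidueField 𝒪)) = (X - C α) * (X - C β)) →
    ∃ (T : Type) (_ : CommRing T) (_ : IsLocalRing T) (_ : IsNoetherianRing T)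
      (_ : IsAdicComplete (maximalIdeal T) T) (_ : Algebra 𝒪 T) (_ : IsLocalHom (algebraMap 𝒪 T))
      (_ : Module.Finite 𝒪 T) (_ : Module.Free 𝒪 T)
      (H : HeckeGaloisRepDatum N (↑S : Set ℕ) 𝒪 ((algebraMap k (ResidueField 𝒪)).comp θ) T)
      (𝔓 : Ideal T),
      𝔓.IsPrime ∧ (∀ x : 𝒪, algebraMap 𝒪 T x ∈ 𝔓 → x = 0) ∧
      ∀ A : ValuationSubring twt_Qb, A.LiesOverPrime q → ∀ σ ∈ A.inertiaSubgroupIn ℚ,
        ∀ v : H.ρ.V, H.ρ.ρ σ v - v ∈ 𝔓 • (⊤ : Submodule T H.ρ.V)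

/-- a prime of characteristic `0`: if the uniformiser is not in `𝔓` then `𝒪 → T ⧸ 𝔓` is injective. -/
theorem twt_eop_inj {𝒪 : Type} [CommRing 𝒪] [IsDomain 𝒪] [IsDiscreteValuationRing 𝒪]
    {T : Type} [CommRing T] [Algebra 𝒪 T] (𝔓 : Ideal T) [h𝔓 : 𝔓.IsPrime] (lam : 𝒪)
    (hlam : maximalIdeal 𝒪 = Ideal.span {lam}) (hlam𝔓 : algebraMap 𝒪 T lam ∉ 𝔓) (x : 𝒪)
    (hx : algebraMap 𝒪 T x ∈ 𝔓) : x = 0 := by
  by_contra hx0
  have hirr : Irreducible lam :=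
    (IsDiscreteValuationRing.irreducible_iff_uniformizer lam).mpr hlam
  obtain ⟨n, u, rfl⟩ := IsDiscreteValuationRing.eq_unit_mul_pow_irreducible hx0 hirr
  rw [map_mul, map_pow] at hx
  rcases h𝔓.mem_or_mem hx with h | h
  · have hu : IsUnit (algebraMap 𝒪 T (u : 𝒪)) := (u.isUnit).map (algebraMap 𝒪 T)
    exact h𝔓.ne_top (Ideal.eq_top_of_isUnit_mem _ h hu)
  · exact hlam𝔓 (h𝔓.mem_of_pow_mem n h)

/-- **[END] from [PATCH]** (the inertia bridge). -/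
theorem twt_end_of_patch (hP : twt_Patch_stmt) : twt_End_stmt := by
  intro p _ hp5 k _ _ _ N q _ hNsq h2N hpN hq hq2 hqN S hpS hNS θ ρbar hcompat hnE habs hTW hram2
    hunr hhard 𝒪 _ _ _ _ _ _ _ hp𝒪 hζ hquad
  obtain ⟨T, _, _, _, _, _, _, _, _, H, 𝔓, h𝔓, ⟨lam, hlam, hlam𝔓⟩, hσ⟩ :=
    hP p hp5 k N q hNsq h2N hpN hq hq2 hqN S hpS hNS θ ρbar hcompat hnE habs hTW hram2 hunr hhard
      𝒪 hp𝒪 hζ hquad
  haveI := h𝔓
  refine ⟨T, inferInstance, inferInstance, inferInstance, inferInstance, inferInstance,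
    inferInstance, inferInstance, inferInstance, H, 𝔓, h𝔓,
    twt_eop_inj 𝔓 lam hlam hlam𝔓, ?_⟩
  -- the hard primes
  have hp : p.Prime := Fact.out
  have hN0 : N ≠ 0 := NeZero.ne N
  have hTh : ∀ ℓ ∈ twt_ci_Th N, (ℓ : ℕ) ≠ p ∧ p ∣ (ℓ : ℕ) - 1 := by
    intro ℓ hℓ
    obtain ⟨hd, h2⟩ := (twt_ci_mem_Th hN0 ℓ).mp hℓ
    refine ⟨fun h => hpN (h ▸ hd), ?_⟩
    have h1 := (hhard ℓ ℓ.2 hd h2).1
    have h3 : (ℓ : ℕ) % p = 1 % p := by rw [h1, Nat.mod_eq_of_lt hp.one_lt]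
    exact (Nat.modEq_iff_dvd' ℓ.2.one_lt.le).mp h3.symm
  have hqTh : (⟨q, hq⟩ : Nat.Primes) ∈ twt_ci_Th N := (twt_ci_mem_Th hN0 _).mpr ⟨hqN, hq2⟩
  have hqp : q ≠ p := fun h => hpN (h ▸ hqN)
  have hpT : (p : T) ∈ maximalIdeal T := by
    have := map_nonunit (algebraMap 𝒪 T) (p : 𝒪) hp𝒪
    rwa [map_natCast] at this
  -- the residual representation of `H` is unramified at `q`
  have hres : H.ρ.residual.IsUnramifiedAt q := by
    refine twt_re_datum_unram H (ρbar.baseChange (ResidueField 𝒪))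
      (twt_ci_compat ρbar θ hcompat) q ?_
    exact (twt_ci_unram_iff ρbar q).mpr (hunr q hq hq2 hqp)
  exact twib_out_hI (twib_td p (twt_ci_Th N) hTh) (twib_td_inertiaGen p (twt_ci_Th N) hTh) hqTh
    H.ρ hpT hres 𝔓 hσ

/-- **[MACH] v2 from [END]** (`twm0_coef` + (M7) `twt_out2`). -/
theorem twt_machine2_of_end (hE : twt_End_stmt) : twt_Machine2_stmt := by
  intro p _ hp5 k _ _ _ N q _ hNsq h2N hpN hq hq2 hqN S hpS hNS θ ρbar hcompat hnE habs hTW hram2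
    hunr hhard
  obtain ⟨𝒪, _, _, _, _, _, _, _, hp𝒪, hζ, hquad⟩ := twm0_coef p k
  obtain ⟨T, _, _, _, _, _, _, _, _, H, 𝔓, h𝔓, hinj, hI⟩ :=
    hE p hp5 k N q hNsq h2N hpN hq hq2 hqN S hpS hNS θ ρbar hcompat hnE habs hTW hram2 hunr hhard
      𝒪 hp𝒪 hζ hquad
  have hp2 : p ≠ 2 := by omega
  obtain ⟨𝒪', _, _, _, _, _, _, _, χ, ρ, hp𝒪', hχθ, hχρ, hρabs, hρq⟩ :=
    twt_out2 hp2 hp𝒪 H q 𝔓 h𝔓 hinj hI
  letI : Algebra k (ResidueField 𝒪') :=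
    ((algebraMap (ResidueField 𝒪) (ResidueField 𝒪')).comp
      (algebraMap k (ResidueField 𝒪))).toAlgebra
  refine ⟨𝒪', inferInstance, inferInstance, inferInstance, inferInstance, inferInstance,
    inferInstance, inferInstance, χ, ρ, hp𝒪', ?_, hχρ, hρabs, hρq⟩
  intro t
  rw [hχθ t]
  rfl

/-- **[MACH] v2 from [PATCH].** -/
theorem twt_machine2_of_patch (hP : twt_Patch_stmt) : twt_Machine2_stmt :=
  twt_machine2_of_end (twt_end_of_patch hP)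

end Fermat.Agent.TW
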