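import Fermat.Agent.TW.Top.PatchOfData
import Fermat.Agent.TW.Loc.Main8Lv

/-!
# Project ONE MACHINE: `twt_Patch_stmt` FROM THE LEVEL INPUTS `twc_LvIn2` (helper25, deputy)

`twt_patch_of_lvStmt : twt_PatchLv_stmt → twt_Patch_stmt`  (PROVED).

* `twt_pl_hq` : in a discrete valuation ring of characteristic `0`, `q (1 - q) = unit * lam ^ k`
  for every natural number `q ≠ 0, 1` (hypothesis `hq` of helper4's `twb_main_lv`);
* `twt_patch_of_lv` : **ONE CALL** — `twb_main_lv` (= B/Main ∘ C/Level ∘ `twd_main_supp`) with the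
  `T₀`-side instance obligations discharged (`TW/Patch/T0Inst.lean`), `hq` and `lam ≠ 0` discharged,
  followed by the transport along a frame `r` of `ρ` (`twt_pd_of_prime`): the level inputs
  `I m : twc_LvIn2 …` for every `m`, with `β i k = (r σ - 1) i k`, give the last three clauses of
  `twt_Patch_stmt`;
* `twt_PatchLv_stmt` **= THE TARGET OF THE FINAL ASSEMBLY OF [C]** (C/Sigma + C/Rigid + [A] + [E]):
  under the hypotheses of `twt_Patch_stmt`, a base Hecke algebra `T` with datum `H`, a frame `r`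
  of `H.ρ`, a uniformiser `lam`, the finite type `Th` of hard primes with `a`, `n`, `q₀`, the
  numbers `g`, `rr`, `d`, the action `j`, and the level inputs `I m` for every `m`.
-/

set_option autoImplicit false
set_option linter.style.haveILetI false
set_option linter.unusedSectionVars false

namespace Fermat.Agent.TW

open Polynomial CuspForm IsLocalRing Fermat.Agent.S53 Fermat.Agent.JT3

/-- in a DVR of characteristic `0`: `q (1 - q) = unit * lam ^ k` for `q ≠ 0, 1`. -/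
theorem twt_pl_hq {O : Type} [CommRing O] [IsDomain O] [IsDiscreteValuationRing O] [CharZero O]
    {lam : O} (hmax : maximalIdeal O = Ideal.span {lam}) {q : ℕ} (hq0 : q ≠ 0) (hq1 : q ≠ 1) :
    ∃ (u : O) (k : ℕ), IsUnit u ∧ ((q : ℕ) : O) * (1 - (q : ℕ)) = u * lam ^ k := by
  have hirr : Irreducible lam := (IsDiscreteValuationRing.irreducible_iff_uniformizer lam).2 hmax
  have h0 : ((q : ℕ) : O) * (1 - (q : ℕ)) ≠ 0 := by
    refine mul_ne_zero (Nat.cast_ne_zero.2 hq0) ?_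
    rw [sub_ne_zero]
    intro h
    exact hq1 (Nat.cast_injective (R := O) (by rw [← h, Nat.cast_one]))
  obtain ⟨k, u, hu⟩ := IsDiscreteValuationRing.eq_unit_mul_pow_irreducible h0 hirr
  exact ⟨u, k, u.isUnit, hu⟩

/-- **ONE CALL**: from the level inputs to the conclusion of `twt_Patch_stmt`. -/
theorem twt_patch_of_lv {O : Type} [CommRing O] [IsDomain O] [IsDiscreteValuationRing O]
    [IsAdicComplete (maximalIdeal O) O] [Finite (ResidueField O)] [CharZero O]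
    {Th : Type} [Fintype Th]
    {T0 : Type} [CommRing T0] [IsNoetherianRing T0] [IsLocalRing T0]
    [IsAdicComplete (maximalIdeal T0) T0] [Algebra O T0] [IsLocalHom (algebraMap O T0)]
    [Module.Finite O T0]
    {lam : O} (hmax : maximalIdeal O = Ideal.span {lam})
    {p : ℕ} (hp : p.Prime) (hp2 : p ≠ 2) (hpO : (p : O) ∈ maximalIdeal O) {ζ : O}
    (hζ : IsPrimitiveRoot ζ p) (a : Th → O) (n : Th → ℕ) (hn : ∀ t, n t % p = 1)
    (han : ∀ t, a t ^ 2 - (n t : O) ∈ maximalIdeal O) (q₀ : Th) (hq0 : n q₀ ≠ 0) (hq1 : n q₀ ≠ 1)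
    (g rr : ℕ) (hr : rr = 3 * Fintype.card Th + g)
    {d : ℕ} (hd : 0 < d)
    {j : T0 →+* Matrix (Fin d) (Fin d) (MvPowerSeries (Fin rr) O ⧸ twds_a O rr)}
    (ρ : GaloisRepAdic T0) (fr : FramedRep T0) (hfr : ρ.IsEquiv fr.toGaloisRepAdic) (σ : twt_G)
    (I : ∀ m, twc_LvIn2 O lam rr d g (Th × Fin 2 × Fin 2 × Fin 2)
      (twb_r8_Junip O (Fin g ⊕ Fin g) p a n) (twb_r8_Jhash O (Fin g) p a n)
      (twds_a O rr) (twds_b O rr (p ^ m)) (twds_b_le_a rr (p ^ m)) T0 j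
      (fun i k => (q₀, 0, i, k)) (fun i k => (fr σ - 1) i k)) :
    ∃ 𝔓 : Ideal T0, 𝔓.IsPrime ∧
      (∃ lam : O, maximalIdeal O = Ideal.span {lam} ∧ algebraMap O T0 lam ∉ 𝔓) ∧
      ∀ v : ρ.V, ρ.ρ σ v - v ∈ 𝔓 • (⊤ : Submodule T0 ρ.V) := by
  have hlam' : lam ∈ maximalIdeal O := by
    rw [hmax]; exact Ideal.mem_span_singleton_self lam
  have hlam0 : lam ≠ 0 := by
    rintro rfl
    apply IsDiscreteValuationRing.not_a_field O
    rw [hmax]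
    simp
  have hpl : (p : O) ∈ Ideal.span {lam} := by rw [← hmax]; exact hpO
  haveI : IsAdicComplete (Ideal.span {algebraMap O T0 lam}) T0 := twd_t0_isAdicComplete hlam'
  obtain ⟨𝔓, h𝔓, hl, hβ⟩ := twb_main_lv hmax hlam0 hp hp2 hpl hζ a n hn han q₀
    (twt_pl_hq hmax hq0 hq1) g rr hr (twd_t0_finite_quot lam hmax) hd I
  exact ⟨𝔓, twt_pd_of_prime hmax ρ fr hfr σ 𝔓 h𝔓 hl hβ⟩

/-- **[PATCH-LV] = the target of the final assembly of [C]**. -/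
def twt_PatchLv_stmt : Prop :=
  ∀ (p : ℕ) [Fact p.Prime], 5 ≤ p →
  ∀ (k : Type) [Field k] [Finite k] [CharP k p]
    (N q : ℕ) [NeZero N], Squarefree N → 2 ∣ N → ¬ p ∣ N →
  ∀ (hq : q.Prime), q ≠ 2 → q ∣ N →
  ∀ (S : Finset ℕ), p ∈ S → (∀ ℓ : ℕ, ℓ.Prime → ℓ ∣ N → ℓ ∈ S) →
  ∀ (θ : heckeAlgebra N 2 (↑S : Set ℕ) →+* k) (ρbar : ResidualGaloisRep k),
    twt_Compat θ ρbar →
    twt_NonEis θ →
    ρbar.IsAbsolutelyIrreducible →
    twt_TWHyp ρbar →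
    ¬ ρbar.IsUnramifiedAt 2 →
    (∀ ℓ : ℕ, ℓ.Prime → ℓ ≠ 2 → ℓ ≠ p → ρbar.IsUnramifiedAt ℓ) →
    twt_AllHard p N ρbar →
  ∀ (𝒪 : Type) [CommRing 𝒪] [IsDomain 𝒪] [IsDiscreteValuationRing 𝒪]
    [IsAdicComplete (maximalIdeal 𝒪) 𝒪] [Finite (ResidueField 𝒪)] [CharZero 𝒪]
    [Algebra k (ResidueField 𝒪)],
    (p : 𝒪) ∈ maximalIdeal 𝒪 → (∃ ζ : 𝒪, IsPrimitiveRoot ζ p) →
    (∀ g : k[X], g.Monic → g.natDegree = 2 →
      ∃ α β : ResidueField 𝒪, g.map (algebraMap k (ResidueField 𝒪)) = (X - C α) * (X - C β)) →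
    ∃ (T : Type) (_ : CommRing T) (_ : IsLocalRing T) (_ : IsNoetherianRing T)
      (_ : IsAdicComplete (maximalIdeal T) T) (_ : Algebra 𝒪 T) (_ : IsLocalHom (algebraMap 𝒪 T))
      (_ : Module.Finite 𝒪 T) (_ : Module.Free 𝒪 T)
      (H : HeckeGaloisRepDatum N (↑S : Set ℕ) 𝒪 ((algebraMap k (ResidueField 𝒪)).comp θ) T)
      (fr : FramedRep T) (lam : 𝒪) (Th : Type) (_ : Fintype Th) (a : Th → 𝒪) (n : Th → ℕ)
      (q₀ : Th) (g rr d : ℕ)
      (j : T →+* Matrix (Fin d) (Fin d) (MvPowerSeries (Fin rr) 𝒪 ⧸ twds_a 𝒪 rr)),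
      H.ρ.IsEquiv fr.toGaloisRepAdic ∧ maximalIdeal 𝒪 = Ideal.span {lam} ∧
      (∀ t, n t % p = 1) ∧ (∀ t, a t ^ 2 - (n t : 𝒪) ∈ maximalIdeal 𝒪) ∧
      n q₀ ≠ 0 ∧ n q₀ ≠ 1 ∧ rr = 3 * Fintype.card Th + g ∧ 0 < d ∧
      ∀ m, Nonempty (twc_LvIn2 𝒪 lam rr d g (Th × Fin 2 × Fin 2 × Fin 2)
        (twb_r8_Junip 𝒪 (Fin g ⊕ Fin g) p a n) (twb_r8_Jhash 𝒪 (Fin g) p a n)
        (twds_a 𝒪 rr) (twds_b 𝒪 rr (p ^ m)) (twds_b_le_a rr (p ^ m)) T j
        (fun i k => (q₀, 0, i, k)) (fun i k => (fr (twc_tg_gsigma ⟨q, hq⟩) - 1) i k))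

/-- **[PATCH] from [PATCH-LV]**. -/
theorem twt_patch_of_lvStmt (hD : twt_PatchLv_stmt) : twt_Patch_stmt := by
  intro p hpF hp5 k _ _ _ N q _ hNsq h2N hpN hq hq2 hqN S hpS hNS θ ρbar hcompat hnE habs hTW hram2
    hunr hhard 𝒪 _ _ _ _ _ _ _ hp𝒪 hζ hquad
  obtain ⟨T, _, _, _, _, _, _, _, _, H, fr, lam, Th, _, a, n, q₀, g, rr, d, j, hfr, hlam, hn, han,
    hq0, hq1, hr, hd, hI⟩ :=
    hD p hp5 k N q hNsq h2N hpN hq hq2 hqN S hpS hNS θ ρbar hcompat hnE habs hTW hram2 hunr hhard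
      𝒪 hp𝒪 hζ hquad
  obtain ⟨ζ, hζ⟩ := hζ
  have hp2 : p ≠ 2 := by omega
  obtain ⟨𝔓, h⟩ := twt_patch_of_lv hlam hpF.out hp2 hp𝒪 hζ a n hn han q₀ hq0 hq1 g rr hr hd
    H.ρ fr hfr (twc_tg_gsigma ⟨q, hq⟩) (fun m => (hI m).some)
  exact ⟨T, inferInstance, inferInstance, inferInstance, inferInstance, inferInstance,
    inferInstance, inferInstance, inferInstance, H, 𝔓, h⟩

/-- **[MACH] v2 from [PATCH-LV].** -/
theorem twt_machine2_of_lvStmt (hD : twt_PatchLv_stmt) : twt_Machine2_stmt :=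
  twt_machine2_of_patch (twt_patch_of_lvStmt hD)

end Fermat.Agent.TW
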