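import Fermat.Agent.TW.Top.MachineSeam2
import Fermat.Agent.TW.Top.DetOfCompat
import Fermat.Agent.TW.Def.TameGenMain
import Fermat.Agent.S56.Asm.M
import Fermat.Agent.S58.BN2
import Fermat.Agent.S53.FramedResidual

/-!
# Project ONE MACHINE: the TOP adapter [C-INPUT] (helper9)

From the hypotheses of `twt_Machine2_stmt` (a residual representation `ρ̄` over the finite field
`k`) and a coefficient field `k' = ResidueField 𝒪` (`helper13`'s `twm0_coef`) to the input tuple of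
blocks [C]/[E] over `k'`:

* `twt_ci_compat`, `twt_ci_nonEis` : the eigensystem `θ' := algebraMap k k' ∘ θ` is compatible with
  `ρ̄' := ρ̄.baseChange k'` and non-Eisenstein;
* `twt_ci_abs`, `twt_ci_TWHyp`, `twt_ci_split`, `twt_ci_unram_iff` : transfer of the hypotheses to
  `ρ̄'`;
* `twt_ci_hyp` : `s56a_Hyp p ρ̄'` (the standing hypotheses of S56 / of `twc_core_flat`);
* `twt_ci_decomp_scalar` : at a hard prime `ℓ` (unramified, Frobenius scalar, `p ∣ ℓ - 1`) the
  whole decomposition group acts through scalars;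
* `twt_cinput` : the framed residual representation `rb` with all of the above.
-/

set_option autoImplicit false
set_option linter.style.haveILetI false
set_option linter.unusedSectionVars false

open scoped TensorProduct

namespace Fermat.Agent.TW

open Polynomial CuspForm IsLocalRing Fermat.Agent.S53 Fermat.Agent.S56

section transfer

variable {k k' : Type} [Field k] [Field k'] [Algebra k k'] (ρbar : ResidualGaloisRep k)

/-- characteristic polynomials after base change. -/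
theorem twt_ci_charpoly (σ : twt_G) :
    LinearMap.charpoly ((ρbar.baseChange k').ρ σ) =
      (LinearMap.charpoly (ρbar.ρ σ)).map (algebraMap k k') :=
  LinearMap.charpoly_baseChange _ _

/-- compatibility passes to the base change. -/
theorem twt_ci_compat {N : ℕ} [NeZero N] {S : Finset ℕ}
    (θ : heckeAlgebra N 2 (↑S : Set ℕ) →+* k) (h : twt_Compat θ ρbar) :
    twt_Compat ((algebraMap k k').comp θ) (ρbar.baseChange k') := by
  intro ℓ hℓ hℓN hℓS A hA σ hσ
  rw [twt_ci_charpoly, h ℓ hℓ hℓN hℓS A hA σ hσ]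
  simp only [Polynomial.map_add, Polynomial.map_sub, Polynomial.map_mul, Polynomial.map_pow,
    Polynomial.map_X, Polynomial.map_C, RingHom.comp_apply, map_natCast, Polynomial.map_natCast]

/-- non-Eisenstein passes to the base change. -/
theorem twt_ci_nonEis {N : ℕ} [NeZero N] {S : Finset ℕ}
    (θ : heckeAlgebra N 2 (↑S : Set ℕ) →+* k) (h : twt_NonEis θ) :
    twt_NonEis ((algebraMap k k').comp θ) := by
  obtain ⟨ℓ, hℓ, hℓN, hℓS, hne⟩ := h
  refine ⟨ℓ, hℓ, hℓN, hℓS, fun h' => hne ?_⟩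
  apply (algebraMap k k').injective
  rw [RingHom.comp_apply] at h'
  rw [h', map_add, map_natCast, map_one]

/-- absolute irreducibility passes to the base change. -/
theorem twt_ci_abs (h2 : (2 : k') ≠ 0) (habs : ρbar.IsAbsolutelyIrreducible) :
    (ρbar.baseChange k').IsAbsolutelyIrreducible :=
  Fermat.Agent.S58.s58bn_seam k k' (algebraMap k k') ρbar _ h2 habs (twt_ci_charpoly ρbar)

/-- splitting of the characteristic polynomials over a field splitting all quadratics of `k`. -/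
theorem twt_ci_split
    (hq : ∀ g : k[X], g.Monic → g.natDegree = 2 →
      ∃ α β : k', g.map (algebraMap k k') = (X - C α) * (X - C β)) (σ : twt_G) :
    ∃ α β : k', LinearMap.charpoly ((ρbar.baseChange k').ρ σ) = (X - C α) * (X - C β) := by
  rw [twt_ci_charpoly]
  refine hq _ (LinearMap.charpoly_monic _) ?_
  rw [LinearMap.charpoly_natDegree, ρbar.finrank_eq]

/-- `f.baseChange k' = 1 ↔ f = 1`. -/
theorem twt_ci_baseChange_eq_one_iff (f : Module.End k ρbar.V) :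
    f.baseChange k' = 1 ↔ f = 1 := by
  constructor
  · intro h
    have hinj : Function.Injective (TensorProduct.mk k k' ρbar.V 1) :=
      Module.Flat.tensorProduct_mk_injective k ρbar.V k'
    refine LinearMap.ext fun v => hinj ?_
    have := congrArg (fun g : Module.End k' (k' ⊗[k] ρbar.V) => g ((1 : k') ⊗ₜ[k] v)) h
    simpa using this
  · intro h
    rw [h, LinearMap.baseChange_one]

/-- ramification is insensitive to the base change. -/
theorem twt_ci_unram_iff (q : ℕ) :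
    (ρbar.baseChange k').IsUnramifiedAt q ↔ ρbar.IsUnramifiedAt q := by
  constructor
  · intro h A hA σ hσ
    exact (twt_ci_baseChange_eq_one_iff ρbar _).mp (h A hA σ hσ)
  · intro h A hA σ hσ
    exact (twt_ci_baseChange_eq_one_iff ρbar _).mpr (h A hA σ hσ)

/-- the Taylor–Wiles hypothesis passes to the base change. -/
theorem twt_ci_TWHyp (hTW : twt_TWHyp ρbar) : twt_TWHyp (ρbar.baseChange k') := by
  intro K _ _ G hG V hV
  letI : Algebra k K := ((algebraMap k' K).comp (algebraMap k k')).toAlgebra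
  haveI : IsScalarTower k k' K := IsScalarTower.of_algebraMap_eq (fun _ => rfl)
  let e : K ⊗[k'] (k' ⊗[k] ρbar.V) ≃ₗ[K] K ⊗[k] ρbar.V :=
    TensorProduct.AlgebraTensorModule.cancelBaseChange k k' K K ρbar.V
  have he : ∀ (σ : twt_G) (x : K ⊗[k'] (k' ⊗[k] ρbar.V)),
      e (((ρbar.ρ σ).baseChange k').baseChange K x) = (ρbar.ρ σ).baseChange K (e x) := by
    intro σ x
    rw [LinearMap.baseChange_baseChange]
    simp [e]
  have h1 := hTW K G hG (V.map e.toLinearMap) (by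
    rintro σ hσ y ⟨x, hx, rfl⟩
    refine ⟨((ρbar.baseChange k').baseChange K).ρ σ x, hV σ hσ x hx, ?_⟩
    exact he σ x)
  rcases h1 with h1 | h1
  · left
    rw [eq_bot_iff]
    intro x hx
    have h2 : e x ∈ V.map e.toLinearMap := ⟨x, hx, rfl⟩
    rw [h1, Submodule.mem_bot] at h2
    rw [Submodule.mem_bot]
    exact e.injective (by rw [h2, map_zero])
  · right
    rw [eq_top_iff] at h1 ⊢
    rintro x -
    obtain ⟨y, hy, hxy⟩ := h1 (Submodule.mem_top : e x ∈ ⊤)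
    have : y = x := e.injective hxy
    rwa [← this]

end transfer

section hyp

variable {k k' : Type} [Field k] [Field k'] [Algebra k k'] (ρbar : ResidualGaloisRep k)

/-- `2 ≠ 0` in a field of odd characteristic. -/
theorem twt_ci_two_ne_zero (F : Type*) [Field F] (p : ℕ) [Fact p.Prime] [CharP F p]
    (hp2 : p ≠ 2) : (2 : F) ≠ 0 := by
  intro h
  have h3 : ((2 : ℕ) : F) = 0 := by exact_mod_cast h
  rw [CharP.cast_eq_zero_iff F p] at h3
  have hp : p.Prime := Fact.out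
  rcases (Nat.dvd_prime Nat.prime_two).mp h3 with h4 | h4
  · exact hp.one_lt.ne' h4
  · exact hp2 h4

/-- **the standing hypotheses of S56 for `ρ̄' = ρ̄.baseChange k'`.** -/
theorem twt_ci_hyp {p : ℕ} [Fact p.Prime] (hp2 : p ≠ 2) [CharP k' p]
    {N : ℕ} [NeZero N] {S : Finset ℕ} (hNS : ∀ ℓ : ℕ, ℓ.Prime → ℓ ∣ N → ℓ ∈ S)
    (θ : heckeAlgebra N 2 (↑S : Set ℕ) →+* k) (hcompat : twt_Compat θ ρbar)
    (habs : ρbar.IsAbsolutelyIrreducible) (hTW : twt_TWHyp ρbar)
    (hq : ∀ g : k[X], g.Monic → g.natDegree = 2 →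
      ∃ α β : k', g.map (algebraMap k k') = (X - C α) * (X - C β)) :
    s56a_Hyp p (ρbar.baseChange k') :=
  ⟨twt_ci_abs ρbar (twt_ci_two_ne_zero k' p hp2) habs,
    twt_det_of_compat hNS _ _ (twt_ci_compat ρbar θ hcompat),
    twt_ci_split ρbar hq, twt_ci_TWHyp ρbar hTW⟩

end hyp

section scalar

variable {k : Type} [Field k]

/-- scalars form a subgroup: inverse. -/
theorem twt_ci_scalar_inv {V : Type*} [AddCommGroup V] [Module k V] [Nontrivial V]
    {Γ : Type*} [Group Γ] (f : Γ →* Module.End k V) (g : Γ) (c : k)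
    (h : f g = c • (1 : Module.End k V)) : f g⁻¹ = c⁻¹ • (1 : Module.End k V) := by
  have h1 : f g * f g⁻¹ = 1 := by rw [← map_mul, mul_inv_cancel, map_one]
  have hc : c ≠ 0 := by
    rintro rfl
    rw [h, zero_smul, zero_mul] at h1
    exact zero_ne_one h1
  rw [h, smul_mul_assoc, one_mul] at h1
  rw [← h1, smul_smul, inv_mul_cancel₀ hc, one_smul]

/-- scalars form a subgroup: integer powers. -/
theorem twt_ci_scalar_zpow {V : Type*} [AddCommGroup V] [Module k V] [Nontrivial V]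
    {Γ : Type*} [Group Γ] (f : Γ →* Module.End k V) (g : Γ) (c : k)
    (h : f g = c • (1 : Module.End k V)) (n : ℤ) :
    ∃ c' : k, f (g ^ n) = c' • (1 : Module.End k V) := by
  have hnat : ∀ m : ℕ, f (g ^ m) = (c ^ m) • (1 : Module.End k V) := by
    intro m
    rw [map_pow, h, _root_.smul_pow, one_pow]
  cases n with
  | ofNat m => exact ⟨c ^ m, by rw [Int.ofNat_eq_natCast, zpow_natCast]; exact hnat m⟩
  | negSucc m =>
    refine ⟨(c ^ (m + 1))⁻¹, ?_⟩
    rw [zpow_negSucc]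
    exact twt_ci_scalar_inv f _ _ (hnat (m + 1))

/-- **at a hard prime the whole decomposition group acts through scalars.** -/
theorem twt_ci_decomp_scalar (ρbar : ResidualGaloisRep k) {p ℓ : ℕ} (hp : p.Prime)
    [Fact ℓ.Prime] (hpl : p ∣ ℓ - 1) (hunr : ρbar.IsUnramifiedAt ℓ)
    (hscal : twt_FrobScalar ρbar ℓ) (A : ValuationSubring twt_Qb) (hA : A.LiesOverPrime ℓ)
    (τ : twt_G) (hτ : τ ∈ A.decompositionSubgroup ℚ) :
    ∃ c : k, ρbar.ρ τ = c • (1 : Module.End k ρbar.V) := by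
  haveI : Nontrivial ρbar.V :=
    Module.nontrivial_of_finrank_pos (R := k) (by rw [ρbar.finrank_eq]; norm_num)
  obtain ⟨L, hL, h1⟩ := ρbar.factorsThroughFiniteLevel
  haveI := hL
  have hL₀ : ∀ s ∈ L.fixingSubgroup, ρbar.ρ s = 1 := fun s hs =>
    h1 s (fun x hx => (IntermediateField.mem_fixingSubgroup_iff L s).mp hs x hx)
  have hpgrp : ∀ s ∈ A.inertiaSubgroupIn ℚ, ∃ j : ℕ, ρbar.ρ s ^ p ^ j = 1 := fun s hs =>
    ⟨0, by rw [pow_zero, pow_one]; exact hunr A hA s hs⟩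
  obtain ⟨n, m, hnm⟩ := twc_tg_decomp_gen ℓ A hA hp hpl ρbar.ρ L hL₀ hpgrp hτ
  obtain ⟨c, hc⟩ := hscal A hA (twc_tg_phi ℓ A hA) (twc_tg_phi_isFrobeniusAt ℓ A hA)
  obtain ⟨c', hc'⟩ := twt_ci_scalar_zpow ρbar.ρ (twc_tg_phi ℓ A hA) c hc n
  refine ⟨c', ?_⟩
  rw [hnm, map_mul, map_pow, hunr A hA _ (twc_tg_sigma_mem ℓ A hA), one_pow, mul_one, hc']

end scalar

section main

/-- the odd primes of `N`, as a `Finset Nat.Primes` (the hard primes `Th` of block [C]). -/
noncomputable def twt_ci_Th (N : ℕ) : Finset Nat.Primes :=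
  (N.primeFactors.erase 2).subtype Nat.Prime

theorem twt_ci_mem_Th {N : ℕ} (hN : N ≠ 0) (ℓ : Nat.Primes) :
    ℓ ∈ twt_ci_Th N ↔ (ℓ : ℕ) ∣ N ∧ (ℓ : ℕ) ≠ 2 := by
  have h : ℓ ∈ twt_ci_Th N ↔ (ℓ : ℕ) ∈ N.primeFactors.erase 2 := Finset.mem_subtype
  rw [h, Finset.mem_erase, Nat.mem_primeFactors]
  constructor
  · rintro ⟨h2, -, hd, -⟩
    exact ⟨hd, h2⟩
  · rintro ⟨hd, h2⟩
    exact ⟨h2, ℓ.2, hd, hN⟩

/-- **[C-INPUT]**: the framed residual representation over `k'` with all the hypotheses of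
blocks [C] (`twc_core_flat`, `twc_finrank_le`, `twc_present`) and [E]. -/
theorem twt_cinput {p : ℕ} [Fact p.Prime] (hp2 : p ≠ 2) {k k' : Type} [Field k] [Field k']
    [Algebra k k'] [CharP k' p]
    {N : ℕ} [NeZero N] (hpN : ¬ p ∣ N) {S : Finset ℕ} (hNS : ∀ ℓ : ℕ, ℓ.Prime → ℓ ∣ N → ℓ ∈ S)
    (θ : heckeAlgebra N 2 (↑S : Set ℕ) →+* k) (ρbar : ResidualGaloisRep k)
    (hcompat : twt_Compat θ ρbar) (habs : ρbar.IsAbsolutelyIrreducible) (hTW : twt_TWHyp ρbar)
    (hram2 : ¬ ρbar.IsUnramifiedAt 2)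
    (hunr : ∀ ℓ : ℕ, ℓ.Prime → ℓ ≠ 2 → ℓ ≠ p → ρbar.IsUnramifiedAt ℓ)
    (hhard : twt_AllHard p N ρbar)
    (hq : ∀ g : k[X], g.Monic → g.natDegree = 2 →
      ∃ α β : k', g.map (algebraMap k k') = (X - C α) * (X - C β)) :
    ∃ rb : FramedResidual k',
      (ρbar.baseChange k').IsEquiv rb.toResidualGaloisRep ∧
      s56a_Hyp p rb.toResidualGaloisRep ∧
      twt_Compat ((algebraMap k k').comp θ) rb.toResidualGaloisRep ∧
      (∀ q : ℕ, q.Prime → q ≠ p →
        (q ∈ ({2, p} : Finset ℕ) ↔ ¬ rb.toResidualGaloisRep.IsUnramifiedAt q)) ∧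
      (∀ ℓ ∈ twt_ci_Th N, (ℓ : ℕ) ∈ S) ∧
      (∀ ℓ ∈ twt_ci_Th N, (ℓ : ℕ) ∉ ({2, p} : Finset ℕ)) ∧
      (∀ ℓ ∈ twt_ci_Th N, (ℓ : ℕ) ≠ p ∧ p ∣ (ℓ : ℕ) - 1) ∧
      (∀ ℓ ∈ twt_ci_Th N, ∀ A : ValuationSubring twt_Qb, A.LiesOverPrime (ℓ : ℕ) →
        ∀ σ ∈ A.decompositionSubgroup ℚ, ∃ a : k', rb σ = Matrix.scalar (Fin 2) a) := by
  have hN0 : N ≠ 0 := NeZero.ne N
  have hp : p.Prime := Fact.out
  obtain ⟨rb, hrb⟩ := exists_framedResidual (ρbar.baseChange k')
  obtain ⟨hyp', hunr', hchar'⟩ := s56am_hypEquiv p k' (ρbar.baseChange k') rb hrb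
    (twt_ci_hyp ρbar hp2 hNS θ hcompat habs hTW hq)
  obtain ⟨e⟩ := hrb
  have hTh : ∀ ℓ ∈ twt_ci_Th N, (ℓ : ℕ) ∣ N ∧ (ℓ : ℕ) ≠ 2 := fun ℓ hℓ =>
    (twt_ci_mem_Th hN0 ℓ).mp hℓ
  have hThp : ∀ ℓ ∈ twt_ci_Th N, (ℓ : ℕ) ≠ p := fun ℓ hℓ h => hpN (h ▸ (hTh ℓ hℓ).1)
  refine ⟨rb, ⟨e⟩, hyp', ?_, ?_, ?_, ?_, ?_, ?_⟩
  · -- compatibility
    intro ℓ hℓ hℓN hℓS A hA σ hσ
    rw [← hchar' σ]
    exact twt_ci_compat ρbar θ hcompat ℓ hℓ hℓN hℓS A hA σ hσ
  · -- `Smin = {2, p}`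
    intro q hq' hqp
    rw [← hunr' q, twt_ci_unram_iff]
    constructor
    · intro hmem
      rw [Finset.mem_insert, Finset.mem_singleton] at hmem
      rcases hmem with rfl | h
      · exact hram2
      · exact absurd h hqp
    · intro h
      rw [Finset.mem_insert, Finset.mem_singleton]
      left
      by_contra h2
      exact h (hunr q hq' h2 hqp)
  · intro ℓ hℓ
    exact hNS ℓ ℓ.2 (hTh ℓ hℓ).1
  · intro ℓ hℓ hmem
    rw [Finset.mem_insert, Finset.mem_singleton] at hmem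
    rcases hmem with h | h
    · exact (hTh ℓ hℓ).2 h
    · exact hThp ℓ hℓ h
  · intro ℓ hℓ
    refine ⟨hThp ℓ hℓ, ?_⟩
    have h1 := (hhard ℓ ℓ.2 (hTh ℓ hℓ).1 (hTh ℓ hℓ).2).1
    have h2 : (ℓ : ℕ) % p = 1 % p := by rw [h1, Nat.mod_eq_of_lt hp.one_lt]
    exact (Nat.modEq_iff_dvd' ℓ.2.one_lt.le).mp h2.symm
  · intro ℓ hℓ A hA σ hσ
    haveI : Fact (ℓ : ℕ).Prime := ⟨ℓ.2⟩
    have hd : p ∣ (ℓ : ℕ) - 1 := by
      have h1 := (hhard ℓ ℓ.2 (hTh ℓ hℓ).1 (hTh ℓ hℓ).2).1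
      have h2 : (ℓ : ℕ) % p = 1 % p := by rw [h1, Nat.mod_eq_of_lt hp.one_lt]
      exact (Nat.modEq_iff_dvd' ℓ.2.one_lt.le).mp h2.symm
    obtain ⟨c, hc⟩ := twt_ci_decomp_scalar ρbar hp hd
      (hunr ℓ ℓ.2 (hTh ℓ hℓ).2 (hThp ℓ hℓ)) (hhard ℓ ℓ.2 (hTh ℓ hℓ).1 (hTh ℓ hℓ).2).2 A hA σ hσ
    refine ⟨algebraMap k k' c, ?_⟩
    have hbc : ∀ x : k' ⊗[k] ρbar.V,
        (ρbar.baseChange k').ρ σ x = algebraMap k k' c • x := by
      intro x
      change (ρbar.ρ σ).baseChange k' x = _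
      rw [hc]
      induction x using TensorProduct.induction_on with
      | zero => simp
      | tmul a v =>
        rw [LinearMap.baseChange_tmul, LinearMap.smul_apply, Module.End.one_apply,
          TensorProduct.tmul_smul, algebraMap_smul]
      | add x y hx hy => rw [map_add, hx, hy, smul_add]
    have key : ∀ y : Fin 2 → k', (rb σ).mulVec y = algebraMap k k' c • y := by
      intro y
      obtain ⟨x, hx⟩ := e.toLinearEquiv.surjective (y : rb.toResidualGaloisRep.V)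
      have h3 := e.map_apply σ x
      rw [hbc x, map_smul, hx] at h3
      exact h3.symm
    ext i j
    have h6 := congrFun (key (Pi.single j 1)) i
    simp only [Matrix.mulVec_single_one, Matrix.col_apply, Pi.smul_apply, smul_eq_mul] at h6
    rw [h6, Matrix.scalar_apply, Matrix.diagonal_apply]
    by_cases hij : i = j <;> simp [hij, Pi.single_apply]

end main

end Fermat.Agent.TW
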