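import Fermat.Agent.TW.Top.CoreSeam2
import Fermat.Agent.TW.Top.MachineSeam

/-!
# Project ONE MACHINE: LEVEL-2 seams of the CORE, VERSION 2 (helper9, chief architect)

`twt_core2_of : twt_Machine2_stmt → twt_ReadOff2_stmt → twt_Core2_stmt`.

Changes with respect to `MachineSeam.lean` (referee reports #4620, #4625):
* **[RO] v2** `twt_ReadOff2_stmt` has the extra hypotheses `5 ≤ p`, `p ∤ N`,
  `ρ.residual.IsAbsolutelyIrreducible` and "the reduction of `χ` is non-Eisenstein";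
* **[MACH] v2** `twt_Machine2_stmt` has the hypotheses of `twt_Core2_stmt` (HARD-ALL, `twt_TWHyp`,
  `twt_NonEis`, unramified outside `2p`) and ALSO outputs `ρ.residual.IsAbsolutelyIrreducible`.
-/

set_option autoImplicit false

namespace Fermat.Agent.TW

open Polynomial CuspForm IsLocalRing

/-- **[RO] READ-OFF, version 2**: a characteristic-`0` eigensystem of level `N`, residually
absolutely irreducible and non-Eisenstein, whose Galois representation is unramified at `q ∥ N`: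
its reduction occurs at level `N / q`. -/
def twt_ReadOff2_stmt : Prop :=
  ∀ (p : ℕ) [Fact p.Prime], 5 ≤ p →
  ∀ (N q : ℕ) [NeZero N] [NeZero (N / q)], Squarefree N → ¬ p ∣ N →
    q.Prime → q ∣ N → q ≠ p →
  ∀ (S : Finset ℕ), p ∈ S → (∀ ℓ : ℕ, ℓ.Prime → ℓ ∣ N → ℓ ∈ S) →
  ∀ (𝒪 : Type) [CommRing 𝒪] [IsDomain 𝒪] [IsDiscreteValuationRing 𝒪]
    [IsAdicComplete (maximalIdeal 𝒪) 𝒪] [Finite (ResidueField 𝒪)] [CharZero 𝒪],
    (p : 𝒪) ∈ maximalIdeal 𝒪 →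
  ∀ (χ : heckeAlgebra N 2 (↑S : Set ℕ) →+* 𝒪) (ρ : GaloisRepAdic 𝒪),
    twt_CompatAdic χ ρ → ρ.residual.IsAbsolutelyIrreducible →
    twt_NonEis ((residue 𝒪).comp χ) → ρ.IsUnramifiedAt q →
    ∃ (k' : Type) (_ : Field k') (_ : Algebra (ResidueField 𝒪) k')
      (θ' : heckeAlgebra (N / q) 2 (↑S : Set ℕ) →+* k'),
      ∀ (ℓ : ℕ) (hℓ : ℓ.Prime) (hℓN : ¬ ℓ ∣ N) (hℓM : ¬ ℓ ∣ N / q) (hℓS : ℓ ∉ (↑S : Set ℕ)),
        θ' (heckeAlgebra.T hℓ hℓM hℓS) =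
          algebraMap (ResidueField 𝒪) k' (residue 𝒪 (χ (heckeAlgebra.T hℓ hℓN hℓS)))

/-- **[MACH] THE MACHINE, version 2**: a modular lift of level `N`, residually absolutely
irreducible, which is unramified at the hard prime `q`. -/
def twt_Machine2_stmt : Prop :=
  ∀ (p : ℕ) [Fact p.Prime], 5 ≤ p →
  ∀ (k : Type) [Field k] [Finite k] [CharP k p]
    (N q : ℕ) [NeZero N], Squarefree N → 2 ∣ N → ¬ p ∣ N →
    q.Prime → q ≠ 2 → q ∣ N →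
  ∀ (S : Finset ℕ), p ∈ S → (∀ ℓ : ℕ, ℓ.Prime → ℓ ∣ N → ℓ ∈ S) →
  ∀ (θ : heckeAlgebra N 2 (↑S : Set ℕ) →+* k) (ρbar : ResidualGaloisRep k),
    twt_Compat θ ρbar →
    twt_NonEis θ →
    ρbar.IsAbsolutelyIrreducible →
    twt_TWHyp ρbar →
    ¬ ρbar.IsUnramifiedAt 2 →
    (∀ ℓ : ℕ, ℓ.Prime → ℓ ≠ 2 → ℓ ≠ p → ρbar.IsUnramifiedAt ℓ) →
    twt_AllHard p N ρbar →
    ∃ (𝒪 : Type) (_ : CommRing 𝒪) (_ : IsDomain 𝒪) (_ : IsDiscreteValuationRing 𝒪)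
      (_ : IsAdicComplete (maximalIdeal 𝒪) 𝒪) (_ : Finite (ResidueField 𝒪)) (_ : CharZero 𝒪)
      (_ : Algebra k (ResidueField 𝒪))
      (χ : heckeAlgebra N 2 (↑S : Set ℕ) →+* 𝒪) (ρ : GaloisRepAdic 𝒪),
      (p : 𝒪) ∈ maximalIdeal 𝒪 ∧
      (∀ t : heckeAlgebra N 2 (↑S : Set ℕ), residue 𝒪 (χ t) = algebraMap k (ResidueField 𝒪) (θ t)) ∧
      twt_CompatAdic χ ρ ∧ ρ.residual.IsAbsolutelyIrreducible ∧ ρ.IsUnramifiedAt q

/-- the reduction of a lift of a non-Eisenstein eigensystem is non-Eisenstein. -/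
theorem twt_nonEis_of_lift {k : Type} [Field k] {N : ℕ} [NeZero N] {S : Finset ℕ}
    {θ : heckeAlgebra N 2 (↑S : Set ℕ) →+* k} (hnE : twt_NonEis θ)
    {𝒪 : Type} [CommRing 𝒪] [IsLocalRing 𝒪] [Algebra k (ResidueField 𝒪)]
    {χ : heckeAlgebra N 2 (↑S : Set ℕ) →+* 𝒪}
    (hχθ : ∀ t, residue 𝒪 (χ t) = algebraMap k (ResidueField 𝒪) (θ t)) :
    twt_NonEis ((residue 𝒪).comp χ) := by
  obtain ⟨ℓ, hℓ, hℓN, hℓS, hne⟩ := hnE
  refine ⟨ℓ, hℓ, hℓN, hℓS, ?_⟩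
  intro h
  apply hne
  apply (algebraMap k (ResidueField 𝒪)).injective
  rw [RingHom.comp_apply, hχθ] at h
  rw [h, map_add, map_natCast, map_one]

/-- **CORE v2 from [MACH] v2 and [RO] v2.** -/
theorem twt_core2_of (hM : twt_Machine2_stmt) (hR : twt_ReadOff2_stmt) : twt_Core2_stmt := by
  intro p _ hp5 k _ _ _ N q _ _ hNsq h2N hpN hq hq2 hqN S hpS hNS θ ρbar hcompat hnE habs hTW hram2
    hunr hhard
  obtain ⟨𝒪, _, _, _, _, _, _, _, χ, ρ, hp𝒪, hχθ, hχρ, hρabs, hρq⟩ :=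
    hM p hp5 k N q hNsq h2N hpN hq hq2 hqN S hpS hNS θ ρbar hcompat hnE habs hTW hram2 hunr hhard
  have hqp : q ≠ p := by
    rintro rfl
    exact hpN hqN
  obtain ⟨k', _, _, θ', hθ'⟩ := hR p hp5 N q hNsq hpN hq hqN hqp S hpS hNS 𝒪 hp𝒪 χ ρ hχρ hρabs
    (twt_nonEis_of_lift hnE hχθ) hρq
  letI : Algebra k k' :=
    ((algebraMap (ResidueField 𝒪) k').comp (algebraMap k (ResidueField 𝒪))).toAlgebra
  refine ⟨k', inferInstance, inferInstance, θ', ?_⟩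
  intro ℓ hℓ hℓN hℓM hℓS
  rw [hθ' ℓ hℓ hℓN hℓM hℓS, hχθ]
  rfl

end Fermat.Agent.TW
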