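import Fermat.Agent.TW.Top.Out
import Fermat.Agent.TW.Top.MachineSeam2
import Fermat.Agent.S58.BN2

/-!
# Project ONE MACHINE: node (M7) [OUT], VERSION 2 (helper9)

`twt_out2` = `twt_out` (TW/Top/Out.lean) with the additional output
`ρ.residual.IsAbsolutelyIrreducible` required by `twt_Machine2_stmt` (TW/Top/MachineSeam2.lean).

* `twt_absIrr_baseChangeAlong` : residual absolute irreducibility is preserved by
  `GaloisRepAdic.baseChangeAlong` (two-dimensional Brauer–Nesbitt `s58bn_seam`, S58/BN2.lean).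
-/

set_option autoImplicit false
set_option linter.style.haveILetI false
set_option linter.unusedSectionVars false

namespace Fermat.Agent.TW

open Polynomial CuspForm IsLocalRing Fermat.Agent.JT3
open scoped TensorProduct

/-- residual absolute irreducibility is preserved by base change along a local homomorphism. -/
theorem twt_absIrr_baseChangeAlong {A B : Type} [CommRing A] [IsLocalRing A] [CommRing B]
    [IsLocalRing B] (ψ : A →+* B) (hψ : IsLocalHom ψ) (ρ : GaloisRepAdic A)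
    (h2 : (2 : ResidueField B) ≠ 0) (habs : ρ.residual.IsAbsolutelyIrreducible) :
    (ρ.baseChangeAlong ψ hψ).residual.IsAbsolutelyIrreducible := by
  haveI := hψ
  refine Fermat.Agent.S58.s58bn_seam (ResidueField A) (ResidueField B) (ResidueField.map ψ)
    ρ.residual _ h2 habs ?_
  intro σ
  letI : Algebra A B := ψ.toAlgebra
  change LinearMap.charpoly (((ρ.ρ σ).baseChange B).baseChange (ResidueField B)) =
    (LinearMap.charpoly ((ρ.ρ σ).baseChange (ResidueField A))).map _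
  rw [LinearMap.charpoly_baseChange, LinearMap.charpoly_baseChange,
    LinearMap.charpoly_baseChange, Polynomial.map_map, Polynomial.map_map]
  congr 1

/-- **(M7) [OUT], version 2**: `twt_out` + residual absolute irreducibility of the output. -/
theorem twt_out2
    {𝒪 : Type} [CommRing 𝒪] [IsDomain 𝒪] [IsDiscreteValuationRing 𝒪]
    [IsAdicComplete (maximalIdeal 𝒪) 𝒪] [Finite (ResidueField 𝒪)] [CharZero 𝒪]
    {p : ℕ} (hp2 : p ≠ 2) [Fact p.Prime] (hp𝒪 : (p : 𝒪) ∈ maximalIdeal 𝒪)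
    {N : ℕ} [NeZero N] {S : Finset ℕ}
    {θ : heckeAlgebra N 2 (↑S : Set ℕ) →+* ResidueField 𝒪}
    {T : Type} [CommRing T] [IsLocalRing T] [IsNoetherianRing T]
    [IsAdicComplete (maximalIdeal T) T] [Algebra 𝒪 T] [IsLocalHom (algebraMap 𝒪 T)]
    [Module.Finite 𝒪 T] [Module.Free 𝒪 T]
    (H : HeckeGaloisRepDatum N (↑S : Set ℕ) 𝒪 θ T) (q : ℕ)
    (𝔓 : Ideal T) (h𝔓 : 𝔓.IsPrime)
    (hinj : ∀ x : 𝒪, algebraMap 𝒪 T x ∈ 𝔓 → x = 0)
    (hI : ∀ A : ValuationSubring twt_Qb, A.LiesOverPrime q → ∀ σ ∈ A.inertiaSubgroupIn ℚ,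
      ∀ v : H.ρ.V, H.ρ.ρ σ v - v ∈ 𝔓 • (⊤ : Submodule T H.ρ.V)) :
    ∃ (𝒪' : Type) (_ : CommRing 𝒪') (_ : IsDomain 𝒪') (_ : IsDiscreteValuationRing 𝒪')
      (_ : IsAdicComplete (maximalIdeal 𝒪') 𝒪') (_ : Finite (ResidueField 𝒪')) (_ : CharZero 𝒪')
      (_ : Algebra (ResidueField 𝒪) (ResidueField 𝒪'))
      (χ : heckeAlgebra N 2 (↑S : Set ℕ) →+* 𝒪') (ρ : GaloisRepAdic 𝒪'),
      (p : 𝒪') ∈ maximalIdeal 𝒪' ∧
      (∀ t : heckeAlgebra N 2 (↑S : Set ℕ),
        residue 𝒪' (χ t) = algebraMap (ResidueField 𝒪) (ResidueField 𝒪') (θ t)) ∧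
      twt_CompatAdic χ ρ ∧ ρ.residual.IsAbsolutelyIrreducible ∧ ρ.IsUnramifiedAt q := by
  haveI := h𝔓
  haveI : Module.Finite 𝒪 (T ⧸ 𝔓) :=
    Module.Finite.of_surjective (Ideal.Quotient.mkₐ 𝒪 𝔓).toLinearMap
      (Ideal.Quotient.mkₐ_surjective 𝒪 𝔓)
  have hinjD : Function.Injective (algebraMap 𝒪 (T ⧸ 𝔓)) := by
    rw [injective_iff_map_eq_zero]
    intro x hx
    apply hinj x
    rw [← Ideal.Quotient.eq_zero_iff_mem]
    exact hx
  obtain ⟨𝒪', _, _, _, _, _, _, _, hloc𝒪, φ, hφinj, hφint⟩ := twt_out_dvr 𝒪 (T ⧸ 𝔓) hinjD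
  -- the ring homomorphism `T → 𝒪'`
  let ψ : T →+* 𝒪' := (φ : T ⧸ 𝔓 →+* 𝒪').comp (Ideal.Quotient.mk 𝔓)
  haveI h1 : IsLocalHom (Ideal.Quotient.mk 𝔓) :=
    IsLocalHom.of_surjective _ Ideal.Quotient.mk_surjective
  haveI h2 : IsLocalHom (φ : T ⧸ 𝔓 →+* 𝒪') := hφint.isLocalHom hφinj
  have hψ : IsLocalHom ψ := RingHom.isLocalHom_comp _ _
  have hψalg : ∀ x : 𝒪, ψ (algebraMap 𝒪 T x) = algebraMap 𝒪 𝒪' x := by
    intro x
    change φ (Ideal.Quotient.mk 𝔓 (algebraMap 𝒪 T x)) = _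
    rw [← Ideal.Quotient.algebraMap_eq, ← IsScalarTower.algebraMap_apply 𝒪 T (T ⧸ 𝔓),
      φ.commutes]
  have hψ𝔓 : ∀ a ∈ 𝔓, ψ a = 0 := by
    intro a ha
    change φ (Ideal.Quotient.mk 𝔓 a) = 0
    rw [Ideal.Quotient.eq_zero_iff_mem.mpr ha, map_zero]
  have hp𝒪' : (p : 𝒪') ∈ maximalIdeal 𝒪' := by
    have := map_nonunit (algebraMap 𝒪 𝒪') (p : 𝒪) hp𝒪
    rwa [map_natCast] at this
  letI : Algebra (ResidueField 𝒪) (ResidueField 𝒪') :=
    (ResidueField.map (algebraMap 𝒪 𝒪')).toAlgebra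
  letI : Algebra T 𝒪' := ψ.toAlgebra
  refine ⟨𝒪', inferInstance, inferInstance, inferInstance, inferInstance, inferInstance,
    inferInstance, inferInstance, ψ.comp H.π, H.ρ.baseChangeAlong ψ hψ, hp𝒪', ?_, ?_, ?_, ?_⟩
  · -- residue compatibility
    intro t
    obtain ⟨x, hx⟩ := residue_surjective (θ t)
    have h3 := H.residue_π t
    rw [← hx, ResidueField.map_residue] at h3
    have h4 : H.π t - algebraMap 𝒪 T x ∈ maximalIdeal T := by
      rw [← residue_eq_zero_iff, map_sub, h3, sub_self]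
    have h5 : ψ (H.π t - algebraMap 𝒪 T x) ∈ maximalIdeal 𝒪' := by
      haveI := hψ
      exact map_nonunit ψ _ h4
    rw [map_sub, hψalg, ← residue_eq_zero_iff, map_sub, sub_eq_zero] at h5
    rw [RingHom.comp_apply, h5, ← hx]
    change _ = ResidueField.map (algebraMap 𝒪 𝒪') (residue 𝒪 x)
    rw [ResidueField.map_residue]
  · -- Frobenius characteristic polynomials
    intro ℓ hℓ hℓN hℓS A hA σ hσ
    have h6 := H.charpoly_frob ℓ hℓ hℓN hℓS A hA σ hσ
    change LinearMap.charpoly ((H.ρ.ρ σ).baseChange 𝒪') = _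
    rw [LinearMap.charpoly_baseChange, h6]
    simp only [Polynomial.map_add, Polynomial.map_sub, Polynomial.map_mul, Polynomial.map_pow,
      Polynomial.map_X, Polynomial.map_C, Polynomial.map_natCast, RingHom.comp_apply, map_natCast]
    rfl
  · -- residual absolute irreducibility
    refine twt_absIrr_baseChangeAlong ψ hψ H.ρ ?_ H.residual_absIrr
    intro h
    -- `2 = 0` and `p = 0` in the residue field, `p` odd: `1 = 0`
    have hp0 : ((p : ℕ) : ResidueField 𝒪') = 0 := by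
      have := (residue_eq_zero_iff (p : 𝒪')).mpr hp𝒪'
      rwa [map_natCast] at this
    have hodd : Odd p := (Fact.out : p.Prime).odd_of_ne_two hp2
    obtain ⟨m, hm⟩ := hodd
    have h10 : (1 : ResidueField 𝒪') = 0 := by
      have h3 : ((p : ℕ) : ResidueField 𝒪') = 2 * (m : ResidueField 𝒪') + 1 := by
        rw [hm]; push_cast; ring
      rw [h, zero_mul, zero_add] at h3
      rw [← h3, hp0]
    exact one_ne_zero h10
  · -- unramified at `q`
    intro A hA σ hσ
    change (H.ρ.ρ σ).baseChange 𝒪' = 1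
    have hkill : ∀ w ∈ 𝔓 • (⊤ : Submodule T H.ρ.V), ∀ c : 𝒪', c ⊗ₜ[T] w = 0 := by
      intro w hw c
      refine Submodule.smul_induction_on
        (p := fun w => c ⊗ₜ[T] w = (0 : 𝒪' ⊗[T] H.ρ.V)) hw ?_ ?_
      · intro a ha v _
        rw [TensorProduct.tmul_smul, TensorProduct.smul_tmul', Algebra.smul_def]
        change (ψ a * c) ⊗ₜ[T] v = 0
        rw [hψ𝔓 a ha, zero_mul, TensorProduct.zero_tmul]
      · intro x y hx hy
        rw [TensorProduct.tmul_add, hx, hy, add_zero]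
    refine LinearMap.ext fun w => ?_
    induction w using TensorProduct.induction_on with
    | zero => rw [map_zero, map_zero]
    | tmul c v =>
      rw [LinearMap.baseChange_tmul, Module.End.one_apply, ← sub_eq_zero,
        ← TensorProduct.tmul_sub]
      exact hkill _ (hI A hA σ hσ v) c
    | add x y hx hy => rw [map_add, map_add, hx, hy]

end Fermat.Agent.TW
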