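import Fermat.Agent.TW.Top.CoreSeam2

/-!
# Project ONE MACHINE: the Taylor–Wiles hypothesis from a transvection (helper9)

FREY-FREE LINEAR ALGEBRA CELL for [F-in] ENTRY v2.

`ρ̄ : G_ℚ → GL₂(k)` irreducible (over `k`), `2 ≠ 0` in `k`, and `ρ̄(σ₀) = 1 + n` with `n ≠ 0`,
`n² = 0` (a transvection in the image).  Then
* `ρ̄` is absolutely irreducible, and
* `twt_TWHyp ρ̄` holds (every index-`2` subgroup acts irreducibly over every extension `K` of `k`).

Proof.  Let `G ⊴ G_ℚ` contain an element `g₀` with `ρ̄(g₀) = 1 + c n`, `c ≠ 0` (`G = ⊤`: `σ₀`, `c = 1`;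
`G` of index `2`: `σ₀²`, `c = 2`).  A `G`-stable subspace `W ≠ ⊥, ⊤` of `K ⊗ V` is stable under
`n_K`, hence equal to `ker n_K` (`twt_tv_stable_eq_ker`); the same holds for `ρ̄(g) W` (`G` is
normal), so `ker n_K` is `G_ℚ`-stable, hence so is `ker n ≤ V`: contradiction with irreducibility.
-/

set_option autoImplicit false

open scoped TensorProduct

namespace Fermat.Agent.TW

/-- in a plane, a proper nonzero subspace stable under a nonzero nilpotent `n` is `ker n`. -/
theorem twt_tv_stable_eq_ker {K V' : Type*} [Field K] [AddCommGroup V'] [Module K V']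
    (hdim : Module.finrank K V' = 2) (n : Module.End K V') (hn0 : n ≠ 0) (hn2 : n * n = 0)
    (W : Submodule K V') (hW : ∀ x ∈ W, n x ∈ W) (hbot : W ≠ ⊥) (htop : W ≠ ⊤) :
    W = LinearMap.ker n := by
  haveI : Module.Finite K V' := Module.finite_of_finrank_eq_succ hdim
  have hnn : ∀ v, n (n v) = 0 := fun v => by
    have := congrArg (fun f : Module.End K V' => f v) hn2
    simpa using this
  have hWlt : Module.finrank K W < 2 := hdim ▸ Submodule.finrank_lt htop
  have hker : LinearMap.ker n ≠ ⊤ := fun h => hn0 (LinearMap.ker_eq_top.mp h)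
  have hkerlt : Module.finrank K (LinearMap.ker n) < 2 :=
    hdim ▸ Submodule.finrank_lt hker
  have hWpos : 0 < Module.finrank K W := by
    rw [Module.finrank_pos_iff (R := K)]
    exact (Submodule.nontrivial_iff_ne_bot).mpr hbot
  have h1 : Module.finrank K W = 1 := by omega
  obtain ⟨w0, hw0, hspan⟩ := finrank_eq_one_iff'.mp h1
  have hle : W ≤ LinearMap.ker n := by
    -- `n w0 = c w0`, hence `c = 0`
    obtain ⟨c, hc⟩ := hspan ⟨n w0, hW _ w0.2⟩
    have hc' : c • (w0 : V') = n w0 := congrArg Subtype.val hc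
    have hc0 : c = 0 := by
      by_contra hne
      have h2 : n (w0 : V') = 0 := by
        have h3 : c • n (w0 : V') = 0 := by rw [← map_smul, hc', hnn]
        exact (smul_eq_zero.mp h3).resolve_left hne
      rw [h2] at hc'
      rcases smul_eq_zero.mp hc' with h | h
      · exact hne h
      · exact hw0 (Subtype.ext h)
    have hnw0 : n (w0 : V') = 0 := by rw [← hc', hc0, zero_smul]
    intro w hw
    obtain ⟨a, ha⟩ := hspan ⟨w, hw⟩
    have ha' : a • (w0 : V') = w := congrArg Subtype.val ha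
    rw [LinearMap.mem_ker, ← ha', map_smul, hnw0, smul_zero]
  exact Submodule.eq_of_le_of_finrank_le hle (by omega)

section residual

variable {k : Type} [Field k] (ρbar : ResidualGaloisRep k)

/-- the general form: a NORMAL subgroup `G` containing an element acting as `1 + c n`, `c ≠ 0`,
acts irreducibly on `K ⊗ ρ̄` for every extension `K` of `k`. -/
theorem twt_tv_irr (hirr : ρbar.IsIrreducible) (n : Module.End k ρbar.V) (hn0 : n ≠ 0)
    (hn2 : n * n = 0) (K : Type) [Field K] [Algebra k K] (G : Subgroup twt_G) [hG : G.Normal]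
    (g₀ : twt_G) (hg₀ : g₀ ∈ G) (c : k) (hc : c ≠ 0) (hg₀n : ρbar.ρ g₀ = 1 + c • n)
    (W : Submodule K (ρbar.baseChange K).V)
    (hW : ∀ σ ∈ G, ∀ x ∈ W, (ρbar.baseChange K).ρ σ x ∈ W) : W = ⊥ ∨ W = ⊤ := by
  by_contra hcon
  push_neg at hcon
  obtain ⟨hbot, htop⟩ := hcon
  have hact : ∀ (σ : twt_G) (a : K) (v : ρbar.V),
      (ρbar.baseChange K).ρ σ (a ⊗ₜ[k] v) = a ⊗ₜ[k] (ρbar.ρ σ v) := fun σ a v =>
    LinearMap.baseChange_tmul _ _ _
  have hinj : Function.Injective (TensorProduct.mk k K ρbar.V 1) :=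
    Module.Flat.tensorProduct_mk_injective k ρbar.V K
  set nK : Module.End K (K ⊗[k] ρbar.V) := n.baseChange K with hnK
  have hnKt : ∀ (a : K) (v : ρbar.V), nK (a ⊗ₜ[k] v) = a ⊗ₜ[k] n v := fun a v =>
    LinearMap.baseChange_tmul _ _ _
  have hnK0 : nK ≠ 0 := by
    intro h
    apply hn0
    refine LinearMap.ext fun v => hinj ?_
    have := congrArg (fun f : Module.End K (K ⊗[k] ρbar.V) => f ((1 : K) ⊗ₜ[k] v)) h
    simpa [hnKt] using this
  have hnK2 : nK * nK = 0 := by
    rw [hnK, ← LinearMap.baseChange_mul, hn2, LinearMap.baseChange_zero]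
  have hcK : algebraMap k K c ≠ 0 := (map_ne_zero (algebraMap k K)).mpr hc
  -- `ρ_K(g₀) = 1 + c n_K`
  have hg₀K : ∀ x, (ρbar.baseChange K).ρ g₀ x = x + algebraMap k K c • nK x := by
    intro x
    induction x using TensorProduct.induction_on with
    | zero => simp
    | tmul a v =>
      rw [hact, hg₀n, hnKt, LinearMap.add_apply, Module.End.one_apply, LinearMap.smul_apply,
        TensorProduct.tmul_add, TensorProduct.tmul_smul, algebraMap_smul]
    | add x y hx hy => rw [map_add, hx, hy, map_add, smul_add]; abel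
  -- every `G`-stable subspace is `n_K`-stable
  have hstab : ∀ W' : Submodule K (K ⊗[k] ρbar.V),
      (∀ σ ∈ G, ∀ x ∈ W', (ρbar.baseChange K).ρ σ x ∈ W') → ∀ x ∈ W', nK x ∈ W' := by
    intro W' hW' x hx
    have h1 := W'.sub_mem (hW' g₀ hg₀ x hx) hx
    rw [hg₀K, add_sub_cancel_left] at h1
    have h2 := W'.smul_mem (algebraMap k K c)⁻¹ h1
    rwa [smul_smul, inv_mul_cancel₀ hcK, one_smul] at h2
  have hdimK : Module.finrank K (K ⊗[k] ρbar.V) = 2 := (ρbar.baseChange K).finrank_eq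
  have hWker : W = LinearMap.ker nK :=
    twt_tv_stable_eq_ker hdimK nK hnK0 hnK2 W (hstab W hW) hbot htop
  -- `g W` is again `G`-stable, proper and nonzero, hence `= ker n_K`
  have hgW : ∀ g : twt_G, ∀ x ∈ W, (ρbar.baseChange K).ρ g x ∈ W := by
    intro g x hx
    have hginv : ∀ y, (ρbar.baseChange K).ρ g⁻¹ ((ρbar.baseChange K).ρ g y) = y := fun y => by
      rw [← Module.End.mul_apply, ← map_mul, inv_mul_cancel, map_one, Module.End.one_apply]
    have hginv' : ∀ y, (ρbar.baseChange K).ρ g ((ρbar.baseChange K).ρ g⁻¹ y) = y := fun y => by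
      rw [← Module.End.mul_apply, ← map_mul, mul_inv_cancel, map_one, Module.End.one_apply]
    let W' : Submodule K (K ⊗[k] ρbar.V) := W.comap ((ρbar.baseChange K).ρ g⁻¹)
    have hW'mem : ∀ y, y ∈ W' ↔ (ρbar.baseChange K).ρ g⁻¹ y ∈ W := fun y => Iff.rfl
    have hW'stab : ∀ σ ∈ G, ∀ y ∈ W', (ρbar.baseChange K).ρ σ y ∈ W' := by
      intro σ hσ y hy
      rw [hW'mem] at hy ⊢
      have hconj : g⁻¹ * σ * g⁻¹⁻¹ ∈ G := hG.conj_mem σ hσ g⁻¹
      have := hW _ hconj _ hy
      rw [← Module.End.mul_apply, ← map_mul] at this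
      rw [← Module.End.mul_apply, ← map_mul]
      have heq : g⁻¹ * σ * g⁻¹⁻¹ * g⁻¹ = g⁻¹ * σ := by group
      rwa [heq] at this
    have hW'bot : W' ≠ ⊥ := by
      obtain ⟨w, hw, hw0⟩ := (Submodule.ne_bot_iff W).mp hbot
      intro h
      have hmem : (ρbar.baseChange K).ρ g w ∈ W' := by rw [hW'mem, hginv]; exact hw
      rw [h, Submodule.mem_bot] at hmem
      apply hw0
      rw [← hginv w, hmem, map_zero]
    have hW'top : W' ≠ ⊤ := by
      intro h
      apply htop
      rw [eq_top_iff]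
      rintro y -
      have hmem : (ρbar.baseChange K).ρ g y ∈ W' := by rw [h]; exact Submodule.mem_top
      rwa [hW'mem, hginv] at hmem
    have hW'ker : W' = LinearMap.ker nK :=
      twt_tv_stable_eq_ker hdimK nK hnK0 hnK2 W' (hstab W' hW'stab) hW'bot hW'top
    have : (ρbar.baseChange K).ρ g x ∈ W' := by rw [hW'mem, hginv]; exact hx
    rwa [hW'ker, ← hWker] at this
  -- `ker n` is `G_ℚ`-stable
  have hL0 : ∀ σ : twt_G, ∀ v ∈ LinearMap.ker n, ρbar.ρ σ v ∈ LinearMap.ker n := by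
    intro σ v hv
    rw [LinearMap.mem_ker] at hv ⊢
    have h1 : (1 : K) ⊗ₜ[k] v ∈ W := by
      rw [hWker, LinearMap.mem_ker, hnKt, hv, TensorProduct.tmul_zero]
    have h2 := hgW σ _ h1
    rw [hact, hWker, LinearMap.mem_ker, hnKt] at h2
    apply hinj
    rw [TensorProduct.mk_apply, TensorProduct.mk_apply, h2, TensorProduct.tmul_zero]
  rcases hirr (LinearMap.ker n) hL0 with h | h
  · apply hn0
    refine LinearMap.ext fun v => ?_
    have hmem : n v ∈ LinearMap.ker n := by
      rw [LinearMap.mem_ker]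
      have := congrArg (fun f : Module.End k ρbar.V => f v) hn2
      simpa using this
    rw [h, Submodule.mem_bot] at hmem
    rw [hmem, LinearMap.zero_apply]
  · exact hn0 (LinearMap.ker_eq_top.mp h)

/-- **irreducible + a transvection in the image ⟹ absolutely irreducible and `twt_TWHyp`.** -/
theorem twt_tw_of_transvection (h2 : (2 : k) ≠ 0) (hirr : ρbar.IsIrreducible) (σ₀ : twt_G)
    (h1 : ρbar.ρ σ₀ ≠ 1) (hu : (ρbar.ρ σ₀ - 1) * (ρbar.ρ σ₀ - 1) = 0) :
    ρbar.IsAbsolutelyIrreducible ∧ twt_TWHyp ρbar := by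
  set n : Module.End k ρbar.V := ρbar.ρ σ₀ - 1 with hn
  have hn0 : n ≠ 0 := fun h => h1 (sub_eq_zero.mp h)
  have hσ₀ : ρbar.ρ σ₀ = 1 + (1 : k) • n := by rw [one_smul, hn]; abel
  constructor
  · intro W hW
    haveI : (⊤ : Subgroup twt_G).Normal := inferInstance
    exact twt_tv_irr ρbar hirr n hn0 hu (AlgebraicClosure k) ⊤ σ₀ (Subgroup.mem_top σ₀) 1
      one_ne_zero hσ₀ W (fun σ _ x hx => hW σ x hx)
  · intro K _ _ G hG W hW
    haveI : G.Normal := Subgroup.normal_of_index_eq_two hG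
    have hsq : ρbar.ρ (σ₀ * σ₀) = 1 + (2 : k) • n := by
      rw [map_mul]
      have : ρbar.ρ σ₀ = 1 + n := by rw [hn]; abel
      rw [this, mul_add, add_mul, add_mul, hu, one_mul, mul_one, one_mul, two_smul]
      abel
    exact twt_tv_irr ρbar hirr n hn0 hu K G (σ₀ * σ₀) (Subgroup.mul_self_mem_of_index_two hG σ₀) 2
      h2 hsq W hW

end residual

end Fermat.Agent.TW
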