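import Fermat.Agent.TW.Aut.Seams
import Fermat.Agent.S54.Frobenius

/-!
# Project ONE MACHINE: the Taylor–Wiles primes of block [C] form a Taylor–Wiles set of block [E]
(helper9)

Adapter between the output of `twc_finrank_le` (TW/Def/Present.lean: primes `qv i ∉ S`,
`p ^ (n + 1) ∣ qv i - 1`, `ρ̄(Frob)` with two DISTINCT eigenvalues `α ≠ β`) and the input
`twe_IsTWSet θ p Q` of `twe_M2_stmt` / `twe_M2LG_stmt` (TW/Aut/Seams.lean: `t % p = 1`,
`θ(T_t)² ≠ 4`).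

* `twt_ts_sq_ne_four` : `charpoly ρ̄(Frob_t) = X² − θ(T_t) X + t = (X − α)(X − β)`, `α ≠ β`,
  `t = 1` in `k` ⟹ `θ(T_t)² ≠ 4`  [`θ(T_t)² − 4 = (α − β)²`];
* `twt_ts_isTWSet` : the adapter;
* `twt_ts_pow_dvd_ord` : `p ^ (n + 1) ∣ t - 1 ⟹ p ^ (n + 1) ∣ twe_ord p t` (the `p`-Sylow quotient
  `Δ_t` surjects onto `ℤ/p^(n+1)`, a fortiori onto `ℤ/p^n`).

Prefix `twt_ts_`.
-/

set_option autoImplicit false
set_option linter.style.haveILetI false
set_option linter.unusedSectionVars false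

namespace Fermat.Agent.TW

open Polynomial CuspForm IsLocalRing

section

variable {p : ℕ} [Fact p.Prime] {k : Type} [Field k] [CharP k p]
  {N : ℕ} [NeZero N] {S : Finset ℕ}

/-- `t ≡ 1 mod p` gives `t = 1` in a field of characteristic `p`. -/
theorem twt_ts_cast_eq_one {t : ℕ} (ht : 0 < t) (h : p ∣ t - 1) : (t : k) = 1 := by
  obtain ⟨m, hm⟩ := h
  have h1 : t = p * m + 1 := by omega
  rw [h1, Nat.cast_add, Nat.cast_mul, CharP.cast_eq_zero k p, zero_mul, zero_add, Nat.cast_one]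

/-- distinct Frobenius eigenvalues at a prime `t ≡ 1 mod p` ⟹ `θ(T_t)² ≠ 4`. -/
theorem twt_ts_sq_ne_four (θ : heckeAlgebra N 2 (↑S : Set ℕ) →+* k) (ρb : ResidualGaloisRep k)
    (hc : twt_Compat θ ρb) {t : ℕ} (ht : t.Prime) (htN : ¬ t ∣ N) (htS : t ∉ (↑S : Set ℕ))
    (htp : p ∣ t - 1)
    (h : ∀ P : ValuationSubring twt_Qb, P.LiesOverPrime t → ∀ φ : twt_G, P.IsFrobeniusAt φ t →
      ∃ α β : k, α ≠ β ∧ LinearMap.charpoly (ρb.ρ φ) = (X - C α) * (X - C β)) :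
    θ (heckeAlgebra.T ht htN htS) ^ 2 ≠ 4 := by
  obtain ⟨P, φ, hP, hφ⟩ := Fermat.Agent.S54.exists_isFrobeniusAt ht
  obtain ⟨α, β, hαβ, h1⟩ := h P hP φ hφ
  have h2 := hc t ht htN htS P hP φ hφ
  rw [h1, twt_ts_cast_eq_one ht.pos htp] at h2
  have e1 := congrArg (fun Q : k[X] => Q.coeff 1) h2
  have e0 := congrArg (fun Q : k[X] => Q.coeff 0) h2
  have hexp : (X - C α) * (X - C β) = X ^ 2 - C (α + β) * X + C (α * β) := by
    rw [C_add, C_mul]; ring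
  rw [hexp] at e1 e0
  simp only [coeff_add, coeff_sub, coeff_X_pow, coeff_C_mul, coeff_X_one, coeff_X_zero,
    coeff_C] at e1 e0
  norm_num at e1 e0
  -- e1 : -β + -α = -θ T_t, e0 : α * β = 1
  intro h4
  have e1' : θ (heckeAlgebra.T ht htN htS) = α + β := by
    have := congrArg Neg.neg e1
    simp only [neg_add_rev, neg_neg] at this
    exact this.symm
  rw [e1'] at h4
  apply hαβ
  have h5 : (α - β) ^ 2 = 0 := by
    have : (α - β) ^ 2 = (α + β) ^ 2 - 4 * (α * β) := by ring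
    rw [this, h4, e0]; ring
  exact sub_eq_zero.mp ((pow_eq_zero_iff (two_ne_zero)).mp h5)

/-- `t ≡ 1 mod p`, in the `%` form. -/
theorem twt_ts_mod_eq_one {t : ℕ} (ht : 0 < t) (h : p ∣ t - 1) : t % p = 1 := by
  obtain ⟨m, hm⟩ := h
  have h1 : t = 1 + p * m := by omega
  rw [h1, Nat.add_mul_mod_self_left]
  exact Nat.mod_eq_of_lt (Fact.out : p.Prime).one_lt

/-- **the Taylor–Wiles primes of [C] form a Taylor–Wiles set of [E]**, disjoint from `S`. -/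
theorem twt_ts_isTWSet (θ : heckeAlgebra N 2 (↑S : Set ℕ) →+* k) (ρb : ResidualGaloisRep k)
    (hc : twt_Compat θ ρb) {r n : ℕ} (qv : Fin r → ℕ)
    (h2 : ∀ i, (qv i).Prime ∧ qv i ∉ S ∧ p ^ (n + 1) ∣ qv i - 1)
    (h3 : ∀ i, ∀ P : ValuationSubring twt_Qb, P.LiesOverPrime (qv i) →
      ∀ φ : twt_G, P.IsFrobeniusAt φ (qv i) → ∃ α β : k, α ≠ β ∧
        LinearMap.charpoly (ρb.ρ φ) = (X - C α) * (X - C β)) :
    twe_IsTWSet θ p (Finset.univ.image qv) ∧ ∀ t ∈ Finset.univ.image qv, t ∉ S := by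
  have hp1 : ∀ i, p ∣ qv i - 1 := fun i =>
    dvd_trans (dvd_pow_self p (Nat.succ_ne_zero n)) (h2 i).2.2
  refine ⟨fun t ht => ?_, fun t ht => ?_⟩
  · obtain ⟨i, -, rfl⟩ := Finset.mem_image.mp ht
    refine ⟨(h2 i).1, twt_ts_mod_eq_one (h2 i).1.pos (hp1 i), fun ht' htN htS => ?_⟩
    exact twt_ts_sq_ne_four θ ρb hc ht' htN htS (hp1 i) (h3 i)
  · obtain ⟨i, -, rfl⟩ := Finset.mem_image.mp ht
    exact (h2 i).2.1

/-- `p ^ m ∣ t - 1` ⟹ `p ^ m ∣ twe_ord p t`. -/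
theorem twt_ts_pow_dvd_ord {t m : ℕ} (ht : 1 < t) (h : p ^ m ∣ t - 1) : p ^ m ∣ twe_ord p t := by
  unfold twe_ord
  apply pow_dvd_pow
  have h0 : t - 1 ≠ 0 := by omega
  exact (padicValNat_dvd_iff_le h0).mp h

end

end Fermat.Agent.TW
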