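import Fermat.Agent.TW.Patch.InertiaBridge

/-!
# Project ONE MACHINE: the LINK between the output of patching and `twt_Patch_stmt` (helper9)

`twd_main_supp` / `twb_main_lv` produce a prime `𝔓` of `T_∅` containing the entries
`β i k = (r₀(σ_q) - 1) i k` of a FIXED framing `r₀` of `H_∅.ρ`.  The conclusion of
`twt_Patch_stmt` is stated for the representation `H_∅.ρ` itself:
`∀ v, H_∅.ρ.ρ σ_q v - v ∈ 𝔓 • ⊤`.

* `twt_link_small` : transport of "`≡ 1` modulo an ideal" along an equivalence of representations;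
* `twt_link` : `ρ.IsEquiv r.toGaloisRepAdic`, entries of `r σ - 1` in `𝔓` ⟹
  `∀ v, ρ.ρ σ v - v ∈ 𝔓 • ⊤`  (and conversely: `twt_link_iff`).

Prefix `twt_link`.
-/

set_option autoImplicit false
set_option linter.style.haveILetI false
set_option linter.unusedSectionVars false

namespace Fermat.Agent.TW

open IsLocalRing Fermat.Agent.S53

local notation "GQ" => (AlgebraicClosure ℚ ≃ₐ[ℚ] AlgebraicClosure ℚ)

section

variable {T : Type} [CommRing T] [IsLocalRing T]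

/-- transport of "`ρ(σ) ≡ 1` modulo `I`" along an equivalence of representations. -/
theorem twt_link_small {ρ₁ ρ₂ : GaloisRepAdic T} (h : ρ₁.IsEquiv ρ₂) (I : Ideal T) (σ : GQ)
    (h2 : ∀ v : ρ₂.V, ρ₂.ρ σ v - v ∈ I • (⊤ : Submodule T ρ₂.V)) :
    ∀ v : ρ₁.V, ρ₁.ρ σ v - v ∈ I • (⊤ : Submodule T ρ₁.V) := by
  obtain ⟨e⟩ := h
  intro v
  have h3 := h2 (e.toLinearEquiv v)
  rw [← e.map_apply, ← map_sub] at h3
  have h4 : e.toLinearEquiv.symm (e.toLinearEquiv (ρ₁.ρ σ v - v)) ∈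
      (I • (⊤ : Submodule T ρ₂.V)).map e.toLinearEquiv.symm.toLinearMap :=
    Submodule.mem_map_of_mem h3
  rw [LinearEquiv.symm_apply_apply, Submodule.map_smul''] at h4
  exact Submodule.smul_mono le_rfl le_top h4

/-- **the LINK**: the entries of `r σ - 1` lie in `𝔓` for a framing `r` of `ρ` ⟹ `ρ(σ) ≡ 1`
modulo `𝔓`. -/
theorem twt_link (ρ : GaloisRepAdic T) (r : FramedRep T) (h : ρ.IsEquiv r.toGaloisRepAdic)
    (𝔓 : Ideal T) (σ : GQ) (hσ : ∀ i j : Fin 2, (r σ - 1) i j ∈ 𝔓) :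
    ∀ v : ρ.V, ρ.ρ σ v - v ∈ 𝔓 • (⊤ : Submodule T ρ.V) := by
  refine twt_link_small h 𝔓 σ fun v => ?_
  have h1 := (twib_framed_small_iff r 𝔓 σ).2 hσ v
  simpa using h1

/-- the converse. -/
theorem twt_link_conv (ρ : GaloisRepAdic T) (r : FramedRep T) (h : ρ.IsEquiv r.toGaloisRepAdic)
    (𝔓 : Ideal T) (σ : GQ) (hv : ∀ v : ρ.V, ρ.ρ σ v - v ∈ 𝔓 • (⊤ : Submodule T ρ.V)) :
    ∀ i j : Fin 2, (r σ - 1) i j ∈ 𝔓 := by
  obtain ⟨e⟩ := h
  refine (twib_framed_small_iff r 𝔓 σ).1 fun v => ?_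
  have h1 := twt_link_small ⟨e.symm⟩ 𝔓 σ hv v
  simpa using h1

end

end Fermat.Agent.TW
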