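import Fermat.Agent.TW.Top.MachineSeam2
import Fermat.Agent.TW.Top.Out2
import Fermat.Agent.TW.Patch.MainSupp
import Fermat.Agent.TW.Patch.T0Inst

/-!
# Project ONE MACHINE: LEVEL-3 seam of the MACHINE (helper25, deputy)

`twt_machine_of : twt_PatchInput_stmt → twt_Machine2_stmt`  (PROVED).

* `twt_PatchData 𝒪 lam T0 β` : the argument list of `twd_main_supp` (block [D], node (M6)), bundled:
  the rings `S = S_∞`, `R1 = R¹_∞`, `Rχ = R^χ_∞`, `Rb` with their instances, the rank `d`, the ideals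
  `𝔞`, `𝔟 n`, the reductions `q1`, `qχ`, the action `j` of `T0` on `M_∅`, the universal entries `ν`,
  the level data `Lv n : twd_Level …` for every `n`, and the inputs `τ`, `hU`, `hη` of block [B].
* `twt_PatchInput_stmt` **[PATCH-INPUT] = (M0) + [C-INPUT] + (M1) + (M2) + [A] + [B] + [C]**:
  under the hypotheses of `twt_Machine2_stmt` there are a coefficient ring `𝒪` (complete DVR,
  characteristic `0`, finite residue field containing `k`) with uniformiser `lam`, a base Hecke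
  algebra `T0` with `H : HeckeGaloisRepDatum N ↑S 𝒪 (k → κ_𝒪) ∘ θ) T0`, elements `β i k : T0`,
  a `twt_PatchData 𝒪 lam T0 β`, and the LINK: every prime `𝔓` of `T0` containing all `β i k` makes
  all inertia groups above `q` act trivially on `H.ρ` modulo `𝔓`
  (`β` = entries of `r_∅(σ_q) - 1`; the link is helper2's `twib_out_hI`).
* the proof: `twd_main_supp` gives a characteristic-zero prime `𝔓 ∋ β`; the link gives the
  hypothesis `hI` of `twt_out2` (node (M7)); `twt_out2` gives the conclusion.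
The `T0`-side instance obligations of `twd_main_supp` are discharged here (`TW/Patch/T0Inst.lean`).
-/

set_option autoImplicit false
set_option linter.style.haveILetI false
set_option linter.unusedSectionVars false

namespace Fermat.Agent.TW

open Polynomial CuspForm IsLocalRing

/-- **the input of block [D]** (argument list of `twd_main_supp`), bundled, in universe `0`. -/
structure twt_PatchData (𝒪 : Type) [CommRing 𝒪] (lam : 𝒪) (T0 : Type) [CommRing T0]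
    [Algebra 𝒪 T0] (β : Fin 2 → Fin 2 → T0) : Type 1 where
  /-- `S_∞` -/
  S : Type
  [instS : CommRing S]
  [algS : Algebra 𝒪 S]
  [domS : IsDomain S]
  [noethS : IsNoetherianRing S]
  [locS : IsLocalRing S]
  [complS : IsAdicComplete (maximalIdeal S) S]
  /-- `R¹_∞` -/
  R1 : Type
  [instR1 : CommRing R1]
  [algR1 : Algebra 𝒪 R1]
  [noethR1 : IsNoetherianRing R1]
  [locR1 : IsLocalRing R1]
  [complR1 : IsAdicComplete (maximalIdeal R1) R1]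
  /-- `R^χ_∞` -/
  Rχ : Type
  [instRχ : CommRing Rχ]
  [algRχ : Algebra 𝒪 Rχ]
  [noethRχ : IsNoetherianRing Rχ]
  [locRχ : IsLocalRing Rχ]
  [complRχ : IsAdicComplete (maximalIdeal Rχ) Rχ]
  /-- the common special fibre -/
  Rb : Type
  [instRb : CommRing Rb]
  /-- the rank of the patched modules -/
  d : ℕ
  d_pos : 0 < d
  hS : ∀ k, Finite (S ⧸ maximalIdeal S ^ k)
  hR1 : ∀ k, Finite (R1 ⧸ maximalIdeal R1 ^ k)
  hRχ : ∀ k, Finite (Rχ ⧸ maximalIdeal Rχ ^ k)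
  hlamS : algebraMap 𝒪 S lam ∈ maximalIdeal S
  hlamS0 : algebraMap 𝒪 S lam ≠ 0
  /-- the augmentation ideal `(y_1, …, y_r)` -/
  𝔞 : Ideal S
  h𝔞 : 𝔞.IsPrime
  hlam𝔞 : algebraMap 𝒪 S lam ∉ 𝔞
  /-- the ideals `((1 + y_i) ^ p ^ n - 1)_i` -/
  𝔟 : ℕ → Ideal S
  h𝔟𝔞 : ∀ n, 𝔟 n ≤ 𝔞
  h𝔟 : ∀ n, 𝔟 n ≤ maximalIdeal S ^ n
  q1 : R1 →+* Rb
  qχ : Rχ →+* Rb
  hqχ : Function.Surjective qχ
  hkerχ : RingHom.ker qχ = Ideal.span {algebraMap 𝒪 Rχ lam}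
  /-- the action of `T0` on `M_∅ = 𝒪 ^ d` -/
  j : T0 →+* Matrix (Fin d) (Fin d) (S ⧸ 𝔞)
  /-- the entries of the universal `Σ_q - 1` -/
  ν : Fin 2 → Fin 2 → R1
  /-- the level data -/
  Lv : ∀ n, twd_Level 𝒪 lam S R1 Rχ Rb T0 d 𝔞 (𝔟 n) (h𝔟𝔞 n) q1 qχ j ν β
  /-- `τ = (tr Φ_q)² - (1 + q)²` -/
  τ : R1
  hU : ∀ 𝔭 : Ideal R1, 𝔭.IsPrime → algebraMap 𝒪 R1 lam ∉ 𝔭 → (∃ i k, ν i k ∉ 𝔭) → τ ∈ 𝔭
  hη : ∀ 𝔭 : Ideal Rχ, 𝔭.IsPrime → algebraMap 𝒪 Rχ lam ∉ 𝔭 →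
    ringKrullDim S ≤ ringKrullDim (Rχ ⧸ 𝔭) →
    ∃ ηb : Ideal Rb, ηb.IsPrime ∧ 𝔭 ≤ ηb.comap qχ ∧ q1 τ ∉ ηb

attribute [instance] twt_PatchData.instS twt_PatchData.algS twt_PatchData.domS
  twt_PatchData.noethS twt_PatchData.locS twt_PatchData.complS
  twt_PatchData.instR1 twt_PatchData.algR1 twt_PatchData.noethR1 twt_PatchData.locR1
  twt_PatchData.complR1
  twt_PatchData.instRχ twt_PatchData.algRχ twt_PatchData.noethRχ twt_PatchData.locRχ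
  twt_PatchData.complRχ twt_PatchData.instRb

/-- **(M6) on a bundled datum**: a characteristic-zero prime of `T0` containing `β`. -/
theorem twt_mo_exists_prime {𝒪 : Type} [CommRing 𝒪] [IsLocalRing 𝒪] [IsNoetherianRing 𝒪]
    [Finite (ResidueField 𝒪)] {lam : 𝒪} (hlam : maximalIdeal 𝒪 = Ideal.span {lam})
    {T0 : Type} [CommRing T0] [IsNoetherianRing T0] [IsLocalRing T0]
    [IsAdicComplete (maximalIdeal T0) T0] [Algebra 𝒪 T0] [IsLocalHom (algebraMap 𝒪 T0)]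
    [Module.Finite 𝒪 T0] {β : Fin 2 → Fin 2 → T0} (D : twt_PatchData 𝒪 lam T0 β) :
    ∃ 𝔓 : Ideal T0, 𝔓.IsPrime ∧ algebraMap 𝒪 T0 lam ∉ 𝔓 ∧ ∀ i k, β i k ∈ 𝔓 := by
  have hlam' : lam ∈ maximalIdeal 𝒪 := by
    rw [hlam]; exact Ideal.mem_span_singleton_self lam
  haveI : IsAdicComplete (Ideal.span {algebraMap 𝒪 T0 lam}) T0 := twd_t0_isAdicComplete hlam'
  exact twd_main_supp D.d_pos D.hS D.hR1 D.hRχ (twd_t0_finite_quot lam hlam) D.hlamS D.hlamS0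
    D.h𝔞 D.hlam𝔞 D.𝔟 D.h𝔟𝔞 D.h𝔟 D.hqχ D.hkerχ D.Lv D.τ D.hU D.hη

/-- **[PATCH-INPUT]**: what the blocks [A], [B], [C], [E] (+ (M0), [C-INPUT]) deliver together. -/
def twt_PatchInput_stmt : Prop :=
  ∀ (p : ℕ) [Fact p.Prime], 5 ≤ p →
  ∀ (k : Type) [Field k] [Finite k] [CharP k p]
    (N q : ℕ) [NeZero N], Squarefree N → 2 ∣ N → ¬ p ∣ N →
    q.Prime → q ≠ 2 → q ∣ N →
  ∀ (S : Finset ℕ), p ∈ S → (∀ ℓ : ℕ, ℓ.Prime → ℓ ∣ N → ℓ ∈ S) →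
  ∀ (θ : heckeAlgebra N 2 (↑S : Set ℕ) →+* k) (ρbar : ResidualGaloisRep k),
    twt_Compat θ ρbar →
    twt_NonEis θ →
    ρbar.IsAbsolutelyIrreducible →
    twt_TWHyp ρbar →
    ¬ ρbar.IsUnramifiedAt 2 →
    (∀ ℓ : ℕ, ℓ.Prime → ℓ ≠ 2 → ℓ ≠ p → ρbar.IsUnramifiedAt ℓ) →
    twt_AllHard p N ρbar →
    ∃ (𝒪 : Type) (_ : CommRing 𝒪) (_ : IsDomain 𝒪) (_ : IsDiscreteValuationRing 𝒪)
      (_ : IsAdicComplete (maximalIdeal 𝒪) 𝒪) (_ : Finite (ResidueField 𝒪)) (_ : CharZero 𝒪)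
      (_ : Algebra k (ResidueField 𝒪)) (lam : 𝒪)
      (T0 : Type) (_ : CommRing T0) (_ : IsLocalRing T0) (_ : IsNoetherianRing T0)
      (_ : IsAdicComplete (maximalIdeal T0) T0) (_ : Algebra 𝒪 T0)
      (_ : IsLocalHom (algebraMap 𝒪 T0)) (_ : Module.Finite 𝒪 T0) (_ : Module.Free 𝒪 T0)
      (H : HeckeGaloisRepDatum N (↑S : Set ℕ) 𝒪 ((algebraMap k (ResidueField 𝒪)).comp θ) T0)
      (β : Fin 2 → Fin 2 → T0),
      (p : 𝒪) ∈ maximalIdeal 𝒪 ∧ maximalIdeal 𝒪 = Ideal.span {lam} ∧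
      Nonempty (twt_PatchData 𝒪 lam T0 β) ∧
      ∀ 𝔓 : Ideal T0, 𝔓.IsPrime → (∀ i k, β i k ∈ 𝔓) →
        ∀ A : ValuationSubring twt_Qb, A.LiesOverPrime q → ∀ σ ∈ A.inertiaSubgroupIn ℚ,
          ∀ v : H.ρ.V, H.ρ.ρ σ v - v ∈ 𝔓 • (⊤ : Submodule T0 H.ρ.V)

/-- a prime of a `𝒪`-algebra which does not contain the uniformiser meets `𝒪` in `0`. -/
theorem twt_mo_inj {𝒪 : Type} [CommRing 𝒪] [IsDomain 𝒪] [IsDiscreteValuationRing 𝒪] {lam : 𝒪}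
    (hlam : maximalIdeal 𝒪 = Ideal.span {lam}) {T0 : Type} [CommRing T0] [Algebra 𝒪 T0]
    {𝔓 : Ideal T0} (h𝔓 : 𝔓.IsPrime) (hl : algebraMap 𝒪 T0 lam ∉ 𝔓) :
    ∀ x : 𝒪, algebraMap 𝒪 T0 x ∈ 𝔓 → x = 0 := by
  intro x hx
  by_contra hx0
  have hirr : Irreducible lam := (IsDiscreteValuationRing.irreducible_iff_uniformizer lam).2 hlam
  obtain ⟨n, u, rfl⟩ := IsDiscreteValuationRing.eq_unit_mul_pow_irreducible hx0 hirr
  rw [map_mul, map_pow] at hx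
  rcases h𝔓.mem_or_mem hx with h | h
  · exact h𝔓.ne_top (Ideal.eq_top_of_isUnit_mem _ h (u.isUnit.map (algebraMap 𝒪 T0)))
  · exact hl (h𝔓.mem_of_pow_mem n h)

/-- **[MACH] v2 from [PATCH-INPUT]**: `twd_main_supp` (M6) + the link + `twt_out2` (M7). -/
theorem twt_machine_of (hP : twt_PatchInput_stmt) : twt_Machine2_stmt := by
  intro p _ hp5 k _ _ _ N q _ hNsq h2N hpN hq hq2 hqN S hpS hNS θ ρbar hcompat hnE habs hTW hram2
    hunr hhard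
  obtain ⟨𝒪, _, _, _, _, _, _, _, lam, T0, _, _, _, _, _, _, _, _, H, β, hp𝒪, hlam, ⟨D⟩, hlink⟩ :=
    hP p hp5 k N q hNsq h2N hpN hq hq2 hqN S hpS hNS θ ρbar hcompat hnE habs hTW hram2 hunr hhard
  obtain ⟨𝔓, h𝔓, hl𝔓, hβ𝔓⟩ := twt_mo_exists_prime hlam D
  have hp2 : p ≠ 2 := by omega
  obtain ⟨𝒪', _, _, _, _, _, _, _, χ, ρ, hp𝒪', hres, hχρ, hρabs, hρq⟩ :=
    twt_out2 hp2 hp𝒪 H q 𝔓 h𝔓 (twt_mo_inj hlam h𝔓 hl𝔓) (hlink 𝔓 h𝔓 hβ𝔓)
  letI : Algebra k (ResidueField 𝒪') :=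
    ((algebraMap (ResidueField 𝒪) (ResidueField 𝒪')).comp (algebraMap k (ResidueField 𝒪))).toAlgebra
  refine ⟨𝒪', inferInstance, inferInstance, inferInstance, inferInstance, inferInstance,
    inferInstance, inferInstance, χ, ρ, hp𝒪', ?_, hχρ, hρabs, hρq⟩
  intro t
  rw [hres t]
  rfl

end Fermat.Agent.TW
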