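import Fermat.Agent.TW.Top.MachineSeam
import Fermat.Agent.JT3.Pack.DVRExt
import Fermat.Prelude.Def_CuspForm_HeckeGaloisRepDatum

/-!
# Project ONE MACHINE: node (M7) [OUT] (helper9)

From the output of the patching endgame — a prime `𝔓` of the base Hecke algebra `T = T_∅` of
characteristic `0` modulo which the Galois representation `H.ρ` is trivial on the inertia groups at
`q` — to the conclusion of `twt_Machine_stmt`: a complete DVR `𝒪'` (the normalisation of `T ⧸ 𝔓`),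
the eigensystem `χ : 𝕋_S(N) → T → 𝒪'` and the representation `ρ := H.ρ ⊗_T 𝒪'`, unramified at `q`.

* `twt_out_dvr` : the normalisation of a domain finite and torsion-free over a complete DVR
  (`JT3/Pack/DVRExt.lean`, `pkd_*`);
* `twt_out`     : the node.
-/

set_option autoImplicit false
set_option linter.style.haveILetI false
set_option linter.unusedSectionVars false

namespace Fermat.Agent.TW

open Polynomial CuspForm IsLocalRing Fermat.Agent.JT3
open scoped TensorProduct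

attribute [local instance] FractionRing.liftAlgebra FractionRing.isScalarTower_liftAlgebra

/-- the normalisation of a domain `D` finite and torsion-free over a complete DVR `𝒪` -/
theorem twt_out_dvr (𝒪 : Type) [CommRing 𝒪] [IsDomain 𝒪] [IsDiscreteValuationRing 𝒪]
    [IsAdicComplete (maximalIdeal 𝒪) 𝒪] [Finite (ResidueField 𝒪)] [CharZero 𝒪]
    (D : Type) [CommRing D] [IsDomain D] [Algebra 𝒪 D] [Module.Finite 𝒪 D]
    (hinj : Function.Injective (algebraMap 𝒪 D)) :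
    ∃ (𝒪' : Type) (_ : CommRing 𝒪') (_ : IsDomain 𝒪') (_ : IsDiscreteValuationRing 𝒪')
      (_ : IsAdicComplete (maximalIdeal 𝒪') 𝒪') (_ : Finite (ResidueField 𝒪')) (_ : CharZero 𝒪')
      (_ : Algebra 𝒪 𝒪') (_ : IsLocalHom (algebraMap 𝒪 𝒪')) (φ : D →ₐ[𝒪] 𝒪'),
      Function.Injective φ ∧ (φ : D →+* 𝒪').IsIntegral := by
  haveI : Module.IsTorsionFree 𝒪 D := Module.isTorsionFree_iff_algebraMap_injective.mpr hinj
  let K := FractionRing 𝒪
  let E := FractionRing D
  haveI : FiniteDimensional K E := inferInstance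
  haveI hloc : IsLocalRing (integralClosure 𝒪 E) := pkd_isLocalRing 𝒪 K E
  haveI hdvr : IsDiscreteValuationRing (integralClosure 𝒪 E) := pkd_isDVR 𝒪 K E
  have hint : ∀ d : D, algebraMap D E d ∈ integralClosure 𝒪 E := fun d =>
    (Algebra.IsIntegral.isIntegral (R := 𝒪) d).map (IsScalarTower.toAlgHom 𝒪 D E)
  refine ⟨integralClosure 𝒪 E, inferInstance, inferInstance, hdvr,
    pkd_isAdicComplete 𝒪 K E, pkd_finite_residue 𝒪 K E, pkd_charZero 𝒪 K E, inferInstance,
    pkd_isLocalHom 𝒪 K E, (IsScalarTower.toAlgHom 𝒪 D E).codRestrict (integralClosure 𝒪 E) hint,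
    ?_, ?_⟩
  · intro a b hab
    have := congrArg (algebraMap (integralClosure 𝒪 E) E) hab
    exact IsFractionRing.injective D E this
  · intro x
    have hx : IsIntegral 𝒪 x := Algebra.IsIntegral.isIntegral (R := 𝒪) x
    obtain ⟨P, hPm, hP0⟩ := hx
    refine ⟨P.map (algebraMap 𝒪 D), hPm.map _, ?_⟩
    rw [Polynomial.eval₂_map]
    have : ((IsScalarTower.toAlgHom 𝒪 D E).codRestrict (integralClosure 𝒪 E) hint : D →+* _).comp
        (algebraMap 𝒪 D) = algebraMap 𝒪 (integralClosure 𝒪 E) := by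
      ext a
      simp
    rw [this]
    exact hP0

/-- **(M7) [OUT]**: from a characteristic-`0` prime of the base Hecke algebra modulo which inertia at
`q` acts trivially, to a modular lift unramified at `q`. -/
theorem twt_out
    {𝒪 : Type} [CommRing 𝒪] [IsDomain 𝒪] [IsDiscreteValuationRing 𝒪]
    [IsAdicComplete (maximalIdeal 𝒪) 𝒪] [Finite (ResidueField 𝒪)] [CharZero 𝒪]
    {p : ℕ} (hp𝒪 : (p : 𝒪) ∈ maximalIdeal 𝒪)
    {N : ℕ} [NeZero N] {S : Finset ℕ}
    {θ : heckeAlgebra N 2 (↑S : Set ℕ) →+* ResidueField 𝒪}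
    {T : Type} [CommRing T] [IsLocalRing T] [IsNoetherianRing T]
    [IsAdicComplete (maximalIdeal T) T] [Algebra 𝒪 T] [IsLocalHom (algebraMap 𝒪 T)]
    [Module.Finite 𝒪 T] [Module.Free 𝒪 T]
    (H : HeckeGaloisRepDatum N (↑S : Set ℕ) 𝒪 θ T) (q : ℕ)
    (𝔓 : Ideal T) (h𝔓 : 𝔓.IsPrime)
    (hinj : ∀ x : 𝒪, algebraMap 𝒪 T x ∈ 𝔓 → x = 0)
    (hI : ∀ A : ValuationSubring twt_Qb, A.LiesOverPrime q → ∀ σ ∈ A.inertiaSubgroupIn ℚ,
      ∀ v : H.ρ.V, H.ρ.ρ σ v - v ∈ 𝔓 • (⊤ : Submodule T H.ρ.V)) :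
    ∃ (𝒪' : Type) (_ : CommRing 𝒪') (_ : IsDomain 𝒪') (_ : IsDiscreteValuationRing 𝒪')
      (_ : IsAdicComplete (maximalIdeal 𝒪') 𝒪') (_ : Finite (ResidueField 𝒪')) (_ : CharZero 𝒪')
      (_ : Algebra (ResidueField 𝒪) (ResidueField 𝒪'))
      (χ : heckeAlgebra N 2 (↑S : Set ℕ) →+* 𝒪') (ρ : GaloisRepAdic 𝒪'),
      (p : 𝒪') ∈ maximalIdeal 𝒪' ∧
      (∀ t : heckeAlgebra N 2 (↑S : Set ℕ),
        residue 𝒪' (χ t) = algebraMap (ResidueField 𝒪) (ResidueField 𝒪') (θ t)) ∧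
      twt_CompatAdic χ ρ ∧ ρ.IsUnramifiedAt q := by
  haveI := h𝔓
  haveI : Module.Finite 𝒪 (T ⧸ 𝔓) :=
    Module.Finite.of_surjective (Ideal.Quotient.mkₐ 𝒪 𝔓).toLinearMap
      (Ideal.Quotient.mkₐ_surjective 𝒪 𝔓)
  have hinjD : Function.Injective (algebraMap 𝒪 (T ⧸ 𝔓)) := by
    rw [injective_iff_map_eq_zero]
    intro x hx
    apply hinj x
    rw [← Ideal.Quotient.eq_zero_iff_mem]
    exact hx
  obtain ⟨𝒪', _, _, _, _, _, _, _, hloc𝒪, φ, hφinj, hφint⟩ := twt_out_dvr 𝒪 (T ⧸ 𝔓) hinjD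
  -- the ring homomorphism `T → 𝒪'`
  let ψ : T →+* 𝒪' := (φ : T ⧸ 𝔓 →+* 𝒪').comp (Ideal.Quotient.mk 𝔓)
  haveI h1 : IsLocalHom (Ideal.Quotient.mk 𝔓) :=
    IsLocalHom.of_surjective _ Ideal.Quotient.mk_surjective
  haveI h2 : IsLocalHom (φ : T ⧸ 𝔓 →+* 𝒪') := hφint.isLocalHom hφinj
  have hψ : IsLocalHom ψ := RingHom.isLocalHom_comp _ _
  have hψalg : ∀ x : 𝒪, ψ (algebraMap 𝒪 T x) = algebraMap 𝒪 𝒪' x := by
    intro x
    change φ (Ideal.Quotient.mk 𝔓 (algebraMap 𝒪 T x)) = _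
    rw [← Ideal.Quotient.algebraMap_eq, ← IsScalarTower.algebraMap_apply 𝒪 T (T ⧸ 𝔓),
      φ.commutes]
  have hψ𝔓 : ∀ a ∈ 𝔓, ψ a = 0 := by
    intro a ha
    change φ (Ideal.Quotient.mk 𝔓 a) = 0
    rw [Ideal.Quotient.eq_zero_iff_mem.mpr ha, map_zero]
  letI : Algebra (ResidueField 𝒪) (ResidueField 𝒪') :=
    (ResidueField.map (algebraMap 𝒪 𝒪')).toAlgebra
  letI : Algebra T 𝒪' := ψ.toAlgebra
  refine ⟨𝒪', inferInstance, inferInstance, inferInstance, inferInstance, inferInstance,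
    inferInstance, inferInstance, ψ.comp H.π, H.ρ.baseChangeAlong ψ hψ, ?_, ?_, ?_, ?_⟩
  · -- `p ∈ 𝔪`
    have := map_nonunit (algebraMap 𝒪 𝒪') (p : 𝒪) hp𝒪
    rwa [map_natCast] at this
  · -- residue compatibility
    intro t
    obtain ⟨x, hx⟩ := residue_surjective (θ t)
    have h3 := H.residue_π t
    rw [← hx, ResidueField.map_residue] at h3
    have h4 : H.π t - algebraMap 𝒪 T x ∈ maximalIdeal T := by
      rw [← residue_eq_zero_iff, map_sub, h3, sub_self]
    have h5 : ψ (H.π t - algebraMap 𝒪 T x) ∈ maximalIdeal 𝒪' := by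
      haveI := hψ
      exact map_nonunit ψ _ h4
    rw [map_sub, hψalg, ← residue_eq_zero_iff, map_sub, sub_eq_zero] at h5
    rw [RingHom.comp_apply, h5, ← hx]
    change _ = ResidueField.map (algebraMap 𝒪 𝒪') (residue 𝒪 x)
    rw [ResidueField.map_residue]
  · -- Frobenius characteristic polynomials
    intro ℓ hℓ hℓN hℓS A hA σ hσ
    have h6 := H.charpoly_frob ℓ hℓ hℓN hℓS A hA σ hσ
    change LinearMap.charpoly ((H.ρ.ρ σ).baseChange 𝒪') = _
    rw [LinearMap.charpoly_baseChange, h6]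
    simp only [Polynomial.map_add, Polynomial.map_sub, Polynomial.map_mul, Polynomial.map_pow,
      Polynomial.map_X, Polynomial.map_C, Polynomial.map_natCast, RingHom.comp_apply, map_natCast]
    rfl
  · -- unramified at `q`
    intro A hA σ hσ
    change (H.ρ.ρ σ).baseChange 𝒪' = 1
    have hkill : ∀ w ∈ 𝔓 • (⊤ : Submodule T H.ρ.V), ∀ c : 𝒪', c ⊗ₜ[T] w = 0 := by
      intro w hw c
      refine Submodule.smul_induction_on
        (p := fun w => c ⊗ₜ[T] w = (0 : 𝒪' ⊗[T] H.ρ.V)) hw ?_ ?_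
      · intro a ha v _
        rw [TensorProduct.tmul_smul, TensorProduct.smul_tmul', Algebra.smul_def]
        change (ψ a * c) ⊗ₜ[T] v = 0
        rw [hψ𝔓 a ha, zero_mul, TensorProduct.zero_tmul]
      · intro x y hx hy
        rw [TensorProduct.tmul_add, hx, hy, add_zero]
    refine LinearMap.ext fun w => ?_
    induction w using TensorProduct.induction_on with
    | zero => rw [map_zero, map_zero]
    | tmul c v =>
      rw [LinearMap.baseChange_tmul, Module.End.one_apply, ← sub_eq_zero,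
        ← TensorProduct.tmul_sub]
      exact hkill _ (hI A hA σ hσ v) c
    | add x y hx hy => rw [map_add, map_add, hx, hy]

end Fermat.Agent.TW
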