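import Fermat.Agent.TW.Top.MachineOfEnd
import Fermat.Agent.TW.Top.MachineOf
import Fermat.Agent.TW.Patch.InertiaBridge

/-!
# Project ONE MACHINE: ONE LEVEL UNDER `twt_Patch_stmt` (helper25, deputy)

`twt_patch_of_dataStmt : twt_PatchData_stmt → twt_Patch_stmt`  (PROVED).

* `twt_pd_small_of_equiv` : "`ρ σ ≡ 1` modulo `𝔓`" is invariant under equivalence of
  representations;
* `twt_pd_of_prime` : a prime `𝔓` of `T` of characteristic zero containing the entries of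
  `r(σ) - 1`, for a frame `r` of `H.ρ`, gives the last three clauses of `twt_Patch_stmt`;
* `twt_patch_of_data` : the same from a `twt_PatchData 𝒪 lam T β` with `β = ` entries of `r(σ) - 1`
  (`twd_main_supp` through `twt_mo_exists_prime`);
* `twt_PatchData_stmt` **= THE TARGET OF C/Level**: under the hypotheses of `twt_Patch_stmt`
  (in particular for the GIVEN coefficient ring `𝒪`): a base Hecke algebra `T` with its datum `H`,
  a frame `r` of `H.ρ`, a uniformiser `lam` and a `twt_PatchData 𝒪 lam T β` for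
  `β i k = (r (σ_q) - 1) i k`, `σ_q = twc_tg_gsigma ⟨q, hq⟩`.
-/

set_option autoImplicit false
set_option linter.style.haveILetI false
set_option linter.unusedSectionVars false

namespace Fermat.Agent.TW

open Polynomial CuspForm IsLocalRing Fermat.Agent.S53 Fermat.Agent.JT3

/-- "`ρ σ ≡ 1` modulo `P`" is invariant under equivalence. -/
theorem twt_pd_small_of_equiv {T : Type} [CommRing T] [IsLocalRing T] (ρ₁ ρ₂ : GaloisRepAdic T)
    (h : ρ₁.IsEquiv ρ₂) (P : Ideal T) (σ : twt_G)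
    (h2 : ∀ v : ρ₂.V, ρ₂.ρ σ v - v ∈ P • (⊤ : Submodule T ρ₂.V)) :
    ∀ v : ρ₁.V, ρ₁.ρ σ v - v ∈ P • (⊤ : Submodule T ρ₁.V) := by
  obtain ⟨E⟩ := h
  intro v
  have h3 := h2 (E.toLinearEquiv v)
  rw [← E.map_apply, ← map_sub] at h3
  have h4 : E.toLinearEquiv.symm (E.toLinearEquiv (ρ₁.ρ σ v - v)) ∈
      (P • (⊤ : Submodule T ρ₂.V)).map (E.toLinearEquiv.symm : ρ₂.V →ₗ[T] ρ₁.V) :=
    Submodule.mem_map_of_mem h3
  rw [LinearEquiv.symm_apply_apply, Submodule.map_smul''] at h4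
  exact Submodule.smul_mono le_rfl le_top h4

/-- a characteristic-zero prime containing the entries of `r σ - 1` gives the conclusion of
`twt_Patch_stmt`. -/
theorem twt_pd_of_prime {𝒪 : Type} [CommRing 𝒪] [IsLocalRing 𝒪] {lam : 𝒪}
    (hlam : maximalIdeal 𝒪 = Ideal.span {lam})
    {T : Type} [CommRing T] [IsLocalRing T] [Algebra 𝒪 T]
    (ρ : GaloisRepAdic T) (r : FramedRep T) (hr : ρ.IsEquiv r.toGaloisRepAdic) (σ : twt_G)
    (𝔓 : Ideal T) (h𝔓 : 𝔓.IsPrime) (hl : algebraMap 𝒪 T lam ∉ 𝔓)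
    (hβ : ∀ i k : Fin 2, (r σ - 1) i k ∈ 𝔓) :
    𝔓.IsPrime ∧ (∃ lam : 𝒪, maximalIdeal 𝒪 = Ideal.span {lam} ∧ algebraMap 𝒪 T lam ∉ 𝔓) ∧
      ∀ v : ρ.V, ρ.ρ σ v - v ∈ 𝔓 • (⊤ : Submodule T ρ.V) := by
  refine ⟨h𝔓, ⟨lam, hlam, hl⟩, ?_⟩
  refine twt_pd_small_of_equiv ρ r.toGaloisRepAdic hr 𝔓 σ ?_
  intro v
  have := (twib_framed_small_iff r 𝔓 σ).2 hβ v
  simpa using this

/-- **from a patching datum to the conclusion of `twt_Patch_stmt`**. -/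
theorem twt_patch_of_data {𝒪 : Type} [CommRing 𝒪] [IsLocalRing 𝒪] [IsNoetherianRing 𝒪]
    [Finite (ResidueField 𝒪)] {lam : 𝒪} (hlam : maximalIdeal 𝒪 = Ideal.span {lam})
    {T : Type} [CommRing T] [IsNoetherianRing T] [IsLocalRing T]
    [IsAdicComplete (maximalIdeal T) T] [Algebra 𝒪 T] [IsLocalHom (algebraMap 𝒪 T)]
    [Module.Finite 𝒪 T]
    (ρ : GaloisRepAdic T) (r : FramedRep T) (hr : ρ.IsEquiv r.toGaloisRepAdic) (σ : twt_G)
    (D : twt_PatchData 𝒪 lam T (fun i k => (r σ - 1) i k)) :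
    ∃ 𝔓 : Ideal T, 𝔓.IsPrime ∧
      (∃ lam : 𝒪, maximalIdeal 𝒪 = Ideal.span {lam} ∧ algebraMap 𝒪 T lam ∉ 𝔓) ∧
      ∀ v : ρ.V, ρ.ρ σ v - v ∈ 𝔓 • (⊤ : Submodule T ρ.V) := by
  obtain ⟨𝔓, h𝔓, hl, hβ⟩ := twt_mo_exists_prime hlam D
  exact ⟨𝔓, twt_pd_of_prime hlam ρ r hr σ 𝔓 h𝔓 hl hβ⟩

/-- **[PATCH-DATA] = the target of C/Level**. -/
def twt_PatchData_stmt : Prop :=
  ∀ (p : ℕ) [Fact p.Prime], 5 ≤ p →
  ∀ (k : Type) [Field k] [Finite k] [CharP k p]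
    (N q : ℕ) [NeZero N], Squarefree N → 2 ∣ N → ¬ p ∣ N →
  ∀ (hq : q.Prime), q ≠ 2 → q ∣ N →
  ∀ (S : Finset ℕ), p ∈ S → (∀ ℓ : ℕ, ℓ.Prime → ℓ ∣ N → ℓ ∈ S) →
  ∀ (θ : heckeAlgebra N 2 (↑S : Set ℕ) →+* k) (ρbar : ResidualGaloisRep k),
    twt_Compat θ ρbar →
    twt_NonEis θ →
    ρbar.IsAbsolutelyIrreducible →
    twt_TWHyp ρbar →
    ¬ ρbar.IsUnramifiedAt 2 →
    (∀ ℓ : ℕ, ℓ.Prime → ℓ ≠ 2 → ℓ ≠ p → ρbar.IsUnramifiedAt ℓ) →
    twt_AllHard p N ρbar →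
  ∀ (𝒪 : Type) [CommRing 𝒪] [IsDomain 𝒪] [IsDiscreteValuationRing 𝒪]
    [IsAdicComplete (maximalIdeal 𝒪) 𝒪] [Finite (ResidueField 𝒪)] [CharZero 𝒪]
    [Algebra k (ResidueField 𝒪)],
    (p : 𝒪) ∈ maximalIdeal 𝒪 → (∃ ζ : 𝒪, IsPrimitiveRoot ζ p) →
    (∀ g : k[X], g.Monic → g.natDegree = 2 →
      ∃ α β : ResidueField 𝒪, g.map (algebraMap k (ResidueField 𝒪)) = (X - C α) * (X - C β)) →
    ∃ (T : Type) (_ : CommRing T) (_ : IsLocalRing T) (_ : IsNoetherianRing T)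
      (_ : IsAdicComplete (maximalIdeal T) T) (_ : Algebra 𝒪 T) (_ : IsLocalHom (algebraMap 𝒪 T))
      (_ : Module.Finite 𝒪 T) (_ : Module.Free 𝒪 T)
      (H : HeckeGaloisRepDatum N (↑S : Set ℕ) 𝒪 ((algebraMap k (ResidueField 𝒪)).comp θ) T)
      (r : FramedRep T) (lam : 𝒪),
      H.ρ.IsEquiv r.toGaloisRepAdic ∧ maximalIdeal 𝒪 = Ideal.span {lam} ∧
      Nonempty (twt_PatchData 𝒪 lam T (fun i k => (r (twc_tg_gsigma ⟨q, hq⟩) - 1) i k))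

/-- **[PATCH] from [PATCH-DATA]** (`twd_main_supp` + transport along the frame). -/
theorem twt_patch_of_dataStmt (hD : twt_PatchData_stmt) : twt_Patch_stmt := by
  intro p _ hp5 k _ _ _ N q _ hNsq h2N hpN hq hq2 hqN S hpS hNS θ ρbar hcompat hnE habs hTW hram2
    hunr hhard 𝒪 _ _ _ _ _ _ _ hp𝒪 hζ hquad
  obtain ⟨T, _, _, _, _, _, _, _, _, H, r, lam, hr, hlam, ⟨D⟩⟩ :=
    hD p hp5 k N q hNsq h2N hpN hq hq2 hqN S hpS hNS θ ρbar hcompat hnE habs hTW hram2 hunr hhard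
      𝒪 hp𝒪 hζ hquad
  obtain ⟨𝔓, h⟩ := twt_patch_of_data hlam H.ρ r hr (twc_tg_gsigma ⟨q, hq⟩) D
  exact ⟨T, inferInstance, inferInstance, inferInstance, inferInstance, inferInstance,
    inferInstance, inferInstance, inferInstance, H, 𝔓, h⟩

/-- **[MACH] v2 from [PATCH-DATA].** -/
theorem twt_machine2_of_dataStmt (hD : twt_PatchData_stmt) : twt_Machine2_stmt :=
  twt_machine2_of_patch (twt_patch_of_dataStmt hD)

end Fermat.Agent.TW
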