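import Fermat.Agent.JT3.Tate.Inputs

/-!
# Project ONE MACHINE: a Hecke–Galois datum of level `N` away from `S` is unramified at EVERY
prime `q ∤ N p` (helper9)

Statement S31 gives unramifiedness at the primes `q ∉ S` only; the proof (`ur_main`,
`JT3/Unram/Main.lean`, helper19) uses `q ∉ S` only through `¬ q ∣ N` and `q ≠ p`.  Here the same
proof is run with these two hypotheses, so that also the primes of `S` which do not divide `N p` are
covered.  Consumer: the type `twc_IsType p Smin Th Q` of block [C] (unramified outside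
`Smin ∪ Th ∪ Q`) for the Hecke–Galois data of the Taylor–Wiles levels, where `S` is an ARBITRARY
finite set containing `p` and the primes of `N`.

Prefix `twt_ua_`.
-/

set_option autoImplicit false
set_option linter.style.haveILetI false
set_option linter.unusedSectionVars false

namespace Fermat.Agent.TW

open IsLocalRing Polynomial Fermat.Agent.JT3

section main

variable {p : ℕ} {N : ℕ} [NeZero N] {S : Finset ℕ}
  {𝒪 : Type} [CommRing 𝒪] [IsDomain 𝒪] [IsDiscreteValuationRing 𝒪]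
  [IsAdicComplete (IsLocalRing.maximalIdeal 𝒪) 𝒪]
  {θ : CuspForm.heckeAlgebra N 2 (↑S : Set ℕ) →+* IsLocalRing.ResidueField 𝒪}
  {T : Type} [CommRing T] [IsLocalRing T] [IsNoetherianRing T]
  [IsAdicComplete (IsLocalRing.maximalIdeal T) T] [Algebra 𝒪 T] [IsLocalHom (algebraMap 𝒪 T)]
  [Module.Finite 𝒪 T] [Module.Free 𝒪 T]

/-- `ur_main` with `q ∉ S` replaced by `¬ q ∣ N` and `q ≠ p`. -/
theorem twt_ua_main [Fact p.Prime] (D : pk_Tate p N S)
    (H : CuspForm.HeckeGaloisRepDatum N (↑S : Set ℕ) 𝒪 θ T)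
    (hpT : (p : T) ∈ maximalIdeal T) (hpS : p ∈ S)
    (hNS : ∀ q : ℕ, q.Prime → q ∣ N → q ∈ S)
    (lam : ↥(Algebra.adjoin ℤ_[p] (pk_heckeSet N S D.Tl)) →+* T)
    (hlam : ∀ (ℓ : ℕ) (hℓ : ℓ.Prime) (hℓN : ¬ ℓ ∣ N) (hℓS : ℓ ∉ (↑S : Set ℕ)),
      lam ⟨D.Tl ℓ, pk_mem_heckeSet D.Tl hℓ hℓN hℓS⟩ =
        H.π (CuspForm.heckeAlgebra.T hℓ hℓN hℓS))
    (q : ℕ) (hq : q.Prime) (hqN : ¬ q ∣ N) (hqp : q ≠ p) : H.ρ.IsUnramifiedAt q := by
  intro P hP τ hτ
  have hτ1 : D.ρ τ = 1 := D.unram q hq hqN hqp P hP τ hτ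
  have hτ2 : D.ρ τ⁻¹ = 1 := D.unram q hq hqN hqp P hP τ⁻¹ (inv_mem hτ)
  have hτ3 : cya_eps p ℤ_[p] ur_p_mem τ = 1 :=
    cya_eps_inertia p ℤ_[p] ur_p_mem hq hqp P hP hτ
  refine ur_tr_eq_one H.ρ H.residual_absIrr τ fun g => ?_
  have key : ∀ n, LinearMap.trace T H.ρ.V (H.ρ.ρ (g * τ)) -
      LinearMap.trace T H.ρ.V (H.ρ.ρ g) ∈ maximalIdeal T ^ n := fun n =>
    ur_trace_congr D H hpT hpS hNS lam hlam g (g * τ) (by rw [map_mul, hτ1, mul_one])
      (by rw [mul_inv_rev, map_mul, hτ2, one_mul]) (by rw [map_mul, hτ3, mul_one]) n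
  have hH : IsHausdorff (maximalIdeal T) T := inferInstance
  rw [← sub_eq_zero]
  refine hH.haus' _ fun n => ?_
  rw [SModEq.zero, smul_eq_mul, Ideal.mul_top]
  exact key n

/-- **A Hecke–Galois datum of level `N` away from `S` is unramified at every prime `q ∤ N p`**
(also at the primes of `S` that do not divide `N p`). -/
theorem twt_ua_unram (hp : p.Prime)
    (hp𝒪 : (p : 𝒪) ∈ IsLocalRing.maximalIdeal 𝒪) (hpS : p ∈ S)
    (hNS : ∀ q : ℕ, q.Prime → q ∣ N → q ∈ S)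
    (H : CuspForm.HeckeGaloisRepDatum N (↑S : Set ℕ) 𝒪 θ T)
    (q : ℕ) (hq : q.Prime) (hqN : ¬ q ∣ N) (hqp : q ≠ p) :
    H.ρ.IsUnramifiedAt q := by
  haveI : Fact p.Prime := ⟨hp⟩
  obtain ⟨D, hD⟩ := tjp_tateInput tji_nodeE tji_S18 p N S hpS hNS
  have hpT : (p : T) ∈ maximalIdeal T := by
    have h1 := map_nonunit (algebraMap 𝒪 T) (p : 𝒪) hp𝒪
    rwa [map_natCast] at h1
  let _ : Algebra ℤ_[p] T := (cya_padicHom p T hpT).toAlgebra
  obtain ⟨lam, hlam⟩ := hD T H.π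
  exact twt_ua_main D H hpT hpS hNS lam hlam q hq hqN hqp

end main

end Fermat.Agent.TW
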